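import Fermat.Agent.S58.Interface

/-!
# S58 / [BOUND] : `a_q(W) ≠ ±(q + 1)` (trivial point count)
-/

set_option autoImplicit false

open WeierstrassCurve WeierstrassCurve.Affine

namespace Fermat.Agent.S58

/-- `#W(F) ≤ 2 #F + 1`. -/
theorem Bound_card_le {F : Type} [Field F] [Finite F] (W' : Affine F) :
    Nat.card W'.Point ≤ 2 * Nat.card F + 1 := by
  classical
  have := Fintype.ofFinite F
  let T : Finset (F × F) := Finset.univ.filter fun xy => W'.Equation xy.1 xy.2
  let f : W'.Point → Option T := fun P =>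
    match P with
    | .zero => none
    | .some x y h => some ⟨(x, y), Finset.mem_filter.2 ⟨Finset.mem_univ _, h.left⟩⟩
  have hf : Function.Injective f := by
    rintro (_ | ⟨x₁, y₁, h₁⟩) (_ | ⟨x₂, y₂, h₂⟩) h
    · rfl
    · simp [f] at h
    · simp [f] at h
    · simp only [f, Option.some.injEq, Subtype.mk.injEq, Prod.mk.injEq] at h
      obtain ⟨rfl, rfl⟩ := h
      rfl
  have h1 : Nat.card W'.Point ≤ T.card + 1 := by
    have := Nat.card_le_card_of_injective f hf
    rwa [Finite.card_option, Nat.card_eq_fintype_card (α := T), Fintype.card_coe] at this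
  have h2 : T.card ≤ 2 * (T.image Prod.fst).card := by
    refine Finset.card_le_mul_card_image T 2 fun a _ => ?_
    rcases (T.filter fun xy => xy.1 = a).eq_empty_or_nonempty with he | ⟨⟨x, y⟩, hxy⟩
    · rw [he]; simp
    · rw [Finset.mem_filter, Finset.mem_filter] at hxy
      obtain ⟨⟨-, hE⟩, rfl⟩ := hxy
      refine le_trans (Finset.card_le_card (t := {(x, y), (x, W'.negY x y)}) ?_) Finset.card_le_two
      rintro ⟨x', y'⟩ h'
      rw [Finset.mem_filter, Finset.mem_filter] at h'
      obtain ⟨⟨-, hE'⟩, hx'⟩ := h'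
      have hx'' : x' = x := hx'
      subst hx''
      rcases Y_eq_of_X_eq hE' hE rfl with rfl | rfl
      · simp
      · simp
  have h3 : (T.image Prod.fst).card ≤ Nat.card F := by
    rw [Nat.card_eq_fintype_card]
    exact Finset.card_le_univ _
  omega

theorem stmt_Bound : Stmt_Bound := by
  intro W q hq
  have : Fact q.Prime := ⟨hq⟩
  have h1 := Bound_card_le (W.reductionMod q).toAffine
  have h2 : 0 < Nat.card (W.reductionMod q).toAffine.Point := Nat.card_pos
  have e : W.apOfModel q = (q : ℤ) + 1 - (Nat.card (W.reductionMod q).toAffine.Point : ℤ) := by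
    rw [apOfModel, traceOfFrobenius, card, Nat.card_zmod]
  rw [Nat.card_zmod] at h1
  rw [e]
  constructor <;> omega

end Fermat.Agent.S58
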