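import Fermat.Agent.S58.Interface2
import Fermat.Agent.S05.VarChange
import Fermat.Agent.S13.Count

/-!
# S58 [CARD-2] : `#E[n] = n²` for every integral model with `Δ ≠ 0` (change of variables to the
model `y² = x³ + a₂ x² + a₄ x`)
-/

set_option autoImplicit false

open WeierstrassCurve WeierstrassCurve.Affine Polynomial

namespace Fermat.Agent.S58

/-- a root of a monic integral cubic. -/
theorem Card_exists_root (K : Type*) [Field K] [IsAlgClosed K] [CharZero K] (b c d : ℤ) :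
    ∃ e : K, IsIntegral ℤ e ∧ e ^ 3 + (b : K) * e ^ 2 + (c : K) * e + (d : K) = 0 := by
  have hm : (X ^ 3 + C b * X ^ 2 + C c * X + C d : ℤ[X]).Monic := by monicity!
  have hd : (X ^ 3 + C b * X ^ 2 + C c * X + C d : ℤ[X]).natDegree = 3 := by compute_degree!
  have hd' : (X ^ 3 + C b * X ^ 2 + C c * X + C d : ℤ[X]).degree ≠ 0 := by
    rw [Polynomial.degree_eq_natDegree hm.ne_zero, hd]
    norm_num
  obtain ⟨e, he⟩ := IsAlgClosed.exists_aeval_eq_zero K _ hd'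
  refine ⟨e, ⟨_, hm, he⟩, ?_⟩
  simpa using he

theorem Card_isIntegral_int {K : Type*} [Field K] (n : ℤ) : IsIntegral ℤ (n : K) := by
  have := isIntegral_algebraMap (R := ℤ) (A := K) (x := n)
  simpa using this

/-- the change of variables. -/
theorem Card_abs {K : Type*} [Field K] [IsAlgClosed K] [CharZero K] (E : Affine K)
    (a₁ a₂ a₃ a₄ a₆ : ℤ) (h₁ : E.a₁ = a₁) (h₂ : E.a₂ = a₂) (h₃ : E.a₃ = a₃) (h₄ : E.a₄ = a₄)
    (h₆ : E.a₆ = a₆) (hΔ : E.Δ ≠ 0) :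
    ∃ C : VariableChange K, S05.IsMC (C • E : WeierstrassCurve K).toAffine ∧
      IsIntegral ℤ (C • E : WeierstrassCurve K).a₂ ∧ IsIntegral ℤ (C • E : WeierstrassCurve K).a₄ ∧
      (C • E : WeierstrassCurve K).a₄ ≠ 0 ∧
      (C • E : WeierstrassCurve K).a₂ ^ 2 - 4 * (C • E : WeierstrassCurve K).a₄ ≠ 0 := by
  obtain ⟨e, he, hroot⟩ := Card_exists_root K (a₁ ^ 2 + 4 * a₂) (8 * (2 * a₄ + a₁ * a₃))
    (16 * (a₃ ^ 2 + 4 * a₆))
  push_cast at hroot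
  have h2 : (2 : K) ≠ 0 := two_ne_zero
  let u : Kˣ := Units.mk0 (2⁻¹ : K) (inv_ne_zero h2)
  have hu : ((u⁻¹ : Kˣ) : K) = 2 := by simp [u]
  let C : VariableChange K :=
    ⟨u, e / 4, -(a₁ : K) / 2, -((a₁ : K) * e) / 8 - (a₃ : K) / 2⟩
  have e1 : (C • E : WeierstrassCurve K).a₁ = 0 := by
    rw [variableChange_a₁, h₁]
    show ((u⁻¹ : Kˣ) : K) * ((a₁ : K) + 2 * (-(a₁ : K) / 2)) = 0
    field_simp
    ring
  have e3 : (C • E : WeierstrassCurve K).a₃ = 0 := by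
    rw [variableChange_a₃, h₁, h₃]
    show ((u⁻¹ : Kˣ) : K) ^ 3 * ((a₃ : K) + e / 4 * (a₁ : K)
      + 2 * (-((a₁ : K) * e) / 8 - (a₃ : K) / 2)) = 0
    field_simp
    ring
  have e2 : (C • E : WeierstrassCurve K).a₂ = 3 * e + ((a₁ : K) ^ 2 + 4 * a₂) := by
    rw [variableChange_a₂, h₁, h₂]
    show ((u⁻¹ : Kˣ) : K) ^ 2 * ((a₂ : K) - (-(a₁ : K) / 2) * (a₁ : K) + 3 * (e / 4)
      - (-(a₁ : K) / 2) ^ 2) = _
    rw [hu]
    field_simp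
    ring
  have e4 : (C • E : WeierstrassCurve K).a₄
      = 3 * e ^ 2 + 2 * ((a₁ : K) ^ 2 + 4 * a₂) * e + 8 * (2 * a₄ + a₁ * a₃) := by
    rw [variableChange_a₄, h₁, h₂, h₃, h₄]
    show ((u⁻¹ : Kˣ) : K) ^ 4 * ((a₄ : K) - (-(a₁ : K) / 2) * (a₃ : K) + 2 * (e / 4) * (a₂ : K)
      - ((-((a₁ : K) * e) / 8 - (a₃ : K) / 2) + e / 4 * (-(a₁ : K) / 2)) * (a₁ : K)
      + 3 * (e / 4) ^ 2 - 2 * (-(a₁ : K) / 2) * (-((a₁ : K) * e) / 8 - (a₃ : K) / 2)) = _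
    rw [hu]
    field_simp
    ring
  have e6 : (C • E : WeierstrassCurve K).a₆ = 0 := by
    rw [variableChange_a₆, h₁, h₂, h₃, h₄, h₆]
    show ((u⁻¹ : Kˣ) : K) ^ 6 * ((a₆ : K) + e / 4 * (a₄ : K) + (e / 4) ^ 2 * (a₂ : K) + (e / 4) ^ 3
      - (-((a₁ : K) * e) / 8 - (a₃ : K) / 2) * (a₃ : K)
      - (-((a₁ : K) * e) / 8 - (a₃ : K) / 2) ^ 2
      - e / 4 * (-((a₁ : K) * e) / 8 - (a₃ : K) / 2) * (a₁ : K)) = 0
    rw [hu]
    have : (2 : K) ^ 6 * ((a₆ : K) + e / 4 * (a₄ : K) + (e / 4) ^ 2 * (a₂ : K) + (e / 4) ^ 3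
      - (-((a₁ : K) * e) / 8 - (a₃ : K) / 2) * (a₃ : K)
      - (-((a₁ : K) * e) / 8 - (a₃ : K) / 2) ^ 2
      - e / 4 * (-((a₁ : K) * e) / 8 - (a₃ : K) / 2) * (a₁ : K))
      = e ^ 3 + ((a₁ : K) ^ 2 + 4 * a₂) * e ^ 2 + 8 * (2 * a₄ + a₁ * a₃) * e
        + 16 * ((a₃ : K) ^ 2 + 4 * a₆) := by
      field_simp
      ring
    rw [this, hroot]
  have hMC : S05.IsMC (C • E : WeierstrassCurve K).toAffine := ⟨e1, e3, e6⟩
  have hΔ' : (C • E : WeierstrassCurve K).Δ ≠ 0 := by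
    rw [variableChange_Δ]
    exact mul_ne_zero (pow_ne_zero _ (Units.ne_zero _)) hΔ
  have hΔ'' := S13.count_Δ hMC
  have i1 : ∀ n : ℤ, IsIntegral ℤ (n : K) := Card_isIntegral_int
  have i3 : IsIntegral ℤ (3 : K) := by simpa using i1 3
  have i2 : IsIntegral ℤ (2 : K) := by simpa using i1 2
  have i4 : IsIntegral ℤ (4 : K) := by simpa using i1 4
  have i8 : IsIntegral ℤ (8 : K) := by simpa using i1 8
  refine ⟨C, hMC, ?_, ?_, ?_, ?_⟩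
  · rw [e2]
    exact (i3.mul he).add (((i1 a₁).pow 2).add (i4.mul (i1 a₂)))
  · rw [e4]
    exact ((i3.mul (he.pow 2)).add ((i2.mul (((i1 a₁).pow 2).add (i4.mul (i1 a₂)))).mul he)).add
      (i8.mul ((i2.mul (i1 a₄)).add ((i1 a₁).mul (i1 a₃))))
  · intro h0
    apply hΔ'
    rw [show (C • E : WeierstrassCurve K).Δ = _ from hΔ'']
    rw [show (C • E : WeierstrassCurve K).toAffine.a₄ = 0 from h0]
    ring
  · intro h0
    apply hΔ'
    rw [show (C • E : WeierstrassCurve K).Δ = _ from hΔ'']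
    rw [show (C • E : WeierstrassCurve K).toAffine.a₂ ^ 2
      - 4 * (C • E : WeierstrassCurve K).toAffine.a₄ = 0 from h0]
    ring

theorem stmt_Card (h : Stmt_CardMC) : Stmt_Card := by
  intro W hΔ n hn
  have hΔ' : (EQ W).Δ ≠ 0 := by
    have : (EQ W).Δ = ((W.Δ : ℤ) : Qb) := by
      show ((W.map (Int.castRingHom ℚ)).map (algebraMap ℚ Qb)).Δ = _
      rw [WeierstrassCurve.map_Δ, WeierstrassCurve.map_Δ]
      simp
    rw [this]
    exact Int.cast_ne_zero.2 hΔ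
  obtain ⟨C, hMC, ha2, ha4, h4, hd⟩ := Card_abs (EQ W) W.a₁ W.a₂ W.a₃ W.a₄ W.a₆
    (by simp [EQ]) (by simp [EQ]) (by simp [EQ]) (by simp [EQ]) (by simp [EQ]) hΔ'
  rw [← h _ hMC ha2 ha4 h4 hd n hn]
  refine Nat.card_congr ?_
  refine (S05.vcEquiv (EQ W) C).symm.toEquiv.subtypeEquiv ?_
  intro x
  change _ ↔ n • (S05.vcEquiv (EQ W) C).symm x = 0
  rw [← map_nsmul, AddEquiv.map_eq_zero_iff]

end Fermat.Agent.S58
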