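import Fermat.Agent.S58.Interface2
import Fermat.Agent.S13.TFinal

/-!
# S58 / [CARD-1] : `#E[n] = n²` for `y² = x³ + a₂ x² + a₄ x`, `a₂, a₄` algebraic integers

Copy-adaptation of `S13/NonTorsion.lean` and of the glue of `S13/PolyIdGlue.lean`.
-/

set_option autoImplicit false

open WeierstrassCurve WeierstrassCurve.Affine WeierstrassCurve.Affine.Point
open Polynomial

namespace Fermat.Agent.S58

/-- an algebraic integer lies in every valuation subring. -/
theorem CardMC_val_le_one (V : ValuationSubring Qb) {x : Qb} (hx : IsIntegral ℤ x) :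
    V.valuation x ≤ 1 := by
  rw [ValuationSubring.valuation_le_one_iff]
  have h1 : IsIntegral V x := hx.tower_top
  obtain ⟨y, hy⟩ := IsIntegrallyClosed.isIntegral_iff.1 h1
  rw [← hy]
  exact y.2

/-- A point in the kernels of reduction at `3` and at `5` is not torsion. -/
theorem CardMC_nonTorsion {E : Affine Qb} (hE : S05.IsMC E) (h2 : IsIntegral ℤ E.a₂)
    (h4 : IsIntegral ℤ E.a₄) (V3 V5 : ValuationSubring Qb)
    (h3 : ((3 : ℕ) : Qb) ∈ V3.nonunits) (h5 : ((5 : ℕ) : Qb) ∈ V5.nonunits)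
    (P : E.Point) (hP3 : S05.InE1 V3.valuation P) (hP5 : S05.InE1 V5.valuation P)
    (n : ℕ) (hn : 0 < n) (hnP : n • P = 0) : P = 0 := by
  have hU : ∀ V : ValuationSubring Qb, V.valuation E.a₂ ≤ 1 := fun V => CardMC_val_le_one V h2
  have hW : ∀ V : ValuationSubring Qb, V.valuation E.a₄ ≤ 1 := fun V => CardMC_val_le_one V h4
  obtain ⟨a, m, hm, rfl⟩ := Nat.exists_eq_pow_mul_and_not_dvd hn.ne' 3 (by norm_num)
  have h1 : (3 ^ a) • P = 0 := by
    apply hE.E1_torsion_free (hU V3) (hW V3) _ (hE.E1_nsmul (hU V3) (hW V3) P hP3 _).1 m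
      (S13.T4_val_natCast_eq_one V3 Nat.prime_three h3 hm)
    rw [← mul_smul, mul_comm]
    exact hnP
  apply hE.E1_torsion_free (hU V5) (hW V5) P hP5 (3 ^ a) _ h1
  apply S13.T4_val_natCast_eq_one V5 Nat.prime_five h5
  intro h
  have := Nat.Prime.dvd_of_dvd_pow Nat.prime_five h
  omega

theorem CardMC_exists_infinite_nonTorsion {E : Affine Qb} (hE : S05.IsMC E)
    (h2 : IsIntegral ℤ E.a₂) (h4 : IsIntegral ℤ E.a₄) (hw : E.a₄ ≠ 0)
    (hd : E.a₂ ^ 2 - 4 * E.a₄ ≠ 0) :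
    ∃ S : Set Qb, S.Infinite ∧ ∀ x ∈ S, ∃ (y : Qb) (h : E.Nonsingular x y),
      ∀ n : ℕ, 0 < n → n • (Point.some x y h : E.Point) ≠ 0 := by
  obtain ⟨V3, h3⟩ := S54.Frob95.exists_valuationSubring 3 Nat.prime_three
  obtain ⟨V5, h5⟩ := S54.Frob95.exists_valuationSubring 5 Nat.prime_five
  have hinj : Function.Injective (fun k : ℕ => ((15 : Qb) ^ (k + 1))⁻¹) := by
    intro a b hab
    have h1 : ((15 : Qb) ^ (a + 1)) = (15 : Qb) ^ (b + 1) := inv_injective hab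
    have h2 : (15 : ℕ) ^ (a + 1) = 15 ^ (b + 1) := by exact_mod_cast h1
    have := Nat.pow_right_injective (a := 15) (by norm_num) h2
    omega
  refine ⟨Set.range (fun k : ℕ => ((15 : Qb) ^ (k + 1))⁻¹), Set.infinite_range_of_injective hinj, ?_⟩
  rintro _ ⟨k, rfl⟩
  set x : Qb := ((15 : Qb) ^ (k + 1))⁻¹ with hx
  obtain ⟨y, hy⟩ := IsAlgClosed.exists_pow_nat_eq
    (x ^ 3 + E.a₂ * x ^ 2 + E.a₄ * x) (n := 2) (by norm_num)
  have heq : E.Equation x y := (hE.equation_iff x y).2 hy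
  have hΔ : E.Δ ≠ 0 := by
    rw [S13.count_Δ hE]
    exact mul_ne_zero (mul_ne_zero (by norm_num) (pow_ne_zero 2 hw)) hd
  have hns : E.Nonsingular x y :=
    (WeierstrassCurve.Affine.equation_iff_nonsingular_of_Δ_ne_zero hΔ).1 heq
  have hval : ∀ (V : ValuationSubring Qb) (l : ℕ), (l : Qb) ∈ V.nonunits → l ∣ 15 →
      1 < V.valuation x := by
    intro V l hl ⟨c, hc⟩
    have h15 : V.valuation (15 : Qb) < 1 := by
      have : (15 : Qb) = (l : Qb) * (c : Qb) := by exact_mod_cast congrArg (Nat.cast : ℕ → Qb) hc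
      rw [this, ← ValuationSubring.mem_nonunits_iff]
      exact S54.Frob95.mul_mem_nonunits V hl (natCast_mem V c)
    rw [hx, map_inv₀, map_pow]
    apply (one_lt_inv₀ _).2
    · exact pow_lt_one₀ zero_le h15 (by omega)
    · apply pow_pos
      rw [Valuation.pos_iff]
      norm_num
  refine ⟨y, hns, fun n hn hnP => ?_⟩
  have := CardMC_nonTorsion hE h2 h4 V3 V5 h3 h5 (Point.some x y hns) (hval V3 3 h3 (by norm_num))
    (hval V5 5 h5 (by norm_num)) n hn hnP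
  exact Point.some_ne_zero _ this

theorem CardMC_robustIds {E : Affine Qb} (hE : S05.IsMC E)
    (h2 : IsIntegral ℤ E.a₂) (h4 : IsIntegral ℤ E.a₄) (hw : E.a₄ ≠ 0)
    (hd : E.a₂ ^ 2 - 4 * E.a₄ ≠ 0) : S13.RobustIds E := by
  obtain ⟨S, hS, hgood⟩ := CardMC_exists_infinite_nonTorsion hE h2 h4 hw hd
  refine S13.robustIds_of_good hE (hS.mono fun x hx => ?_)
  obtain ⟨y, h, hnt⟩ := hgood x hx
  exact S13.polyIdGood_of_T3 (S13.stmtT3_all E) h hnt

theorem CardMC_mulBy {E : Affine Qb} (hE : S05.IsMC E)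
    (h2 : IsIntegral ℤ E.a₂) (h4 : IsIntegral ℤ E.a₄) (hw : E.a₄ ≠ 0)
    (hd : E.a₂ ^ 2 - 4 * E.a₄ ≠ 0) (n : ℕ) : S13.MulByData E n (E.Φ n) (E.ΨSq n) := by
  intro x y h
  obtain ⟨h1, h2', h3⟩ := S13.robust_divPoly hE (CardMC_robustIds hE h2 h4 hw hd) h n
  refine ⟨?_, h2', h3⟩
  intro h0
  rw [Prod.mk.injEq] at h0
  rcases h1 with h1 | h1
  · exact h1 h0.1
  · exact h1 h0.2

/-- **[CARD-1]** -/
theorem stmt_CardMC : Stmt_CardMC := by
  intro E hE h2 h4 hw hd n hn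
  rcases Nat.lt_or_ge n 2 with h | h
  · obtain rfl : n = 1 := by omega
    have : Unique {P : E.Point // 1 • P = 0} :=
      { default := ⟨0, nsmul_zero 1⟩
        uniq := fun P => Subtype.ext ((one_nsmul (P : E.Point)).symm.trans P.2) }
    rw [Nat.card_unique, one_pow]
  · exact S13.count_card_of_mulBy hE hw hd h (CardMC_mulBy hE h2 h4 hw hd n)

end Fermat.Agent.S58
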