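import Fermat.Agent.S58.Interface
import Fermat.Agent.ES.EigenChar

/-!
# S58 [CHI] : the eigencharacter with integer values and `iota` into `ℤ_λ` (`Stmt_Chi`)
-/

set_option autoImplicit false

namespace Fermat.Agent.S58

open CuspForm ModularFormClass CongruenceSubgroup Fermat.Agent.S49 Fermat.Agent.ES.EigenChar

/-- The endomorphisms having `g` as an eigenvector with a rational integer as eigenvalue. -/
def Chi_intSub {M : ℕ} (g : CuspForm (Gamma0 M) 2) :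
    Subalgebra ℤ (Module.End ℂ (CuspForm (Gamma0 M) 2)) where
  carrier := {x | ∃ c : ℤ, x g = (c : ℂ) • g}
  mul_mem' := by
    rintro x y ⟨c, hc⟩ ⟨d, hd⟩
    exact ⟨d * c, by rw [Module.End.mul_apply, hd, map_smul, hc, smul_smul, Int.cast_mul]⟩
  add_mem' := by
    rintro x y ⟨c, hc⟩ ⟨d, hd⟩
    exact ⟨c + d, by rw [LinearMap.add_apply, hc, hd, Int.cast_add, add_smul]⟩
  algebraMap_mem' := by
    intro r
    refine ⟨r, ?_⟩
    rw [Algebra.algebraMap_eq_smul_one, LinearMap.smul_apply, Module.End.one_apply,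
      Int.cast_smul_eq_zsmul]

theorem Chi_le_intSub {M : ℕ} [NeZero M] {g : CuspForm (Gamma0 M) 2}
    (hg : g.IsNormalizedEigenform) (S : Finset ℕ) (hS : ∀ q : ℕ, q.Prime → q ∣ M → q ∈ S)
    (a : ℕ → ℤ) (ha : ∀ ℓ : ℕ, ℓ.Prime → ¬ ℓ ∣ M → ℓ ∉ S → qCoeff g ℓ = (a ℓ : ℂ)) :
    CuspForm.heckeAlgebra M 2 (↑S : Set ℕ) ≤ Chi_intSub g := by
  refine Algebra.adjoin_le ?_
  rintro x (⟨ℓ, hℓ, hℓN, hℓS, rfl⟩ | ⟨q, hqN, hq, hqS, rfl⟩)
  · refine ⟨a ℓ, ?_⟩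
    rw [heckeT_eigen hg hℓ hℓN, ha ℓ hℓ hℓN (fun h => hℓS (Finset.mem_coe.2 h))]
  · exact absurd (Finset.mem_coe.2 (hS q hq hqN)) hqS

theorem Chi_int_val {M : ℕ} [NeZero M] {g : CuspForm (Gamma0 M) 2}
    (hg : g.IsNormalizedEigenform) (S : Finset ℕ) (hS : ∀ q : ℕ, q.Prime → q ∣ M → q ∈ S)
    (a : ℕ → ℤ) (ha : ∀ ℓ : ℕ, ℓ.Prime → ¬ ℓ ∣ M → ℓ ∉ S → qCoeff g ℓ = (a ℓ : ℂ))
    (x : CuspForm.heckeAlgebra M 2 (↑S : Set ℕ)) :
    ∃ z : ℤ, eigenCharC (↑S : Set ℕ) hg x = (z : ℂ) := by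
  obtain ⟨c, hc⟩ := Chi_le_intSub hg S hS a ha x.2
  refine ⟨c, ?_⟩
  show qCoeff ((x : Module.End ℂ (CuspForm (Gamma0 M) 2)) g) 1 = _
  rw [hc, ← qCoeffLin_apply, map_smul, qCoeffLin_apply, hg.qCoeff_one, smul_eq_mul, mul_one]

/-- a subring of `ℂ` consisting of rational integers maps to any ring. -/
theorem Chi_exists_hom (R : Subring ℂ) (hR : ∀ x ∈ R, ∃ z : ℤ, x = (z : ℂ)) (T : Type)
    [Ring T] : ∃ f : R →+* T, ∀ (x : R) (z : ℤ), (x : ℂ) = (z : ℂ) → f x = (z : T) := by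
  classical
  choose! e he using hR
  have huniq : ∀ (x : R) (z : ℤ), (x : ℂ) = (z : ℂ) → e x.1 = z := fun x z h =>
    Int.cast_injective (α := ℂ) ((he x.1 x.2).symm.trans h)
  refine ⟨{ toFun := fun x => ((e x.1 : ℤ) : T)
            map_one' := ?_
            map_mul' := ?_
            map_zero' := ?_
            map_add' := ?_ }, ?_⟩
  · rw [huniq 1 1 (by simp)]; simp
  · intro x y
    rw [huniq (x * y) (e x.1 * e y.1) (by
      rw [Int.cast_mul, ← he x.1 x.2, ← he y.1 y.2]; rfl)]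
    simp
  · rw [huniq 0 0 (by simp)]; simp
  · intro x y
    rw [huniq (x + y) (e x.1 + e y.1) (by
      rw [Int.cast_add, ← he x.1 x.2, ← he y.1 y.2]; rfl)]
    simp
  · intro x z h
    show ((e x.1 : ℤ) : T) = _
    rw [huniq x z h]

theorem stmt_Chi : Stmt_Chi := by
  intro M _ g hg S hS a ha lam _
  have hT : ∀ (ℓ : ℕ) (hℓ : ℓ.Prime) (hℓM : ¬ ℓ ∣ M) (hℓS : ℓ ∉ (↑S : Set ℕ)),
      eigenCharC (↑S : Set ℕ) hg (CuspForm.heckeAlgebra.T hℓ hℓM hℓS) = qCoeff g ℓ := by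
    intro ℓ hℓ hℓN hℓS
    show qCoeff ((CuspForm.heckeTLin 2 hℓ hℓN) g) 1 = qCoeff g ℓ
    rw [heckeT_eigen hg hℓ hℓN, ← qCoeffLin_apply, map_smul, qCoeffLin_apply, hg.qCoeff_one,
      smul_eq_mul, mul_one]
  obtain ⟨f, hf⟩ := Chi_exists_hom (eigenCharC (↑S : Set ℕ) hg).range (by
    rintro _ ⟨x, rfl⟩
    exact Chi_int_val hg S hS a ha x) ℤ_[lam]
  refine ⟨eigenCharC (↑S : Set ℕ) hg, f, hT, ?_⟩
  intro ℓ hℓ hℓM hℓS
  rw [RingHom.comp_apply]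
  apply hf
  show eigenCharC (↑S : Set ℕ) hg (CuspForm.heckeAlgebra.T hℓ hℓM hℓS) = _
  rw [hT, ha ℓ hℓ hℓM (fun h => hℓS (Finset.mem_coe.2 h))]

end Fermat.Agent.S58
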