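import Fermat.Agent.S58.Interface2

/-!
# S58 [CMP]: residual comparison at a Frobenius lift at a good prime (task 1158, helper53)
-/

set_option autoImplicit false

open Polynomial

namespace Fermat.Agent.S58

/-- Cayley-Hamilton for an endomorphism with characteristic polynomial `X² - a X + b`. -/
theorem Cmp_cayley {R M : Type} [CommRing R] [AddCommGroup M] [Module R M] [Module.Free R M]
    [Module.Finite R M] (f : Module.End R M) (a b : R)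
    (h : LinearMap.charpoly f = X ^ 2 - C a * X + C b) (v : M) :
    f (f v) - a • f v + b • v = 0 := by
  have h1 := LinearMap.aeval_self_charpoly f
  rw [h] at h1
  have h2 := LinearMap.congr_fun h1 v
  simpa [pow_two, Algebra.algebraMap_eq_smul_one] using h2

theorem stmt_Cmp (hTS : Stmt_TS) (hCyc : Stmt_Cyc) (hE : Stmt_EMod) (hRes : Stmt_ResMod)
    (hX : Stmt_Exact) (hF : Stmt_Frob) : Stmt_Cmp := by
  intro W hΔ lam _ k _ _ ρ S₀ hatt q hq hqlam hgood A hA σ hσ β hβ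
  have hlam : lam.Prime := Fact.out
  set S₁ : Finset ℕ := S₀ ∪ {lam} ∪ W.Δ.natAbs.primeFactors with hS₁
  have hS1 : ∀ ℓ : ℕ, ℓ.Prime → ℓ ∣ lam → ℓ ∈ S₁ := by
    intro ℓ hℓ hd
    have : ℓ = lam := (Nat.prime_dvd_prime_iff_eq hℓ hlam).1 hd
    simp [hS₁, this]
  have hS2 : ∀ ℓ : ℕ, ℓ.Prime → (ℓ : ℤ) ∣ W.Δ → ℓ ∈ S₁ := by
    intro ℓ hℓ hd
    have h1 : ℓ ∣ W.Δ.natAbs := Int.natCast_dvd.1 hd
    have h2 : ℓ ∈ W.Δ.natAbs.primeFactors :=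
      Nat.mem_primeFactors.2 ⟨hℓ, h1, Int.natAbs_ne_zero.2 hΔ⟩
    simp [hS₁, h2]
  have hS3 : ∀ ℓ : ℕ, ℓ ∉ S₁ → ℓ ∉ S₀ := by
    intro ℓ h h0
    exact h (by simp [hS₁, h0])
  have h1 := hE W hΔ lam hlam.pos S₁ hS1 hS2
  have h2 := hRes lam k ρ S₁ (aW W)
    (fun ℓ hℓ hS A hA σ hσ => hatt ℓ hℓ (hS3 ℓ hS) A hA σ hσ)
  have hndvd : ¬ q ∣ lam := fun hd => hqlam ((Nat.prime_dvd_prime_iff_eq hq hlam).1 hd)
  obtain ⟨t, ht1, ht2⟩ := hTS lam hlam.pos S₁ hS1 (aW W) _ _ _ _ h1 h2 σ q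
    (hCyc.1 lam q hq hndvd A hA σ hσ)
  -- elliptic side
  have hkill : ∀ P : (EQ W).Point, lam • P = 0 → (t - W.apOfModel q) • P = 0 := by
    intro P hP
    have hP' : lam • (σ⁻¹ • P) = 0 := by
      rw [smul_comm, hP]; exact smul_zero (A := (EQ W).Point) σ⁻¹
    have hmem : σ⁻¹ • P ∈ Tors W lam := by
      rw [Submodule.mem_torsionBy_iff, natCast_zsmul]; exact hP'
    have e1 := congrArg Subtype.val (ht1 ⟨σ⁻¹ • P, hmem⟩)
    have e1' : σ • σ • σ⁻¹ • P - t • σ • σ⁻¹ • P + (q : ℤ) • σ⁻¹ • P = 0 := e1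
    have e2 := hF W q hq hgood A hA σ hσ lam hndvd (σ⁻¹ • P) hP'
    rw [smul_inv_smul] at e1' e2
    have e3 : (σ • P - W.apOfModel q • P + (q : ℤ) • σ⁻¹ • P)
        - (σ • P - t • P + (q : ℤ) • σ⁻¹ • P) = 0 := by rw [e1', e2, sub_zero]
    rw [sub_smul]
    rw [← e3]; abel
  have hdvd : (lam : ℤ) ∣ t - W.apOfModel q := hX W hΔ lam hlam.pos _ hkill
  have htk : (t : k) = ((W.apOfModel q : ℤ) : k) := by
    have := (CharP.intCast_eq_zero_iff k lam _).2 hdvd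
    rw [Int.cast_sub, sub_eq_zero] at this
    exact this
  -- representation side
  rw [← htk]
  have : Nontrivial ρ.V := Module.nontrivial_of_finrank_pos (R := k) (by rw [ρ.finrank_eq]; norm_num)
  obtain ⟨y, hy⟩ := exists_ne (0 : ρ.V)
  have hinv : ρ.ρ σ (ρ.ρ σ⁻¹ y) = y := by
    have : ρ.ρ σ * ρ.ρ σ⁻¹ = 1 := by rw [← map_mul, mul_inv_cancel, map_one]
    exact LinearMap.congr_fun this y
  have c1 := Cmp_cayley (ρ.ρ σ) _ _ hβ (ρ.ρ σ⁻¹ y)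
  have c2 : ρ.ρ σ (ρ.ρ σ (ρ.ρ σ⁻¹ y)) - t • ρ.ρ σ (ρ.ρ σ⁻¹ y) + (q : ℤ) • ρ.ρ σ⁻¹ y = 0 :=
    ht2 (ρ.ρ σ⁻¹ y)
  rw [hinv] at c1 c2
  rw [← Int.cast_smul_eq_zsmul k t, natCast_zsmul, ← Nat.cast_smul_eq_nsmul k] at c2
  have c3 : ((t : k) - β) • y = 0 := by
    rw [sub_smul]
    have : (ρ.ρ σ y - β • y + (q : k) • ρ.ρ σ⁻¹ y)
        - (ρ.ρ σ y - (t : k) • y + (q : k) • ρ.ρ σ⁻¹ y) = 0 := by rw [c1, c2, sub_zero]
    rw [← this]; abel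
  rcases smul_eq_zero.1 c3 with h | h
  · exact (sub_eq_zero.1 h).symm
  · exact absurd h hy

end Fermat.Agent.S58
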