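import Fermat.Agent.S58.Interface

/-!
# S58 / [CONJ] : every involution of `G_ℚ` inverts the `p`-th roots of unity (`p` odd)

An Artin-Schreier mini proof, elementwise.
-/

set_option autoImplicit false

namespace Fermat.Agent.S58

section abs

variable {K : Type*} [Field K] [IsAlgClosed K] [CharZero K] (c : K →+* K)

/-- a square root of `-1` is not fixed by a non trivial involution. -/
theorem Conj_i_not_real (hcc : ∀ x, c (c x) = x) (hne : ∃ y, c y ≠ y) (i : K) (hi : i ^ 2 = -1) :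
    c i ≠ i := by
  intro hci
  obtain ⟨y, hy⟩ := hne
  set α : K := y - c y with hα
  have hα0 : α ≠ 0 := fun h => hy (sub_eq_zero.1 h).symm
  have hcα : c α = -α := by rw [hα, map_sub, hcc]; ring
  obtain ⟨β, hβ⟩ := IsAlgClosed.exists_pow_nat_eq α (n := 2) (by norm_num)
  set n : K := β * c β with hn
  have hcn : c n = n := by rw [hn, map_mul, hcc]; ring
  have hn2 : n ^ 2 = -α ^ 2 := by
    have : n ^ 2 = β ^ 2 * c (β ^ 2) := by rw [hn, map_pow]; ring
    rw [this, hβ, hcα]; ring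
  have h2 : (i * n) ^ 2 = α ^ 2 := by rw [mul_pow, hi, hn2]; ring
  have hcin : c (i * n) = i * n := by rw [map_mul, hci, hcn]
  have hreal : c α = α := by
    rcases sq_eq_sq_iff_eq_or_eq_neg.1 h2 with h | h
    · rw [← h, hcin]
    · have : α = -(i * n) := by rw [h]; ring
      rw [this, map_neg, hcin]
  have h3 : α = -α := by rw [← hcα, hreal]
  have h4 : (2 : K) * α = 0 := by linear_combination h3
  rcases mul_eq_zero.1 h4 with h | h
  · exact two_ne_zero h
  · exact hα0 h

/-- the sum of two squares of fixed elements is the square of a fixed element. -/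
theorem Conj_sq_add_sq (hcc : ∀ x, c (c x) = x) (hne : ∃ y, c y ≠ y) (a b : K)
    (ha : c a = a) (hb : c b = b) : ∃ s : K, c s = s ∧ a ^ 2 + b ^ 2 = s ^ 2 := by
  obtain ⟨i, hi⟩ := IsAlgClosed.exists_pow_nat_eq (-1 : K) (n := 2) (by norm_num)
  have hci : c i = -i := by
    have h1 : (c i) ^ 2 = i ^ 2 := by rw [← map_pow, hi, map_neg, map_one]
    rcases sq_eq_sq_iff_eq_or_eq_neg.1 h1 with h | h
    · exact absurd h (Conj_i_not_real c hcc hne i hi)
    · exact h
  obtain ⟨w, hw⟩ := IsAlgClosed.exists_pow_nat_eq (a + b * i) (n := 2) (by norm_num)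
  refine ⟨w * c w, by rw [map_mul, hcc]; ring, ?_⟩
  have : (w * c w) ^ 2 = w ^ 2 * c (w ^ 2) := by rw [map_pow]; ring
  rw [this, hw, map_add, map_mul, ha, hb, hci]
  linear_combination (b ^ 2) * hi

/-- a finite sum of squares of fixed elements is the square of a fixed element. -/
theorem Conj_sum_sq (hcc : ∀ x, c (c x) = x) (hne : ∃ y, c y ≠ y) {ι : Type*} (T : Finset ι)
    (f : ι → K) (hf : ∀ k ∈ T, c (f k) = f k) : ∃ s : K, c s = s ∧ ∑ k ∈ T, f k ^ 2 = s ^ 2 := by
  classical
  induction T using Finset.induction_on with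
  | empty => exact ⟨0, map_zero c, by simp⟩
  | insert k T hk ih =>
    obtain ⟨s, hs, hs2⟩ := ih (fun j hj => hf j (Finset.mem_insert_of_mem hj))
    obtain ⟨s', hs', hs2'⟩ := Conj_sq_add_sq c hcc hne (f k) s (hf k (Finset.mem_insert_self k T)) hs
    exact ⟨s', hs', by rw [Finset.sum_insert hk, hs2, hs2']⟩

/-- a fixed root of unity of odd order is `1`. -/
theorem Conj_real_root (hcc : ∀ x, c (c x) = x) (hne : ∃ y, c y ≠ y) (p : ℕ) (hp : Odd p)
    (ζ : K) (hζ : ζ ^ p = 1) (hcζ : c ζ = ζ) : ζ = 1 := by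
  by_contra h1
  obtain ⟨m, hm⟩ := hp
  set η : K := ζ ^ (m + 1) with hη
  have hcη : c η = η := by rw [hη, map_pow, hcζ]
  have hη2 : η ^ 2 = ζ := by
    rw [hη, ← pow_mul]
    have : (m + 1) * 2 = p + 1 := by omega
    rw [this, pow_succ, hζ, one_mul]
  have hsum : ∑ k ∈ Finset.range p, ζ ^ k = 0 := by
    have h := mul_geom_sum ζ p
    rw [hζ, sub_self] at h
    rcases mul_eq_zero.1 h with h | h
    · exact absurd (sub_eq_zero.1 h) h1
    · exact h
  have hsum2 : ∑ k ∈ Finset.range (2 * m), (η ^ (k + 1)) ^ 2 + 1 = 0 := by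
    rw [hm, Finset.sum_range_succ'] at hsum
    rw [← hsum, pow_zero]
    congr 1
    refine Finset.sum_congr rfl fun k _ => ?_
    rw [← pow_mul, mul_comm, pow_mul, hη2]
  obtain ⟨s, hs, hs2⟩ := Conj_sum_sq c hcc hne (Finset.range (2 * m)) (fun k => η ^ (k + 1))
    (fun k _ => by rw [map_pow, hcη])
  rw [hs2] at hsum2
  exact Conj_i_not_real c hcc hne s (by linear_combination hsum2) hs

/-- a non trivial involution inverts the roots of unity of odd order. -/
theorem Conj_abs (hcc : ∀ x, c (c x) = x) (hne : ∃ y, c y ≠ y) (p : ℕ) (hp : Odd p)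
    (μ : K) (hμ : μ ^ p = 1) : c μ = μ ^ (p - 1) := by
  have h1 : μ * c μ = 1 := by
    apply Conj_real_root c hcc hne p hp
    · rw [mul_pow, ← map_pow, hμ, map_one, mul_one]
    · rw [map_mul, hcc]; ring
  have hp0 : 0 < p := hp.pos
  have h2 : μ * μ ^ (p - 1) = 1 := by
    rw [← pow_succ', Nat.sub_add_cancel hp0, hμ]
  have hμ0 : μ ≠ 0 := fun h => by rw [h, zero_mul] at h1; exact zero_ne_one h1
  exact mul_left_cancel₀ hμ0 (h1.trans h2.symm)

end abs

/-- **[CONJ]** -/
theorem stmt_Conj : Stmt_Conj := by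
  intro c hcc hc1 p hp hp2 μ hμ
  refine Conj_abs (c : Qb →+* Qb) (fun x => ?_) ?_ p (hp.odd_of_ne_two hp2) μ hμ
  · exact DFunLike.congr_fun hcc x
  · by_contra h
    push Not at h
    exact hc1 (AlgEquiv.ext fun y => h y)

end Fermat.Agent.S58
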