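import Fermat.Agent.S58.Interface

/-!
# S58 : [EXACT], [LEVEL], [EMOD]
-/

set_option autoImplicit false

open WeierstrassCurve WeierstrassCurve.Affine WeierstrassCurve.Affine.Point

namespace Fermat.Agent.S58

theorem EMod_gcd_kill {G : Type*} [AddCommGroup G] (m d : ℕ) (c u v : ℤ)
    (hbez : (d : ℤ) = c * u + m * v) (P : G) (hP : m • P = 0) (hc : c • P = 0) : d • P = 0 := by
  have h1 : (d : ℤ) • P = 0 := by
    rw [hbez, add_zsmul, mul_comm c, mul_zsmul, hc, zsmul_zero, mul_comm (m : ℤ), mul_zsmul,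
      natCast_zsmul, hP, zsmul_zero, add_zero]
  rwa [natCast_zsmul] at h1

theorem EMod_dvd_kill {G : Type*} [AddCommGroup G] (m d : ℕ) (h : d ∣ m) (P : G)
    (hP : d • P = 0) : m • P = 0 := by
  obtain ⟨e, rfl⟩ := h
  rw [mul_nsmul, hP, nsmul_zero]

theorem stmt_Exact (hC : Stmt_Card) : Stmt_Exact := by
  intro W hΔ m hm c hc
  obtain ⟨d, hd⟩ : ∃ d : ℕ, d = Int.gcd c m := ⟨_, rfl⟩
  have hd0 : 0 < d := by
    rw [hd]
    exact Int.gcd_pos_of_ne_zero_right _ (by exact_mod_cast hm.ne')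
  have hdm : d ∣ m := by
    have : (d : ℤ) ∣ (m : ℤ) := by rw [hd]; exact Int.gcd_dvd_right c m
    exact_mod_cast this
  have hdc : (d : ℤ) ∣ c := by rw [hd]; exact Int.gcd_dvd_left c m
  have hbez : (d : ℤ) = c * Int.gcdA c m + m * Int.gcdB c m := by
    rw [hd]; exact Int.gcd_eq_gcd_ab c m
  have hiff : ∀ P : (EQ W).Point, m • P = 0 ↔ d • P = 0 := by
    intro P
    exact ⟨fun hP => EMod_gcd_kill m d c _ _ hbez P hP (hc P hP), EMod_dvd_kill m d hdm P⟩
  have hcard : Nat.card {P : (EQ W).Point // m • P = 0} = Nat.card {P : (EQ W).Point // d • P = 0} :=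
    Nat.card_congr (Equiv.subtypeEquivRight hiff)
  rw [hC W hΔ m hm, hC W hΔ d hd0] at hcard
  have hmd : m = d := Nat.pow_left_injective (n := 2) (by norm_num) hcard
  rw [hmd]
  exact hdc

/-- the `x`-coordinate (junk value `0` at the origin). -/
noncomputable def EMod_cx (W : WeierstrassCurve ℤ) : (EQ W).Point → Qb
  | .zero => 0
  | .some x _ _ => x

/-- the `y`-coordinate (junk value `0` at the origin). -/
noncomputable def EMod_cy (W : WeierstrassCurve ℤ) : (EQ W).Point → Qb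
  | .zero => 0
  | .some _ y _ => y

theorem EMod_smul_eq (W : WeierstrassCurve ℤ) (σ : GQ) (P : (EQ W).Point)
    (hx : σ (EMod_cx W P) = EMod_cx W P) (hy : σ (EMod_cy W P) = EMod_cy W P) : σ • P = P := by
  rcases P with _ | ⟨x, y, h⟩
  · rfl
  · rw [algEquiv_smul_def, Point.map_some]
    simp only [Point.some.injEq]
    exact ⟨hx, hy⟩

theorem stmt_Level (hC : Stmt_Card) : Stmt_Level := by
  intro W hΔ m hm
  have hfin : Finite {P : (EQ W).Point // m • P = 0} :=
    Nat.finite_of_card_ne_zero (by rw [hC W hΔ m hm]; positivity)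
  obtain ⟨S, hS⟩ : ∃ S : Set Qb, S =
      Set.range (fun P : {P : (EQ W).Point // m • P = 0} => EMod_cx W P.1) ∪
        Set.range (fun P : {P : (EQ W).Point // m • P = 0} => EMod_cy W P.1) := ⟨_, rfl⟩
  have hSfin : Finite S := by
    rw [hS]
    exact ((Set.finite_range _).union (Set.finite_range _)).to_subtype
  refine ⟨IntermediateField.adjoin ℚ S, ?_, ?_⟩
  · exact IntermediateField.finiteDimensional_adjoin
      (fun x _ => (AlgebraicClosure.isAlgebraic ℚ).isAlgebraic x |>.isIntegral)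
  · intro σ hσ P hP
    apply EMod_smul_eq
    · apply hσ
      apply IntermediateField.subset_adjoin
      rw [hS]
      exact Or.inl ⟨⟨P, hP⟩, rfl⟩
    · apply hσ
      apply IntermediateField.subset_adjoin
      rw [hS]
      exact Or.inr ⟨⟨P, hP⟩, rfl⟩

theorem EMod_mem (W : WeierstrassCurve ℤ) (m : ℕ) (y : Tors W m) :
    m • (y : (EQ W).Point) = 0 := by
  have h := y.2
  rw [Submodule.mem_torsionBy_iff, natCast_zsmul] at h
  exact h

theorem EMod_coe_smul (W : WeierstrassCurve ℤ) (m : ℕ) (σ : GQ) (y : Tors W m) :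
    ((σ • y : Tors W m) : (EQ W).Point) = σ • (y : (EQ W).Point) := rfl

theorem stmt_EMod (hF : Stmt_Frob) (hL : Stmt_Level) : Stmt_EMod := by
  intro W hΔ m hm S₀ hS₁ hS₂
  refine ⟨?_, ?_, ?_⟩
  · intro y
    apply Subtype.ext
    rw [Submodule.coe_smul_of_tower]
    exact EMod_mem W m y
  · obtain ⟨L, hLfin, hL'⟩ := hL W hΔ m hm
    refine ⟨L, hLfin, fun σ hσ => ?_⟩
    ext y
    rw [torsAct_apply, EMod_coe_smul]
    exact hL' σ hσ _ (EMod_mem W m y)
  · intro ℓ hℓ hℓS A hA σ hσ y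
    have hℓm : ¬ ℓ ∣ m := fun h => hℓS (hS₁ ℓ hℓ h)
    have hgood : W.IsGoodPrimeFor ℓ := fun h => hℓS (hS₂ ℓ hℓ h)
    have h := hF W ℓ hℓ hgood A hA σ hσ m hℓm _ (EMod_mem W m y)
    apply Subtype.ext
    simp only [torsAct_apply]
    rw [Submodule.coe_add, Submodule.coe_sub, EMod_coe_smul, EMod_coe_smul,
      Submodule.coe_smul_of_tower (aW W ℓ), Submodule.coe_smul_of_tower (ℓ : ℤ), EMod_coe_smul]
    exact h

end Fermat.Agent.S58
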