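import Fermat.Agent.S58.Interface

/-!
# S58 : [FRQ] comparison at a Frobenius lift at a good prime `q ≠ λ`
-/

set_option autoImplicit false

open WeierstrassCurve WeierstrassCurve.Affine WeierstrassCurve.Affine.Point
open Polynomial

namespace Fermat.Agent.S58

/-- the elliptic curve side. -/
theorem FrQ_E (hX : Stmt_Exact) (hF : Stmt_Frob) (W : WeierstrassCurve ℤ) (hΔ : W.Δ ≠ 0) (m : ℕ)
    (hm : 0 < m) (q : ℕ) (hq : q.Prime) (hgood : W.IsGoodPrimeFor q) (hqm : ¬ q ∣ m)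
    (A : ValuationSubring Qb) (hA : A.LiesOverPrime q) (σ : GQ) (hσ : A.IsFrobeniusAt σ q) (t : ℤ)
    (hQ : QuadRel (torsAct W m) σ t q) : (m : ℤ) ∣ t - W.apOfModel q := by
  apply hX W hΔ m hm
  intro P hP
  set P' : (EQ W).Point := σ⁻¹ • P with hP'def
  have hσP' : σ • P' = P := smul_inv_smul σ P
  have hP'z : (m : ℤ) • P' = 0 := by
    rw [hP'def, ← algEquiv_smul_zsmul, natCast_zsmul, hP, smul_zero]
  have hP' : m • P' = 0 := by rwa [natCast_zsmul] at hP'z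
  have hmem : P' ∈ Submodule.torsionBy ℤ (EQ W).Point m := by
    rw [Submodule.mem_torsionBy_iff]; exact hP'z
  have h1 := hF W q hq hgood A hA σ hσ m hqm P' hP'
  have h2 := congrArg (Submodule.subtype (Submodule.torsionBy ℤ (EQ W).Point (m : ℤ)))
    (hQ ⟨P', hmem⟩)
  rw [map_add, map_sub, map_zsmul, map_zsmul, _root_.map_zero] at h2
  have h2' : σ • σ • P' - t • σ • P' + (q : ℤ) • P' = 0 := h2
  rw [hσP'] at h1 h2'
  have e : (t - W.apOfModel q) • P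
      = (σ • P - W.apOfModel q • P + (q : ℤ) • P') - (σ • P - t • P + (q : ℤ) • P') := by
    rw [sub_smul]; abel
  rw [e, h1, h2', sub_zero]

theorem FrQ_repr_mem {O V ι : Type*} [CommRing O] [AddCommGroup V] [Module O V]
    (B : Module.Basis ι O V) (I : Ideal O) {x : V} (hx : x ∈ I • (⊤ : Submodule O V)) (i : ι) :
    B.repr x i ∈ I := by
  refine Submodule.smul_induction_on (p := fun x => B.repr x i ∈ I) hx ?_ ?_
  · intro r hr n _
    rw [map_smul, Finsupp.smul_apply, smul_eq_mul]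
    exact I.mul_mem_right _ hr
  · intro x y hx hy
    rw [map_add, Finsupp.add_apply]
    exact I.add_mem hx hy

/-- the representation side. -/
theorem FrQ_V {O : Type} [CommRing O] [IsLocalRing O] (lam : ℕ) (hlam : lam.Prime)
    (hlamO : (lam : O) ∈ IsLocalRing.maximalIdeal O) (ρ : GaloisRepAdic O) (I : Ideal O)
    (hI : I ≤ IsLocalRing.maximalIdeal O) (σ : GQ) (b t : ℤ) (q : ℕ)
    (hchar : LinearMap.charpoly (ρ.ρ σ) = X ^ 2 - C ((b : ℤ) : O) * X + C ((q : O)))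
    (hQ : QuadRel (rhoAct ρ I) σ t q) : (lam : ℤ) ∣ b - t := by
  -- Cayley-Hamilton
  have hCH : ∀ v : ρ.V, ρ.ρ σ (ρ.ρ σ v) - (b : O) • ρ.ρ σ v + (q : O) • v = 0 := by
    intro v
    have h := LinearMap.aeval_self_charpoly (ρ.ρ σ)
    rw [hchar] at h
    simp only [map_add, map_sub, map_mul, map_pow, aeval_X, aeval_C] at h
    have h' := LinearMap.congr_fun h v
    rw [Int.cast_smul_eq_zsmul, Nat.cast_smul_eq_nsmul]
    simpa [pow_two, Module.algebraMap_end_apply] using h'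
  have hQ' : ∀ v : ρ.V, ρ.ρ σ (ρ.ρ σ v) - (t : O) • ρ.ρ σ v + (q : O) • v
      ∈ I • (⊤ : Submodule O ρ.V) := by
    intro v
    have h := hQ (Submodule.Quotient.mk v)
    rw [rhoAct_mk, rhoAct_mk] at h
    rw [← Submodule.Quotient.mk_eq_zero, Int.cast_smul_eq_zsmul, Nat.cast_smul_eq_nsmul,
      ← natCast_zsmul]
    have e : (Submodule.Quotient.mk (ρ.ρ σ (ρ.ρ σ v) - t • ρ.ρ σ v + (q : ℤ) • v) :
        ρ.V ⧸ (I • (⊤ : Submodule O ρ.V)))
        = (I • (⊤ : Submodule O ρ.V)).mkQ (ρ.ρ σ (ρ.ρ σ v) - t • ρ.ρ σ v + (q : ℤ) • v) := rfl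
    rw [e, map_add, map_sub, map_zsmul, map_zsmul]
    exact h
  have hall : ∀ v : ρ.V, ((b : O) - (t : O)) • v ∈ I • (⊤ : Submodule O ρ.V) := by
    intro v
    have hv : ρ.ρ σ (ρ.ρ σ⁻¹ v) = v := by
      rw [← Module.End.mul_apply, ← map_mul, mul_inv_cancel, map_one, Module.End.one_apply]
    have h1 := hQ' (ρ.ρ σ⁻¹ v)
    have h2 := hCH (ρ.ρ σ⁻¹ v)
    rw [hv] at h1 h2
    have e : ((b : O) - (t : O)) • v
        = (ρ.ρ σ v - (t : O) • v + (q : O) • ρ.ρ σ⁻¹ v)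
          - (ρ.ρ σ v - (b : O) • v + (q : O) • ρ.ρ σ⁻¹ v) := by
      rw [sub_smul]; abel
    rw [e, h2, sub_zero]
    exact h1
  -- coordinates
  let B := Module.Free.chooseBasis O ρ.V
  have hne : Nonempty (Module.Free.ChooseBasisIndex O ρ.V) := by
    rw [← Fintype.card_pos_iff, ← Module.finrank_eq_card_chooseBasisIndex, ρ.finrank_eq]
    norm_num
  obtain ⟨i⟩ := hne
  have hc : (b : O) - (t : O) ∈ I := by
    have h := FrQ_repr_mem B I (hall (B i)) i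
    rwa [map_smul, Finsupp.smul_apply, Module.Basis.repr_self, Finsupp.single_eq_same, smul_eq_mul,
      mul_one] at h
  by_contra hnd
  have hcop : IsCoprime (lam : ℤ) (b - t) :=
    ((Nat.prime_iff_prime_int.1 hlam).coprime_iff_not_dvd).2 hnd
  obtain ⟨u, v, huv⟩ := hcop
  have h1 : (1 : O) ∈ IsLocalRing.maximalIdeal O := by
    have e : (1 : O) = (u : O) * (lam : O) + (v : O) * ((b : O) - (t : O)) := by
      have := congrArg (Int.cast : ℤ → O) huv.symm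
      push_cast at this
      exact this
    rw [e]
    exact Ideal.add_mem _ (Ideal.mul_mem_left _ _ hlamO) (Ideal.mul_mem_left _ _ (hI hc))
  exact (Ideal.ne_top_iff_one _).1 (IsLocalRing.maximalIdeal.isMaximal O).ne_top h1

/-- **[FRQ]** -/
theorem stmt_FrQ (hTS : Stmt_TS) (hCyc : Stmt_Cyc) (hE : Stmt_EMod) (hR : Stmt_RMod)
    (hX : Stmt_Exact) (hF : Stmt_Frob) : Stmt_FrQ := by
  intro W hΔ O _ _ _ _ lam _ hlamO ρ S₀ hAtt q hq hqlam hgood A hA σ hσ b hchar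
  have hlam : lam.Prime := Fact.out
  classical
  set S₁ : Finset ℕ := S₀ ∪ {lam} ∪ W.Δ.natAbs.primeFactors with hS₁
  have hAtt₁ : AttW ρ W S₁ := by
    intro ℓ hℓ hℓS
    apply hAtt ℓ hℓ
    intro h
    apply hℓS
    rw [hS₁]
    exact Finset.mem_union_left _ (Finset.mem_union_left _ h)
  have hm : 0 < lam ^ 1 := pow_pos hlam.pos 1
  have hS₁lam : ∀ ℓ : ℕ, ℓ.Prime → ℓ ∣ lam ^ 1 → ℓ ∈ S₁ := by
    intro ℓ hℓ hd
    have : ℓ = lam := (Nat.prime_dvd_prime_iff_eq hℓ hlam).1 (hℓ.dvd_of_dvd_pow hd)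
    rw [this, hS₁]
    exact Finset.mem_union_left _ (Finset.mem_union_right _ (Finset.mem_singleton_self _))
  have hS₁Δ : ∀ ℓ : ℕ, ℓ.Prime → (ℓ : ℤ) ∣ W.Δ → ℓ ∈ S₁ := by
    intro ℓ hℓ hd
    rw [hS₁]
    refine Finset.mem_union_right _ (Nat.mem_primeFactors.2 ⟨hℓ, Int.natCast_dvd.1 hd, ?_⟩)
    exact Int.natAbs_ne_zero.2 hΔ
  have hqm : ¬ q ∣ lam ^ 1 := by
    intro hd
    exact hqlam ((Nat.prime_dvd_prime_iff_eq hq hlam).1 (hq.dvd_of_dvd_pow hd))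
  have hES1 := hE W hΔ (lam ^ 1) hm S₁ hS₁lam hS₁Δ
  have hES2 := hR O lam hlamO ρ W S₁ hAtt₁ 1
  have hcyc := hCyc.1 (lam ^ 1) q hq hqm A hA σ hσ
  obtain ⟨t, ht1, ht2⟩ := hTS (lam ^ 1) hm S₁ hS₁lam (aW W) _ _ _ _ hES1 hES2 σ q hcyc
  have h1 := FrQ_E hX hF W hΔ (lam ^ 1) hm q hq hgood hqm A hA σ hσ t ht1
  have hI : Ideal.span {((lam ^ 1 : ℕ) : O)} ≤ IsLocalRing.maximalIdeal O := by
    rw [Ideal.span_singleton_le_iff_mem, pow_one]
    exact hlamO
  have h2 := FrQ_V lam hlam hlamO ρ _ hI σ b t q hchar ht2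
  rw [pow_one] at h1
  have e : W.apOfModel q - b = -((t - W.apOfModel q) + (b - t)) := by ring
  rw [e]
  exact (dvd_neg).2 (dvd_add h1 h2)

end Fermat.Agent.S58

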