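import Fermat.Agent.S58.Interface
import Fermat.Agent.S52.Trace
import Fermat.Agent.S52.RedHom
import Fermat.Agent.S52.A2Final
import Fermat.Agent.S05.Frey

/-!
# S58 [FROB] + [GOODI]: the Frobenius relation and triviality of inertia on the torsion prime to
the residue characteristic, at primes of good reduction (helper58; adapted from `S52/Trace.lean`)
-/

set_option autoImplicit false

open WeierstrassCurve WeierstrassCurve.Affine WeierstrassCurve.Affine.Point

namespace Fermat.Agent.S58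

namespace Frob

open Fermat.Agent.S52 (IsRed)
open Fermat.Agent.S52.Trace (sigma_mem sigma_not_mem residue_sigma residue_nonunit charP_residue)

theorem frob_kill_aux {G : Type*} [AddCommGroup G] (s : G →+ G) (m : ℕ) (P : G) (h : m • P = 0)
    (α β : ℤ) : m • (s (s P) - α • s P + β • P) = 0 := by
  rw [nsmul_add, nsmul_sub, smul_comm m α, smul_comm m β, ← map_nsmul, ← map_nsmul, h]
  simp

/-- the reduction homomorphism at a place over a good prime. -/
theorem frob_exists_red (W : WeierstrassCurve ℤ) (ℓ : ℕ) [Fact ℓ.Prime] (hW : W.IsGoodPrimeFor ℓ)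
    (A : ValuationSubring Qb) [Algebra (ZMod ℓ) (IsLocalRing.ResidueField A)]
    [DecidableEq (IsLocalRing.ResidueField A)] :
    (W.reductionMod ℓ).toAffine.Δ ≠ 0 ∧
    ∃ red : (EQ W).Point →+
        ((W.reductionMod ℓ).toAffine⁄(IsLocalRing.ResidueField A)).Point,
      (∀ (x y : Qb) (_ : (EQ W).Nonsingular x y), x ∈ A → y ∈ A) ∧
      (∀ (x y : A) (h : (EQ W).Nonsingular (x : Qb) (y : Qb)),
        ∃ h' : ((W.reductionMod ℓ).toAffine⁄(IsLocalRing.ResidueField A)).Nonsingular
            (IsLocalRing.residue A x) (IsLocalRing.residue A y),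
          red (Point.some _ _ h) = Point.some _ _ h') ∧
      (∀ (x y : Qb) (h : (EQ W).Nonsingular x y), x ∉ A → red (Point.some _ _ h) = 0) ∧
      (∀ (n : ℕ), (n : IsLocalRing.ResidueField A) ≠ 0 → ∀ P : (EQ W).Point, red P = 0 →
        n • P = 0 → P = 0) := by
  set W₀ : Affine (ZMod ℓ) := (W.reductionMod ℓ).toAffine with hW₀
  have hred : IsRed A (IsLocalRing.residue A) (EQ W) (W₀⁄(IsLocalRing.ResidueField A)) := by
    refine ⟨⟨(W.a₁ : A), ?_, ?_⟩, ⟨(W.a₂ : A), ?_, ?_⟩, ⟨(W.a₃ : A), ?_, ?_⟩,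
      ⟨(W.a₄ : A), ?_, ?_⟩, ⟨(W.a₆ : A), ?_, ?_⟩⟩ <;>
    simp [hW₀, WeierstrassCurve.reductionMod]
  have hΔ₀ : W₀.Δ ≠ 0 := by
    have : W₀.Δ = ((W.Δ : ℤ) : ZMod ℓ) := by
      show (W.map (Int.castRingHom (ZMod ℓ))).Δ = _
      rw [WeierstrassCurve.map_Δ]
      rfl
    rw [this]
    intro h
    exact hW ((ZMod.intCast_zmod_eq_zero_iff_dvd _ _).mp h)
  have hΔ : (W₀⁄(IsLocalRing.ResidueField A)).Δ ≠ 0 := by
    show (W₀.map (algebraMap (ZMod ℓ) (IsLocalRing.ResidueField A))).Δ ≠ 0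
    rw [WeierstrassCurve.map_Δ]
    intro h
    rw [map_eq_zero] at h
    exact hΔ₀ h
  exact ⟨hΔ₀, Fermat.Agent.S52.stmt_RT Qb (IsLocalRing.ResidueField A) A (IsLocalRing.residue A)
    (residue_nonunit A) _ _ hred hΔ⟩

theorem frob_cast_ne_zero (A : ValuationSubring Qb) (ℓ : ℕ) [CharP (IsLocalRing.ResidueField A) ℓ]
    (m : ℕ) (hm : ¬ ℓ ∣ m) : (m : IsLocalRing.ResidueField A) ≠ 0 := by
  intro h
  rw [CharP.cast_eq_zero_iff _ ℓ] at h
  exact hm h

end Frob

open Frob Fermat.Agent.S52.Trace in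
theorem stmt_Frob : Stmt_Frob := by
  intro W ℓ hℓ hW A hl σ hfr m hm P hP
  have : Fact ℓ.Prime := ⟨hℓ⟩
  have := charP_residue A ℓ hl
  let _ : Algebra (ZMod ℓ) (IsLocalRing.ResidueField A) := ZMod.algebra _ ℓ
  classical
  obtain ⟨hΔ₀, red, h1, h2, h3, h4⟩ := frob_exists_red W ℓ hW A
  set φ := Point.map (W' := (W.reductionMod ℓ).toAffine)
    (FiniteField.frobeniusAlgHom (ZMod ℓ) (IsLocalRing.ResidueField A)) with hφ
  have hdec := hfr.mem_decompositionSubgroup
  have heq : ∀ P : (EQ W).Point, red (σ • P) = φ (red P) := by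
    intro P
    rcases P with _ | ⟨x, y, h⟩
    · show red 0 = φ (red 0)
      rw [_root_.map_zero, _root_.map_zero]
    · rw [algEquiv_smul_def, Point.map_some]
      by_cases hx : x ∈ A
      · have hy := h1 x y h hx
        obtain ⟨h', e'⟩ := h2 ⟨x, hx⟩ ⟨y, hy⟩ h
        have hx' : σ x ∈ A := sigma_mem A σ hdec hx
        have hy' : σ y ∈ A := sigma_mem A σ hdec hy
        obtain ⟨h'', e''⟩ := h2 ⟨_, hx'⟩ ⟨_, hy'⟩
          ((WeierstrassCurve.Affine.baseChange_nonsingular _ σ.toAlgHom.injective ..).mpr h)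
        have e3 : red (Point.some x y h) = _ := e'
        rw [e3, hφ, Point.map_some]
        refine e''.trans ?_
        simp only [Point.some.injEq]
        refine ⟨?_, ?_⟩
        · rw [residue_sigma A σ ℓ hfr hx, FiniteField.coe_frobeniusAlgHom, ZMod.card]
        · rw [residue_sigma A σ ℓ hfr hy, FiniteField.coe_frobeniusAlgHom, ZMod.card]
      · rw [h3 x y h hx, _root_.map_zero]
        exact h3 _ _ _ (sigma_not_mem A σ hdec hx)
  set s : (EQ W).Point →+ (EQ W).Point := DistribSMul.toAddMonoidHom _ σ with hs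
  have hs' : ∀ Q : (EQ W).Point, s Q = σ • Q := fun _ => rfl
  apply h4 m (frob_cast_ne_zero A ℓ m hm)
  · rw [map_add, map_sub, map_zsmul, map_zsmul, heq, heq]
    have := Fermat.Agent.S52.stmt_Frob ℓ (W.reductionMod ℓ).toAffine hΔ₀
      (IsLocalRing.ResidueField A) (red P)
    have ha : W.apOfModel ℓ
        = (ℓ : ℤ) + 1 - (Nat.card (W.reductionMod ℓ).toAffine.Point : ℤ) := by
      simp [WeierstrassCurve.apOfModel, WeierstrassCurve.traceOfFrobenius, WeierstrassCurve.card]
    rw [ha]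
    exact this
  · exact frob_kill_aux s m P hP _ _

open Frob Fermat.Agent.S52.Trace in
theorem stmt_GoodI : Stmt_GoodI := by
  intro W q hq hW A hl σ hσ m hm P hP
  have : Fact q.Prime := ⟨hq⟩
  have := charP_residue A q hl
  let _ : Algebra (ZMod q) (IsLocalRing.ResidueField A) := ZMod.algebra _ q
  classical
  obtain ⟨-, red, h1, h2, h3, h4⟩ := frob_exists_red W q hW A
  have hdec : σ ∈ A.decompositionSubgroup ℚ := by
    obtain ⟨g, -, rfl⟩ := hσ
    exact g.2
  have htriv := Fermat.Agent.S05.inertia_unpack hσ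
  have hres : ∀ (x : Qb) (hx : x ∈ A),
      IsLocalRing.residue A ⟨σ x, sigma_mem A σ hdec hx⟩ = IsLocalRing.residue A ⟨x, hx⟩ := by
    intro x hx
    rw [← sub_eq_zero, ← map_sub, IsLocalRing.residue_eq_zero_iff,
      ValuationSubring.valuation_lt_one_iff]
    exact htriv x ((ValuationSubring.valuation_le_one_iff A x).2 hx)
  have heq : red (σ • P) = red P := by
    rcases P with _ | ⟨x, y, h⟩
    · rfl
    · rw [algEquiv_smul_def, Point.map_some]
      by_cases hx : x ∈ A
      · have hy := h1 x y h hx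
        obtain ⟨h', e'⟩ := h2 ⟨x, hx⟩ ⟨y, hy⟩ h
        have hx' : σ x ∈ A := sigma_mem A σ hdec hx
        have hy' : σ y ∈ A := sigma_mem A σ hdec hy
        obtain ⟨h'', e''⟩ := h2 ⟨_, hx'⟩ ⟨_, hy'⟩
          ((WeierstrassCurve.Affine.baseChange_nonsingular _ σ.toAlgHom.injective ..).mpr h)
        have e3 : red (Point.some x y h) = _ := e'
        rw [e3]
        refine e''.trans ?_
        simp only [Point.some.injEq]
        exact ⟨hres x hx, hres y hy⟩
      · rw [h3 x y h hx]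
        exact h3 _ _ _ (sigma_not_mem A σ hdec hx)
  have h0 : σ • P - P = 0 := by
    apply h4 m (frob_cast_ne_zero A q m hm)
    · rw [map_sub, heq, sub_self]
    · rw [nsmul_sub, hP, sub_zero]
      have : m • σ • P = σ • (m • P) := by
        rw [smul_comm]
      rw [this, hP]
      rfl
  exact sub_eq_zero.1 h0

end Fermat.Agent.S58
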