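import Fermat.Agent.S58.Interface
import Fermat.Agent.ES.RepGalois

/-!
# S58 / [HRES] : the hypothesis `hres` of S36 from `IrrAbs`, `TS`, `Conj`
-/

set_option autoImplicit false

open WeierstrassCurve WeierstrassCurve.Affine WeierstrassCurve.Affine.Point
open Polynomial
open Fermat.Agent.ES

namespace Fermat.Agent.S58

/-! ### the mod `p` cyclotomic character -/

/-- an exponent of the action of `g` on `μ_p`. -/
noncomputable def Hres_exp (p : ℕ) [Fact p.Prime] (g : GQ) : ℕ :=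
  Classical.choose (RepGalois.exists_isCyc p (Fact.out : p.Prime).pos g)

theorem Hres_exp_spec (p : ℕ) [Fact p.Prime] (g : GQ) : CycAt p g (Hres_exp p g) :=
  Classical.choose_spec (RepGalois.exists_isCyc p (Fact.out : p.Prime).pos g)

theorem Hres_cast_eq {p : ℕ} [Fact p.Prime] {g : GQ} {a b : ℕ} (ha : CycAt p g a)
    (hb : CycAt p g b) : (a : ZMod p) = (b : ZMod p) := by
  rw [ZMod.natCast_eq_natCast_iff]
  exact RepGalois.IsCyc.modEq (Fact.out : p.Prime).pos ha hb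

/-- the mod `p` cyclotomic character, with values in `ZMod p`. -/
noncomputable def Hres_eps0 (p : ℕ) [Fact p.Prime] : GQ →* ZMod p where
  toFun g := (Hres_exp p g : ZMod p)
  map_one' := by
    rw [Hres_cast_eq (Hres_exp_spec p 1) (RepGalois.isCyc_one p), Nat.cast_one]
  map_mul' g h := by
    rw [← Nat.cast_mul]
    exact Hres_cast_eq (Hres_exp_spec p (g * h))
      (RepGalois.IsCyc.mul (Hres_exp_spec p g) (Hres_exp_spec p h))

/-- the mod `p` cyclotomic character. -/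
noncomputable def Hres_eps (p : ℕ) [Fact p.Prime] : GQ →* (ZMod p)ˣ := (Hres_eps0 p).toHomUnits

theorem Hres_eps_eq {p : ℕ} [Fact p.Prime] {g : GQ} {a : ℕ} (ha : CycAt p g a) :
    (a : ZMod p) = (Hres_eps p g : ZMod p) := by
  rw [Hres_eps, MonoidHom.coe_toHomUnits]
  exact Hres_cast_eq ha (Hres_exp_spec p g)

theorem Hres_eps_neg_one {p : ℕ} [Fact p.Prime] {c : GQ} (hc : CycAt p c (p - 1)) :
    Hres_eps p c = -1 := by
  apply Units.ext
  rw [← Hres_eps_eq hc, Nat.cast_sub (Fact.out : p.Prime).one_le, ZMod.natCast_self]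
  simp

/-! ### the torsion module -/

theorem Hres_card (hC : Stmt_Card) (W : WeierstrassCurve ℤ) (hΔ : W.Δ ≠ 0) (p : ℕ) (hp : 0 < p) :
    Nat.card (Tors W p) = p ^ 2 := by
  rw [← hC W hΔ p hp]
  refine Nat.card_congr (Equiv.subtypeEquivRight fun P => ?_)
  rw [Submodule.mem_torsionBy_iff, natCast_zsmul]

theorem Hres_finrank (hC : Stmt_Card) (W : WeierstrassCurve ℤ) (hΔ : W.Δ ≠ 0) (p : ℕ)
    [Fact p.Prime] : Module.finrank (ZMod p) (Tors W p) = 2 := by
  have hp : p.Prime := Fact.out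
  have hcard := Hres_card hC W hΔ p hp.pos
  have hfin : Finite (Tors W p) :=
    Nat.finite_of_card_ne_zero (hcard ▸ pow_ne_zero 2 hp.pos.ne')
  have h := Module.natCard_eq_pow_finrank (K := ZMod p) (V := Tors W p)
  rw [hcard, Nat.card_zmod] at h
  exact (Nat.pow_right_injective hp.two_le h).symm

/-! ### the residual representation -/

theorem Hres_charP (O : Type) [CommRing O] [IsLocalRing O] (p : ℕ) [Fact p.Prime]
    (hpO : (p : O) ∈ IsLocalRing.maximalIdeal O) : CharP (IsLocalRing.ResidueField O) p := by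
  rw [CharP.charP_iff_prime_eq_zero (Fact.out : p.Prime), ← map_natCast (IsLocalRing.residue O),
    IsLocalRing.residue_eq_zero_iff]
  exact hpO

theorem Hres_charpoly {O : Type} [CommRing O] [IsLocalRing O] (ρ : GaloisRepAdic O) (σ : GQ)
    (a : ℤ) (ℓ : ℕ) (h : LinearMap.charpoly (ρ.ρ σ) = X ^ 2 - C ((a : ℤ) : O) * X + C ((ℓ : O))) :
    LinearMap.charpoly (ρ.residual.ρ σ) =
      X ^ 2 - C ((a : ℤ) : IsLocalRing.ResidueField O) * X + C ((ℓ : IsLocalRing.ResidueField O)) := by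
  have e : ρ.residual.ρ σ = (ρ.ρ σ).baseChange (IsLocalRing.ResidueField O) := rfl
  rw [e]
  erw [LinearMap.charpoly_baseChange]
  rw [h]
  simp

/-- **[HRES]**. -/
theorem stmt_Hres (hTS : Stmt_TS) (hE : Stmt_EMod) (hRes : Stmt_ResMod) (hC : Stmt_Card)
    (hConj : Stmt_Conj) (hI : Stmt_IrrAbs) : Stmt_Hres := by
  intro W hΔ p _ hp2 hirr O _ _ _ _ hpO ρ S₀ hatt
  have hp : p.Prime := Fact.out
  have : CharP (IsLocalRing.ResidueField O) p := Hres_charP O p hpO
  -- the exceptional set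
  set S₁ : Finset ℕ := S₀ ∪ {p} ∪ W.Δ.natAbs.primeFactors with hS₁
  have hS₁p : ∀ ℓ : ℕ, ℓ.Prime → ℓ ∣ p → ℓ ∈ S₁ := by
    intro ℓ hℓ hℓp
    have : ℓ = p := (Nat.prime_dvd_prime_iff_eq hℓ hp).1 hℓp
    rw [this, hS₁]
    simp
  have hS₁Δ : ∀ ℓ : ℕ, ℓ.Prime → (ℓ : ℤ) ∣ W.Δ → ℓ ∈ S₁ := by
    intro ℓ hℓ hℓΔ
    rw [hS₁]
    refine Finset.mem_union_right _ (Nat.mem_primeFactors.2 ⟨hℓ, Int.natCast_dvd.1 hℓΔ, ?_⟩)
    exact Int.natAbs_ne_zero.2 hΔ
  have es1 : ESMod p S₁ (aW W) (Tors W p) (torsAct W p) := hE W hΔ p hp.pos S₁ hS₁p hS₁Δ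
  have es2 : ESMod p S₁ (aW W) ρ.residual.V (resAct ρ.residual) := by
    refine hRes p _ ρ.residual S₁ (aW W) fun ℓ hℓ hℓS A hA σ hσ => ?_
    refine Hres_charpoly ρ σ _ ℓ (hatt ℓ hℓ (fun h => hℓS ?_) A hA σ hσ)
    rw [hS₁]
    exact Finset.mem_union_left _ (Finset.mem_union_left _ h)
  have key := hI p hp2 GQ (Tors W p) (Hres_finrank hC W hΔ p)
    (galoisRepModuleEnd (K := Qb) ℚ (W.map (Int.castRingHom ℚ)) p)
    (fun N hN => hirr.2 N hN) (IsLocalRing.ResidueField O) ρ.residual.V ρ.residual.finrank_eq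
    ρ.residual.ρ (Hres_eps p) (fun g => by
      obtain ⟨t, h1, h2⟩ := hTS p hp.pos S₁ hS₁p (aW W) (Tors W p) ρ.residual.V (torsAct W p)
        (resAct ρ.residual) es1 es2 g (Hres_exp p g) (Hres_exp_spec p g)
      refine ⟨t, (Hres_exp p g : ℤ), ?_, h1, h2⟩
      rw [Int.cast_natCast]
      exact Hres_eps_eq (Hres_exp_spec p g))
  constructor
  · obtain ⟨c, hc, hc1, -⟩ := RepGalois.exists_complexConj
    exact fun N hN => (key c hc (Hres_eps_neg_one (hConj c hc hc1 p hp hp2))).2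
      (AlgebraicClosure (IsLocalRing.ResidueField O)) N hN
  · intro c hc hc1
    exact (key c hc (Hres_eps_neg_one (hConj c hc hc1 p hp hp2))).1

end Fermat.Agent.S58
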