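import Fermat.Agent.S58.Interface

/-!
# S58 : [IRRABS] the abstract transfer of irreducibility and oddness (`Stmt_IrrAbs`)
-/

set_option autoImplicit false

namespace Fermat.Agent.S58

open Module

section Generic

variable {F X : Type*} [Field F] [AddCommGroup X] [Module F X]

/-- an involution of a plane is `1`, `-1`, or diagonalisable with eigenvalues `1, -1`. -/
theorem IrrAbs_eigBasis (h2 : (2 : F) ≠ 0) (hX : finrank F X = 2) (C : Module.End F X)
    (hC : ∀ x, C (C x) = x) :
    (∀ x, C x = (1 : F) • x) ∨ (∀ x, C x = (-1 : F) • x) ∨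
      ∃ b : Basis (Fin 2) F X, C (b 0) = b 0 ∧ C (b 1) = - b 1 := by
  by_cases h1 : ∀ x, C x = x
  · left
    intro x
    rw [one_smul, h1]
  by_cases h1' : ∀ x, C x = -x
  · right; left
    intro x
    rw [neg_smul, one_smul, h1']
  right; right
  push Not at h1 h1'
  obtain ⟨y, hy⟩ := h1
  obtain ⟨x, hx⟩ := h1'
  set vp : X := x + C x with hvp
  set vm : X := y - C y with hvm
  have hvp0 : vp ≠ 0 := by
    intro h
    apply hx
    rw [hvp] at h
    exact (neg_eq_of_add_eq_zero_right h).symm
  have hvm0 : vm ≠ 0 := by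
    intro h
    apply hy
    rw [hvm] at h
    exact (sub_eq_zero.1 h).symm
  have hCp : C vp = vp := by
    rw [hvp, map_add, hC, add_comm]
  have hCm : C vm = -vm := by
    rw [hvm, map_sub, hC, neg_sub]
  have hli : LinearIndependent F ![vp, vm] := by
    rw [LinearIndependent.pair_iff]
    intro s t hst
    have h3 := congrArg C hst
    rw [map_add, map_smul, map_smul, hCp, hCm, map_zero, smul_neg] at h3
    have h4 : (2 * s) • vp = 0 := by
      have : (2 * s) • vp = (s • vp + t • vm) + (s • vp + -(t • vm)) := by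
        rw [mul_smul, two_smul]; abel
      rw [this, hst, h3, add_zero]
    have h5 : (2 * t) • vm = 0 := by
      have : (2 * t) • vm = (s • vp + t • vm) - (s • vp + -(t • vm)) := by
        rw [mul_smul, two_smul]; abel
      rw [this, hst, h3, sub_zero]
    constructor
    · rcases smul_eq_zero.1 h4 with h | h
      · exact (mul_eq_zero.1 h).resolve_left h2
      · exact absurd h hvp0
    · rcases smul_eq_zero.1 h5 with h | h
      · exact (mul_eq_zero.1 h).resolve_left h2
      · exact absurd h hvm0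
  refine ⟨basisOfLinearIndependentOfCardEqFinrank hli (by simp [hX]), ?_, ?_⟩
  · rw [coe_basisOfLinearIndependentOfCardEqFinrank]
    exact hCp
  · rw [coe_basisOfLinearIndependentOfCardEqFinrank]
    exact hCm

variable {G : Type*} [Group G]

/-- (L1) if `c` acts as a scalar then every `g` acts as a scalar. -/
theorem IrrAbs_allScalar [Nontrivial X] (h2 : (2 : F) ≠ 0) (ρ : G →* Module.End F X)
    (t e : G → F) (he0 : ∀ g, e g ≠ 0) (c : G) (hec : ∀ g, e (g * c) = - e g)
    (hrel : ∀ g x, ρ g (ρ g x) - t g • ρ g x + e g • x = 0)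
    (u : F) (hu : u * u = 1) (hc : ∀ x, ρ c x = u • x) (g : G) :
    ∃ l : F, ∀ x, ρ g x = l • x := by
  have hgc : ∀ x, ρ (g * c) x = u • ρ g x := by
    intro x
    rw [map_mul, Module.End.mul_apply, hc, map_smul]
  have key : ∀ x, (t (g * c) * u - t g) • ρ g x + (2 * e g) • x = 0 := by
    intro x
    have h1 := hrel g x
    have h3 := hrel (g * c) x
    rw [hgc, hgc, map_smul, smul_smul, hu, one_smul, hec, smul_smul] at h3
    have : (t (g * c) * u - t g) • ρ g x + (2 * e g) • x
        = (ρ g (ρ g x) - t g • ρ g x + e g • x)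
          - (ρ g (ρ g x) - (t (g * c) * u) • ρ g x + (- e g) • x) := by
      rw [sub_smul, two_mul, add_smul, neg_smul]
      abel
    rw [this, h1, h3, sub_zero]
  by_cases hz : t (g * c) * u - t g = 0
  · exfalso
    obtain ⟨x, hx⟩ := exists_ne (0 : X)
    have h := key x
    rw [hz, zero_smul, zero_add] at h
    rcases smul_eq_zero.1 h with h | h
    · rcases mul_eq_zero.1 h with h | h
      · exact h2 h
      · exact he0 g h
    · exact hx h
  · refine ⟨-((t (g * c) * u - t g)⁻¹ * (2 * e g)), fun x => ?_⟩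
    have h := key x
    have h' : (t (g * c) * u - t g) • ρ g x = -((2 * e g) • x) := eq_neg_of_add_eq_zero_left h
    rw [neg_smul, mul_smul, ← smul_neg, ← h', smul_smul, inv_mul_cancel₀ hz, one_smul]

/-- an irreducible plane has no stable line. -/
theorem IrrAbs_line (hX : finrank F X = 2) (ρ : G →* Module.End F X)
    (hirr : ∀ N : Submodule F X, (∀ g, ∀ x ∈ N, ρ g x ∈ N) → N = ⊥ ∨ N = ⊤)
    (v : X) (hv : v ≠ 0) (hst : ∀ g, ∃ l : F, ρ g v = l • v) : False := by
  rcases hirr (Submodule.span F {v}) (by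
    intro g x hx
    obtain ⟨a, rfl⟩ := Submodule.mem_span_singleton.1 hx
    obtain ⟨l, hl⟩ := hst g
    rw [map_smul, hl]
    exact Submodule.smul_mem _ _ (Submodule.smul_mem _ _ (Submodule.mem_span_singleton_self v)))
    with h | h
  · exact hv (Submodule.span_singleton_eq_bot.1 h)
  · have h1 := finrank_span_singleton (K := F) hv
    rw [h, finrank_top, hX] at h1
    omega

end Generic

/-- the computation with `2 × 2` matrices. -/
theorem IrrAbs_core {K : Type*} [Field K] (h2 : (2 : K) ≠ 0) (a b c d t t' e χ u : K) (he : e ≠ 0)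
    (hu : u * u = 1)
    (h00 : a * a + b * c - t * a + e = 0)
    (h01 : a * b + b * d - t * b = 0)
    (h01' : -(a * b) + b * d + t' * b = 0)
    (hχ : χ * χ - t * χ + e = 0)
    (hχ' : (χ * u) * (χ * u) - t' * (χ * u) - e = 0) : b * c = 0 := by
  by_contra h
  have hb : b ≠ 0 := left_ne_zero_of_mul h
  have e1 : a + d = t := by
    apply mul_left_cancel₀ hb
    linear_combination h01
  have e2 : a - d = t' := by
    apply mul_left_cancel₀ hb
    linear_combination -h01'
  have hχ0 : χ ≠ 0 := by
    rintro rfl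
    apply he
    simpa using hχ
  have hu' : u = 1 ∨ u = -1 := by
    have : (u - 1) * (u + 1) = 0 := by linear_combination hu
    rcases mul_eq_zero.1 this with h | h
    · left; linear_combination h
    · right; linear_combination h
  apply h
  rcases hu' with rfl | rfl
  · have h3 : χ = a := by
      apply mul_left_cancel₀ (mul_ne_zero h2 hχ0)
      linear_combination hχ + hχ' - χ * e1 - χ * e2
    subst h3
    linear_combination h00 - hχ
  · have h3 : χ = d := by
      apply mul_left_cancel₀ (mul_ne_zero h2 hχ0)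
      linear_combination hχ + hχ' - χ * e1 + χ * e2
    subst h3
    linear_combination h00 - hχ + (χ - a) * e1

/-- (MAIN) an irreducible plane with an odd involution has no "eigencharacter". -/
theorem IrrAbs_main {F V G K : Type*} [Field F] [AddCommGroup V] [Module F V] [Group G] [Field K]
    (h2 : (2 : F) ≠ 0) (hV2 : finrank F V = 2) (r : G →* Module.End F V)
    (hirr : ∀ N : Submodule F V, (∀ g, ∀ x ∈ N, r g x ∈ N) → N = ⊥ ∨ N = ⊤)
    (t e : G → F) (he0 : ∀ g, e g ≠ 0) (c : G) (hcc : c * c = 1) (hec : ∀ g, e (g * c) = - e g)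
    (hrel : ∀ g x, r g (r g x) - t g • r g x + e g • x = 0)
    (φ : F →+* K) (χ : G → K) (hχmul : ∀ g h, χ (g * h) = χ g * χ h)
    (hχ : ∀ g, χ g * χ g - φ (t g) * χ g + φ (e g) = 0) : False := by
  have : Nontrivial V := Module.nontrivial_of_finrank_pos (R := F) (by omega)
  have hC : ∀ x, r c (r c x) = x := by
    intro x
    rw [← Module.End.mul_apply, ← map_mul, hcc, map_one, Module.End.one_apply]
  have hsc : ∀ u : F, u * u = 1 → (∀ x, r c x = u • x) → False := by
    intro u hu hc
    obtain ⟨v, hv⟩ := exists_ne (0 : V)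
    exact IrrAbs_line hV2 r hirr v hv fun g => by
      obtain ⟨l, hl⟩ := IrrAbs_allScalar h2 r t e he0 c hec hrel u hu hc g
      exact ⟨l, hl v⟩
  rcases IrrAbs_eigBasis h2 hV2 (r c) hC with h | h | ⟨b, hb0, hb1⟩
  · exact hsc 1 (by ring) h
  · exact hsc (-1) (by ring) h
  -- matrices
  set M : G → Matrix (Fin 2) (Fin 2) F := fun g => LinearMap.toMatrix b b (r g) with hM
  have hMmul : ∀ g h, M (g * h) = M g * M h := by
    intro g h
    simp only [hM, map_mul]
    exact LinearMap.toMatrix_mul b _ _
  have hMc : M c = !![1, 0; 0, -1] := by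
    ext i j
    simp only [hM, LinearMap.toMatrix_apply]
    fin_cases i <;> fin_cases j <;> simp [hb0, hb1]
  have hMrel : ∀ g, M g * M g - t g • M g + e g • (1 : Matrix (Fin 2) (Fin 2) F) = 0 := by
    intro g
    have h1 : r g * r g - t g • r g + e g • (1 : Module.End F V) = 0 := by
      ext x
      simpa using hrel g x
    have h3 := congrArg (LinearMap.toMatrix b b) h1
    rw [map_add, map_sub, map_smul, map_smul, LinearMap.toMatrix_mul, LinearMap.toMatrix_one,
      map_zero] at h3
    exact h3
  have h00 : ∀ g, M g 0 0 * M g 0 0 + M g 0 1 * M g 1 0 - t g * M g 0 0 + e g = 0 := by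
    intro g
    have h := congrFun (congrFun (hMrel g) 0) 0
    simpa [Matrix.mul_apply, Fin.sum_univ_two] using h
  have h01 : ∀ g, M g 0 0 * M g 0 1 + M g 0 1 * M g 1 1 - t g * M g 0 1 = 0 := by
    intro g
    have h := congrFun (congrFun (hMrel g) 0) 1
    simpa [Matrix.mul_apply, Fin.sum_univ_two] using h
  have hgc00 : ∀ g, M (g * c) 0 0 = M g 0 0 := by
    intro g
    simp [hMmul, hMc, Matrix.mul_apply, Fin.sum_univ_two]
  have hgc01 : ∀ g, M (g * c) 0 1 = - M g 0 1 := by
    intro g
    simp [hMmul, hMc, Matrix.mul_apply, Fin.sum_univ_two]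
  have hgc11 : ∀ g, M (g * c) 1 1 = - M g 1 1 := by
    intro g
    simp [hMmul, hMc, Matrix.mul_apply, Fin.sum_univ_two]
  have hφe : ∀ g, φ (e g) ≠ 0 := fun g => (map_ne_zero φ).2 (he0 g)
  have hχ1 : χ 1 = 1 := by
    have h1 := hχmul 1 1
    rw [mul_one] at h1
    have h0 : χ 1 ≠ 0 := by
      intro h0
      have := hχ 1
      rw [h0] at this
      apply hφe 1
      simpa using this
    exact (mul_left_cancel₀ h0 (by rw [mul_one]; exact h1)).symm
  have h2K : (2 : K) ≠ 0 := by
    have h := (map_ne_zero φ).2 h2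
    rwa [map_ofNat] at h
  have hbc : ∀ g, M g 0 1 * M g 1 0 = 0 := by
    intro g
    apply φ.injective
    rw [map_mul, map_zero]
    refine IrrAbs_core h2K (φ (M g 0 0)) (φ (M g 0 1)) (φ (M g 1 0)) (φ (M g 1 1)) (φ (t g))
      (φ (t (g * c))) (φ (e g)) (χ g) (χ c) (hφe g) ?_ ?_ ?_ ?_ (hχ g) ?_
    · rw [← hχmul, hcc, hχ1]
    · have := congrArg φ (h00 g)
      simpa only [map_add, map_sub, map_mul, map_zero] using this
    · have := congrArg φ (h01 g)
      simpa only [map_add, map_sub, map_mul, map_zero] using this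
    · have := congrArg φ (h01 (g * c))
      rw [hgc00, hgc01, hgc11] at this
      simp only [map_add, map_sub, map_mul, map_zero, map_neg] at this
      linear_combination this
    · have := hχ (g * c)
      rw [hχmul, hec, map_neg] at this
      linear_combination this
  have hcol : ∀ g j, r g (b j) = M g 0 j • b 0 + M g 1 j • b 1 := by
    intro g j
    have := b.sum_repr (r g (b j))
    rw [Fin.sum_univ_two] at this
    rw [← this]
    simp only [hM, LinearMap.toMatrix_apply]
  by_cases hA : ∀ g, M g 1 0 = 0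
  · exact IrrAbs_line hV2 r hirr (b 0) (b.ne_zero 0) fun g =>
      ⟨M g 0 0, by rw [hcol, hA, zero_smul, add_zero]⟩
  by_cases hB : ∀ g, M g 0 1 = 0
  · exact IrrAbs_line hV2 r hirr (b 1) (b.ne_zero 1) fun g =>
      ⟨M g 1 1, by rw [hcol, hB, zero_smul, zero_add]⟩
  push Not at hA hB
  obtain ⟨x, hx⟩ := hA
  obtain ⟨y, hy⟩ := hB
  have hx' : M x 0 1 = 0 := (mul_eq_zero.1 (hbc x)).resolve_right hx
  have hy' : M y 1 0 = 0 := (mul_eq_zero.1 (hbc y)).resolve_left hy
  have hxy := hbc (x * y)
  rw [hMmul] at hxy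
  simp only [Matrix.mul_apply, Fin.sum_univ_two, hx', hy', zero_mul, mul_zero, add_zero] at hxy
  have hx0 : M x 0 0 ≠ 0 := by
    intro h0
    have := h00 x
    rw [h0, hx'] at this
    apply he0 x
    simpa using this
  have hy0 : M y 0 0 ≠ 0 := by
    intro h0
    have := h00 y
    rw [h0, hy'] at this
    apply he0 y
    simpa using this
  exact mul_ne_zero (mul_ne_zero hx0 hy) (mul_ne_zero hx hy0) hxy

theorem IrrAbs_two_ne_zero (p : ℕ) [Fact p.Prime] (hp2 : p ≠ 2) (K : Type*) [Field K] [CharP K p] :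
    (2 : K) ≠ 0 := by
  intro h
  have h1 : ((2 : ℕ) : K) = 0 := by exact_mod_cast h
  rw [CharP.cast_eq_zero_iff K p] at h1
  exact hp2 ((Nat.prime_dvd_prime_iff_eq Fact.out Nat.prime_two).1 h1)

/-- a common eigenvector gives a character satisfying the quadratic relations. -/
theorem IrrAbs_char {K W G : Type*} [Field K] [AddCommGroup W] [Module K W] [Group G]
    (S : G →* Module.End K W) (t e : G → K)
    (hrel : ∀ g x, S g (S g x) - t g • S g x + e g • x = 0) (w : W) (hw : w ≠ 0) (χ : G → K)
    (hχ : ∀ g, S g w = χ g • w) :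
    (∀ g h, χ (g * h) = χ g * χ h) ∧ ∀ g, χ g * χ g - t g * χ g + e g = 0 := by
  constructor
  · intro g h
    apply smul_left_injective K hw
    show χ (g * h) • w = (χ g * χ h) • w
    rw [← hχ, map_mul, Module.End.mul_apply, hχ, map_smul, hχ, smul_smul, mul_comm]
  · intro g
    have h := hrel g w
    rw [hχ, map_smul, hχ, smul_smul, smul_smul, ← sub_smul, ← add_smul] at h
    exact (smul_eq_zero.1 h).resolve_right hw

/-- a proper nonzero stable subspace of a plane is spanned by a common eigenvector. -/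
theorem IrrAbs_exists_eig {K W G : Type*} [Field K] [AddCommGroup W] [Module K W]
    [Module.Finite K W] (hW : finrank K W = 2) (S : G → Module.End K W) (N : Submodule K W)
    (hN : ∀ g, ∀ x ∈ N, S g x ∈ N) (hbot : N ≠ ⊥) (htop : N ≠ ⊤) :
    ∃ w : W, w ≠ 0 ∧ ∀ g, ∃ a : K, S g w = a • w := by
  have h1 : finrank K N < 2 := hW ▸ Submodule.finrank_lt htop
  have h0 : 1 ≤ finrank K N := Submodule.one_le_finrank_iff.2 hbot
  have h1' : finrank K N = 1 := by omega
  obtain ⟨w, hw, hspan⟩ := finrank_eq_one_iff'.1 h1'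
  refine ⟨w, fun h => hw (Subtype.ext h), fun g => ?_⟩
  obtain ⟨a, ha⟩ := hspan ⟨S g w, hN g w w.2⟩
  exact ⟨a, (congrArg Subtype.val ha).symm⟩

theorem stmt_IrrAbs : Stmt_IrrAbs := by
  intro p _ hp2 G _ V _ _ hV2 r hirr k _ _ U _ _ hU2 s ε hrel c hcc hεc
  choose t e he hV hU using hrel
  have h2F : (2 : ZMod p) ≠ 0 := IrrAbs_two_ne_zero p hp2 (ZMod p)
  have he0 : ∀ g, ((e g : ℤ) : ZMod p) ≠ 0 := fun g => by rw [he]; exact (ε g).ne_zero
  have hec : ∀ g, ((e (g * c) : ℤ) : ZMod p) = -((e g : ℤ) : ZMod p) := by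
    intro g
    rw [he, he, map_mul, hεc]
    simp
  have hV' : ∀ g x, r g (r g x) - ((t g : ℤ) : ZMod p) • r g x + ((e g : ℤ) : ZMod p) • x = 0 := by
    intro g x
    rw [Int.cast_smul_eq_zsmul, Int.cast_smul_eq_zsmul]
    exact hV g x
  have hU' : ∀ g y, s g (s g y) - ((t g : ℤ) : k) • s g y + ((e g : ℤ) : k) • y = 0 := by
    intro g y
    rw [Int.cast_smul_eq_zsmul, Int.cast_smul_eq_zsmul]
    exact hU g y
  -- (MAIN), specialised
  have main : ∀ (K : Type) [Field K] [CharP K p] (χ : G → K), (∀ g h, χ (g * h) = χ g * χ h) →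
      (∀ g, χ g * χ g - ((t g : ℤ) : K) * χ g + ((e g : ℤ) : K) = 0) → False := by
    intro K _ _ χ hmul hχ
    exact IrrAbs_main h2F hV2 r hirr (fun g => ((t g : ℤ) : ZMod p)) (fun g => ((e g : ℤ) : ZMod p))
      he0 c hcc hec hV' (ZMod.castHom (dvd_refl p) K) χ hmul (fun g => by
        rw [map_intCast, map_intCast]
        exact hχ g)
  have : Module.Finite k U := Module.finite_of_finrank_pos (by omega)
  have : Nontrivial U := Module.nontrivial_of_finrank_pos (R := k) (by omega)
  constructor
  · have h2k : (2 : k) ≠ 0 := IrrAbs_two_ne_zero p hp2 k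
    have hcast : ∀ n : ℤ, (n : k) = ZMod.castHom (dvd_refl p) k (n : ZMod p) := fun n =>
      (map_intCast _ n).symm
    have he0k : ∀ g, ((e g : ℤ) : k) ≠ 0 := fun g => by
      rw [hcast]
      exact (map_ne_zero _).2 (he0 g)
    have heck : ∀ g, ((e (g * c) : ℤ) : k) = -((e g : ℤ) : k) := fun g => by
      rw [hcast, hcast, hec, map_neg]
    have hCs : ∀ y, s c (s c y) = y := by
      intro y
      rw [← Module.End.mul_apply, ← map_mul, hcc, map_one, Module.End.one_apply]
    have hsck : ∀ u : k, u * u = 1 → (∀ y, s c y = u • y) → False := by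
      intro u hu hc
      have hall := IrrAbs_allScalar h2k s (fun g => ((t g : ℤ) : k)) (fun g => ((e g : ℤ) : k))
        he0k c heck hU' u hu hc
      choose χ hχ using hall
      obtain ⟨y, hy⟩ := exists_ne (0 : U)
      obtain ⟨hm, hr⟩ := IrrAbs_char s _ _ hU' y hy χ (fun g => hχ g y)
      exact main k χ hm hr
    rcases IrrAbs_eigBasis h2k hU2 (s c) hCs with h | h | ⟨b, hb0, hb1⟩
    · exact (hsck 1 (by ring) h).elim
    · exact (hsck (-1) (by ring) h).elim
    · rw [← LinearMap.det_toMatrix b]
      have hm : LinearMap.toMatrix b b (s c) = !![1, 0; 0, -1] := by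
        ext i j
        simp only [LinearMap.toMatrix_apply]
        fin_cases i <;> fin_cases j <;> simp [hb0, hb1]
      rw [hm]
      simp [Matrix.det_fin_two]
  · intro K _ _ N hN
    by_contra hcon
    push Not at hcon
    obtain ⟨hbot, htop⟩ := hcon
    have : CharP K p := charP_of_injective_algebraMap (algebraMap k K).injective p
    let S : G →* Module.End K (TensorProduct k K U) :=
      ((Module.End.baseChangeHom k K U : Module.End k U →ₐ[k] Module.End K (TensorProduct k K U)) :
        Module.End k U →* Module.End K (TensorProduct k K U)).comp s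
    have hS : ∀ g, S g = (s g).baseChange K := fun g => rfl
    have hrelS : ∀ g z, S g (S g z) - ((t g : ℤ) : K) • S g z + ((e g : ℤ) : K) • z = 0 := by
      intro g z
      have h1 : s g * s g - (t g) • s g + (e g) • (1 : Module.End k U) = 0 := by
        ext y
        simpa using hU g y
      have h3 := congrArg (Module.End.baseChangeHom k K U) h1
      rw [map_add, map_sub, map_mul, map_zsmul, map_zsmul, map_one, map_zero] at h3
      have h4 := LinearMap.congr_fun h3 z
      rw [Int.cast_smul_eq_zsmul K (t g) (S g z), Int.cast_smul_eq_zsmul K (e g) z]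
      simp only [LinearMap.add_apply, LinearMap.sub_apply, Module.End.mul_apply,
        LinearMap.smul_apply, Module.End.one_apply, LinearMap.zero_apply] at h4
      exact h4
    have hfr : finrank K (TensorProduct k K U) = 2 := by rw [Module.finrank_baseChange, hU2]
    obtain ⟨w, hw, hex⟩ := IrrAbs_exists_eig hfr S N hN hbot htop
    choose χ hχ using hex
    obtain ⟨hm, hr⟩ := IrrAbs_char S _ _ hrelS w hw χ hχ
    exact main K χ hm hr

end Fermat.Agent.S58

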