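import Fermat.Agent.S58.Interface
import Fermat.Agent.SMO.Occurs

/-!
# S58 : [NEW] pass to a newform of minimal level, [RAISE] raise the level
-/

set_option autoImplicit false

open CuspForm ModularFormClass CongruenceSubgroup

namespace Fermat.Agent.S58

/-- **[NEW]** -/
theorem stmt_New : Stmt_New := by
  intro N hN f hf
  classical
  let P : ℕ → Prop := fun M => M ∣ N ∧ ∃ g : CuspForm (Gamma0 M) 2, g.IsNormalizedEigenform ∧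
    ∀ ℓ : ℕ, ℓ.Prime → ¬ ℓ ∣ N → qCoeff g ℓ = qCoeff f ℓ
  have hP : ∃ M, P M := ⟨N, dvd_rfl, f, hf, fun _ _ _ => rfl⟩
  obtain ⟨hM₀N, g₀, hg₀, hg₀f⟩ := Nat.find_spec hP
  refine ⟨Nat.find hP, g₀, hM₀N, ⟨hg₀, ?_⟩, hg₀f⟩
  rintro M hM hne ⟨h, hh, hhg⟩
  have hM₀pos : 0 < Nat.find hP := Nat.pos_of_dvd_of_pos hM₀N hN
  have hlt : M < Nat.find hP := lt_of_le_of_ne (Nat.le_of_dvd hM₀pos hM) hne
  refine Nat.find_min hP hlt ⟨hM.trans hM₀N, h, hh, fun ℓ hℓ hℓN => ?_⟩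
  rw [hhg ℓ hℓ (fun hd => hℓN (hd.trans hM₀N)), hg₀f ℓ hℓ hℓN]

/-- **[RAISE]** -/
theorem stmt_Raise : Stmt_Raise := by
  intro M₀ M hM hd g₀ hg₀
  have : NeZero M := ⟨hM.ne'⟩
  let E := SMO.awaySpace M (fun _ => True) (fun ℓ => qCoeff g₀ ℓ)
  have hmem : SMO.levelIncl hd 2 g₀ ∈ E := by
    intro ℓ hℓ hℓM _
    have hℓM₀ : ¬ ℓ ∣ M₀ := fun h => hℓM (h.trans hd)
    rw [SMO.heckeTLin_levelIncl hd 2 hℓ hℓM hℓM₀, ES.EigenChar.heckeT_eigen hg₀ hℓ hℓM₀, map_smul]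
  have hE : E ≠ ⊥ := by
    intro h
    rw [h] at hmem
    have h0 : SMO.levelIncl hd 2 g₀ = 0 := (Submodule.mem_bot ℂ).mp hmem
    exact hg₀.ne_zero (SMO.levelIncl_injective hd 2 (by rw [h0, map_zero]))
  obtain ⟨g, hgE, hg⟩ := SMO.exists_eigenform_mem E hE (SMO.awaySpace_invariant _ _)
  refine ⟨g, hg, fun ℓ hℓ hℓM => ?_⟩
  have h1 := hgE ℓ hℓ hℓM trivial
  rw [ES.EigenChar.heckeT_eigen hg hℓ hℓM] at h1
  exact smul_left_injective ℂ hg.ne_zero h1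

end Fermat.Agent.S58

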