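import Fermat.Agent.S58.Interface

/-!
# S58: `V / λⁿ V` and residual representations are `ESMod`s  (task 1103, helper53)
-/

set_option autoImplicit false

open Polynomial

namespace Fermat.Agent.S58

/-- Cayley-Hamilton for an endomorphism with characteristic polynomial `X² - a X + b`. -/
theorem RMod_cayley {R M : Type} [CommRing R] [AddCommGroup M] [Module R M] [Module.Free R M]
    [Module.Finite R M] (f : Module.End R M) (a b : R)
    (h : LinearMap.charpoly f = X ^ 2 - C a * X + C b) (v : M) :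
    f (f v) - a • f v + b • v = 0 := by
  have h1 := LinearMap.aeval_self_charpoly f
  rw [h] at h1
  have h2 := LinearMap.congr_fun h1 v
  simpa [pow_two, Algebra.algebraMap_eq_smul_one] using h2

/-- In a DVR every nonzero principal ideal contains a power of the maximal ideal. -/
theorem RMod_pow_le {O : Type} [CommRing O] [IsDomain O] [IsDiscreteValuationRing O] (x : O)
    (hx : x ≠ 0) : ∃ N : ℕ, IsLocalRing.maximalIdeal O ^ N ≤ Ideal.span {x} := by
  obtain ⟨ϖ, hϖ⟩ := IsDiscreteValuationRing.exists_irreducible O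
  have hI : Ideal.span {x} ≠ ⊥ := by
    rw [Ne, Ideal.span_singleton_eq_bot]; exact hx
  obtain ⟨N, hN⟩ := IsDiscreteValuationRing.ideal_eq_span_pow_irreducible hI hϖ
  refine ⟨N, ?_⟩
  rw [hN, hϖ.maximalIdeal_eq, Ideal.span_singleton_pow]

theorem stmt_RMod : Stmt_RMod := by
  intro O _ _ _ _ lam _ hlam ρ W S₀ hatt n
  refine ⟨?_, ?_, ?_⟩
  · intro y
    induction y using Submodule.Quotient.induction_on with
    | _ v =>
      rw [← Submodule.Quotient.mk_smul, Submodule.Quotient.mk_eq_zero,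
        ← Nat.cast_smul_eq_nsmul O]
      exact Submodule.smul_mem_smul (Ideal.mem_span_singleton_self _) Submodule.mem_top
  · have hne : ((lam ^ n : ℕ) : O) ≠ 0 := by
      exact_mod_cast (pow_pos (Fact.out : lam.Prime).pos n).ne'
    obtain ⟨N, hN⟩ := RMod_pow_le _ hne
    obtain ⟨L, hL, h1⟩ := ρ.isAdicContinuous N
    refine ⟨L, hL, fun σ hσ => ?_⟩
    ext y
    induction y using Submodule.Quotient.induction_on with
    | _ v =>
      rw [rhoAct_mk]
      show Submodule.Quotient.mk (ρ.ρ σ v) = Submodule.Quotient.mk v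
      rw [Submodule.Quotient.eq]
      exact Submodule.smul_mono_left hN (h1 σ hσ v)
  · intro ℓ hℓ hS A hA σ hσ y
    induction y using Submodule.Quotient.induction_on with
    | _ v =>
      have h := RMod_cayley (ρ.ρ σ) _ _ (hatt ℓ hℓ hS A hA σ hσ) v
      rw [rhoAct_mk, rhoAct_mk, ← Submodule.Quotient.mk_smul, ← Submodule.Quotient.mk_smul,
        ← Submodule.Quotient.mk_sub, ← Submodule.Quotient.mk_add]
      rw [Int.cast_smul_eq_zsmul, Nat.cast_smul_eq_nsmul] at h
      rw [natCast_zsmul]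
      show Submodule.Quotient.mk
        (ρ.ρ σ (ρ.ρ σ v) - W.apOfModel ℓ • ρ.ρ σ v + ℓ • v) = 0
      rw [h]
      rfl

theorem stmt_ResMod : Stmt_ResMod := by
  intro lam _ k _ _ ρ S₀ a hatt
  refine ⟨?_, ?_, ?_⟩
  · intro y
    rw [← Nat.cast_smul_eq_nsmul k, CharP.cast_eq_zero, zero_smul]
  · obtain ⟨L, hL, h1⟩ := ρ.factorsThroughFiniteLevel
    refine ⟨L, hL, fun σ hσ => ?_⟩
    ext y
    rw [resAct_apply, h1 σ hσ]
    rfl
  · intro ℓ hℓ hS A hA σ hσ y
    have h := RMod_cayley (ρ.ρ σ) _ _ (hatt ℓ hℓ hS A hA σ hσ) y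
    rw [Int.cast_smul_eq_zsmul, Nat.cast_smul_eq_nsmul] at h
    rw [resAct_apply, resAct_apply, natCast_zsmul]
    exact h

end Fermat.Agent.S58
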