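import Fermat.Agent.S58.Interface
import Fermat.Agent.FD.Main
import Fermat.Agent.ES.RepGalois

/-!
# S58, packages [TS] + [CYC] : Frobenius density + Lucas sequences
-/

set_option autoImplicit false

namespace Fermat.Agent.S58

open Fermat.Agent.ES.RepGalois (IsCyc)

/-- **[CYC]** -/
theorem stmt_Cyc : Stmt_Cyc :=
  ⟨fun _ _ hℓ hm _ hA _ hσ => ES.RepGalois.isCyc_frob hℓ hA hσ hm,
   fun _ _ hq hm _ hA _ hσ => ES.RepGalois.isCyc_inertia hq hA hσ hm⟩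

/-! ### Lucas sequences -/

/-- `V 0 = 2`, `V 1 = a`, `V (n+2) = a V (n+1) - l V n`. -/
def TS_V (a l : ℤ) : ℕ → ℤ
  | 0 => 2
  | 1 => a
  | (n + 2) => a * TS_V a l (n + 1) - l * TS_V a l n

theorem TS_V_zero (a l : ℤ) : TS_V a l 0 = 2 := rfl
theorem TS_V_one (a l : ℤ) : TS_V a l 1 = a := rfl
theorem TS_V_succ (a l : ℤ) (n : ℕ) :
    TS_V a l (n + 2) = a * TS_V a l (n + 1) - l * TS_V a l n := rfl

section Lucas

variable {R : Type*} [Ring R]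

theorem TS_lucas_sum (s τ : R) (a l : ℤ) (h1 : s + τ = a • (1 : R)) (h2 : s * τ = l • (1 : R))
    (h3 : τ * s = l • (1 : R)) (n : ℕ) :
    s ^ n + τ ^ n = TS_V a l n • (1 : R) ∧ s ^ (n + 1) + τ ^ (n + 1) = TS_V a l (n + 1) • (1 : R) := by
  induction n with
  | zero =>
    refine ⟨?_, ?_⟩
    · rw [pow_zero, pow_zero, TS_V_zero, two_zsmul]
    · rw [zero_add, pow_one, pow_one, TS_V_one, h1]
  | succ n ih =>
    refine ⟨ih.2, ?_⟩
    have e1 : (s + τ) * (s ^ (n + 1) + τ ^ (n + 1)) =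
        s ^ (n + 1 + 1) + τ ^ (n + 1 + 1) + (s * τ) * τ ^ n + (τ * s) * s ^ n := by
      rw [pow_succ' s (n + 1), pow_succ' τ (n + 1), pow_succ' s n, pow_succ' τ n]
      noncomm_ring
    rw [h1, h2, h3, ih.2, smul_mul_assoc, smul_mul_assoc, smul_mul_assoc, one_mul, one_mul,
      one_mul] at e1
    have e2 : s ^ (n + 1 + 1) + τ ^ (n + 1 + 1) =
        a • TS_V a l (n + 1) • (1 : R) - l • (s ^ n + τ ^ n) := by
      rw [e1, smul_add]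
      abel
    rw [e2, ih.1, TS_V_succ, sub_smul, mul_smul, mul_smul]

theorem TS_lucas (s : R) (a l : ℤ) (h : s * s - a • s + l • (1 : R) = 0) (k : ℕ) :
    s ^ k * s ^ k - TS_V a l k • s ^ k + (l ^ k) • (1 : R) = 0 := by
  set τ : R := a • (1 : R) - s with hτ
  have h1 : s + τ = a • (1 : R) := by rw [hτ]; abel
  have h2 : s * τ = l • (1 : R) := by
    rw [hτ, mul_sub, mul_smul_comm, mul_one]
    have : l • (1 : R) = a • s - s * s := by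
      rw [eq_sub_iff_add_eq, ← sub_eq_zero, ← h]
      abel
    rw [this]
  have h3 : τ * s = l • (1 : R) := by
    rw [← h2, hτ, mul_sub, sub_mul, mul_smul_comm, smul_mul_assoc, mul_one, one_mul]
  have hc : Commute τ s := h3.trans h2.symm
  have h4 := (TS_lucas_sum s τ a l h1 h2 h3 k).1
  have h5 : TS_V a l k • s ^ k = (s ^ k + τ ^ k) * s ^ k := by
    rw [h4, smul_mul_assoc, one_mul]
  have h6 : τ ^ k * s ^ k = (l ^ k) • (1 : R) := by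
    rw [← hc.mul_pow, h3, smul_pow, one_pow]
  rw [h5, add_mul, h6]
  abel

end Lucas

/-! ### the modules -/

section Mod

variable {Y : Type} [AddCommGroup Y] (act : GQ →* AddMonoid.End Y)

theorem TS_act_eq (L : IntermediateField ℚ Qb)
    (hL : ∀ σ : GQ, (∀ x ∈ L, σ x = x) → act σ = 1) (g h : GQ) (hgh : ∀ x ∈ L, g x = h x) :
    act g = act h := by
  have h1 : act (h⁻¹ * g) = 1 := hL _ (fun x hx => by
    rw [AlgEquiv.mul_apply, hgh x hx]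
    exact h.symm_apply_apply x)
  calc act g = act (h * (h⁻¹ * g)) := by rw [mul_inv_cancel_left]
    _ = act h * act (h⁻¹ * g) := map_mul _ _ _
    _ = act h := by rw [h1, mul_one]

variable {act}

theorem TS_quad {m : ℕ} {S₀ : Finset ℕ} {a : ℕ → ℤ} (E : ESMod m S₀ a Y act) {ℓ : ℕ}
    (hℓ : ℓ.Prime) (hℓS : ℓ ∉ S₀) {A : ValuationSubring Qb} (hA : A.LiesOverPrime ℓ) {σ : GQ}
    (hσ : A.IsFrobeniusAt σ ℓ) (k : ℕ) (g : GQ) (hg : act g = act σ ^ k) (e : ℕ)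
    (he : e ≡ ℓ ^ k [MOD m]) : QuadRel act g (TS_V (a ℓ) ℓ k) e := by
  have h0 : act σ * act σ - a ℓ • act σ + (ℓ : ℤ) • (1 : AddMonoid.End Y) = 0 := by
    ext y
    exact E.frob ℓ hℓ hℓS A hA σ hσ y
  have h1 := TS_lucas (act σ) (a ℓ) (ℓ : ℤ) h0 k
  intro y
  have h2 := DFunLike.congr_fun h1 y
  have h3 : (e : ℤ) • y = ((ℓ : ℤ) ^ k) • y := by
    obtain ⟨c, hc⟩ := (Nat.modEq_iff_dvd.1 he)
    have h4 : ((ℓ : ℤ) ^ k) = (e : ℤ) + (m : ℤ) * c := by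
      have : ((ℓ ^ k : ℕ) : ℤ) = (ℓ : ℤ) ^ k := by push_cast; rfl
      rw [← this]; linarith
    have h5 : (m : ℤ) • y = 0 := by rw [natCast_zsmul, E.kill]
    rw [h4, add_smul, mul_comm, mul_smul, h5, smul_zero, add_zero]
  rw [hg, h3]
  exact h2

end Mod

/-- **[TS]** -/
theorem stmt_TS : Stmt_TS := by
  intro m hm S₀ hS₀ a Y₁ Y₂ _ _ act₁ act₂ E₁ E₂ g e hge
  obtain ⟨L1, hL1fd, hL1⟩ := E₁.level
  obtain ⟨L2, hL2fd, hL2⟩ := E₂.level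
  obtain ⟨L3, hL3fd, hL3⟩ := ES.RepGalois.exists_level m hm
  have : FiniteDimensional ℚ (L1 ⊔ L2 : IntermediateField ℚ Qb) :=
    IntermediateField.finiteDimensional_sup L1 L2
  have : FiniteDimensional ℚ (L1 ⊔ L2 ⊔ L3 : IntermediateField ℚ Qb) :=
    IntermediateField.finiteDimensional_sup (L1 ⊔ L2) L3
  obtain ⟨ℓ, A, σ, k, -, hℓ, hℓS, hA, hσ, hgk, -⟩ := FD.frobenius_density (L1 ⊔ L2 ⊔ L3) g S₀
  have hle1 : L1 ≤ L1 ⊔ L2 ⊔ L3 := le_sup_left.trans le_sup_left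
  have hle2 : L2 ≤ L1 ⊔ L2 ⊔ L3 := le_sup_right.trans le_sup_left
  have hle3 : L3 ≤ L1 ⊔ L2 ⊔ L3 := le_sup_right
  have hℓm : ¬ ℓ ∣ m := fun h => hℓS (hS₀ ℓ hℓ h)
  have hc1 : IsCyc m (σ ^ k) (ℓ ^ k) := (ES.RepGalois.isCyc_frob hℓ hA hσ hℓm).pow k
  have hc2 : IsCyc m g (ℓ ^ k) := hL3 (σ ^ k) g (fun x hx => (hgk x (hle3 hx)).symm) _ hc1
  have he : e ≡ ℓ ^ k [MOD m] := ES.RepGalois.IsCyc.modEq hm hge hc2
  refine ⟨TS_V (a ℓ) ℓ k, ?_, ?_⟩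
  · refine TS_quad E₁ hℓ hℓS hA hσ k g ?_ e he
    rw [TS_act_eq act₁ L1 hL1 g (σ ^ k) (fun x hx => hgk x (hle1 hx)), map_pow]
  · refine TS_quad E₂ hℓ hℓS hA hσ k g ?_ e he
    rw [TS_act_eq act₂ L2 hL2 g (σ ^ k) (fun x hx => hgk x (hle2 hx)), map_pow]

end Fermat.Agent.S58
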