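import Fermat.Agent.S58.UniRoot
import Fermat.Agent.S13.Two
import Fermat.Agent.S05.VarChange
import Fermat.Agent.S05.Frey

/-!
# S58 [UNI]: inertia at a prime of multiplicative reduction acts unipotently on the torsion of order
prime to the residue characteristic, for an arbitrary integral Weierstrass model (helper58)

`uni` : `W : WeierstrassCurve ℤ`, `q ∣ Δ`, `q ∤ c₄`, `σ` in an inertia group over `q`, `q ∤ m`,
`m • P = 0`  ⟹  `σ • (σ • P - P) = σ • P - P`.
-/

set_option autoImplicit false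
set_option linter.unusedSectionVars false

namespace Fermat.Agent.S58.Uni

open WeierstrassCurve WeierstrassCurve.Affine WeierstrassCurve.Affine.Point
open Fermat.Agent.S05 Fermat.Agent.S13

section Abstract

variable {K : Type*} [Field K] [CharZero K] [DecidableEq K]
variable {Γ₀ : Type*} [LinearOrderedCommGroupWithZero Γ₀] {v : Valuation K Γ₀}
variable (W : WeierstrassCurve K)

/-- translation to the `2`-torsion point with `x`-coordinate `e`. -/
def vc (e : K) : VariableChange K := ⟨1, e, 0, T2 W e⟩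

lemma vc_a₁ (e : K) : (vc W e • W).a₁ = W.a₁ := by
  simp [variableChange_a₁, vc]

lemma vc_a₂ (e : K) : (vc W e • W).a₂ = W.a₂ + 3 * e := by
  simp [variableChange_a₂, vc]

lemma vc_a₃ (e : K) : (vc W e • W).a₃ = 0 := by
  simp only [variableChange_a₃, vc, T2]
  simp
  ring

lemma vc_a₄ (e : K) : (vc W e • W).a₄ = A4 W e := by
  simp only [variableChange_a₄, vc, A4]
  simp
  ring

lemma vc_a₆ {e : K} (hf : F2 W e = 0) : (vc W e • W).a₆ = 0 := by
  have h1 := T2_sq W hf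
  have h2 : W.a₁ * e + W.a₃ = -2 * T2 W e := by simp only [T2]; ring
  simp only [variableChange_a₆, vc]
  simp
  linear_combination h1 - T2 W e * h2

lemma vc_isM1 {e : K} (hf : F2 W e = 0) : IsM1 (vc W e • W).toAffine :=
  ⟨vc_a₃ W e, vc_a₆ W hf⟩

lemma vc_b₂ (e : K) : (vc W e • W).a₁ ^ 2 + 4 * (vc W e • W).a₂ = B2 W e := by
  rw [vc_a₁, vc_a₂]
  simp only [B2, b₂]
  ring

lemma vcX_vc (e x : K) : vcX (vc W e) x = x + e := by simp [vcX, vc]

lemma vcY_vc (e x y : K) : vcY (vc W e) x y = y + T2 W e := by simp [vcY, vc]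

/-- `σ` fixes the coefficients of `W`. -/
structure Fixes (σ : K →+* K) : Prop where
  a₁ : σ W.a₁ = W.a₁
  a₂ : σ W.a₂ = W.a₂
  a₃ : σ W.a₃ = W.a₃
  a₄ : σ W.a₄ = W.a₄
  a₆ : σ W.a₆ = W.a₆

variable {W}

lemma Fixes.T2 {σ : K →+* K} (h : Fixes W σ) (e : K) : T2 W (σ e) = σ (T2 W e) := by
  simp only [Uni.T2, map_div₀, map_neg, map_add, map_mul, h.a₁, h.a₃, map_ofNat]

lemma Fixes.A4 {σ : K →+* K} (h : Fixes W σ) (e : K) : A4 W (σ e) = σ (A4 W e) := by
  simp only [Uni.A4, h.T2, map_add, map_sub, map_mul, map_pow, h.a₁, h.a₂, h.a₄, map_ofNat]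

lemma Fixes.F2 {σ : K →+* K} (h : Fixes W σ) (e : K) : F2 W (σ e) = σ (F2 W e) := by
  simp only [Uni.F2, b₂, b₄, b₆, map_add, map_mul, map_pow, h.a₁, h.a₂, h.a₃, h.a₄, h.a₆,
    map_ofNat]

/-- the action of `τ₀` transported to the translated model. -/
noncomputable def conj (e : K) (τ₀ : W.toAffine.Point →+ W.toAffine.Point) :
    (vc W e • W).toAffine.Point →+ (vc W e • W).toAffine.Point :=
  ((vcEquiv W (vc W e)).symm.toAddMonoidHom.comp τ₀).comp (vcEquiv W (vc W e)).toAddMonoidHom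

lemma conj_apply (e : K) (τ₀ : W.toAffine.Point →+ W.toAffine.Point)
    (P : (vc W e • W).toAffine.Point) :
    vcEquiv W (vc W e) (conj e τ₀ P) = τ₀ (vcEquiv W (vc W e) P) := by
  simp [conj]

lemma shiftAct_conj {σ : K →+* K} {τ₀ : W.toAffine.Point →+ W.toAffine.Point}
    (htriv : ∀ a, v a ≤ 1 → v (σ a - a) < 1) (hval : ∀ a, v (σ a) = v a)
    (hact : ∀ (x y : K) (h : W.toAffine.Nonsingular x y),
      ∃ h' : W.toAffine.Nonsingular (σ x) (σ y), τ₀ (Point.some x y h) = Point.some (σ x) (σ y) h')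
    (e : K) :
    ShiftAct v (vc W e • W).toAffine σ (conj e τ₀) (σ e - e) (σ (T2 W e) - T2 W e) where
  triv := htriv
  val := hval
  act x y h := by
    have h1 : W.toAffine.Nonsingular (x + e) (y + T2 W e) := by
      have := (vc_nonsingular W (vc W e) x y).mp h
      rwa [vcX_vc, vcY_vc] at this
    obtain ⟨h2, e2⟩ := hact _ _ h1
    have h3 : (vc W e • W).toAffine.Nonsingular (σ x + (σ e - e)) (σ y + (σ (T2 W e) - T2 W e)) := by
      rw [vc_nonsingular, vcX_vc, vcY_vc]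
      convert h2 using 1
      · rw [map_add]; ring
      · rw [map_add]; ring
    refine ⟨h3, ?_⟩
    apply (vcEquiv W (vc W e)).injective
    rw [conj_apply, vcEquiv_apply, vcEquiv_apply, vcFun_some, vcFun_some]
    have e4 : Point.some (vcX (vc W e) x) (vcY (vc W e) x y)
        ((vc_nonsingular W (vc W e) x y).mp h) = Point.some (x + e) (y + T2 W e) h1 := by
      simp only [Point.some.injEq]
      exact ⟨vcX_vc W e x, vcY_vc W e x y⟩
    rw [e4, e2]
    simp only [Point.some.injEq]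
    constructor
    · rw [vcX_vc, map_add]; ring
    · rw [vcY_vc, map_add]; ring

/-- **abstract form of [UNI].** -/
theorem uni_abstract [IsAlgClosed K] (hW : IsInt v W) (hc4 : v W.c₄ = 1) (hΔ : v W.Δ < 1)
    (hΔ0 : W.Δ ≠ 0) {σ : K →+* K} {τ₀ : W.toAffine.Point →+ W.toAffine.Point}
    (hfix : Fixes W σ)
    (htriv : ∀ a, v a ≤ 1 → v (σ a - a) < 1) (hval : ∀ a, v (σ a) = v a)
    (hact : ∀ (x y : K) (h : W.toAffine.Nonsingular x y),
      ∃ h' : W.toAffine.Nonsingular (σ x) (σ y), τ₀ (Point.some x y h) = Point.some (σ x) (σ y) h')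
    (m : ℕ) (hm : v (m : K) = 1) (P : W.toAffine.Point) (hmP : m • P = 0) :
    τ₀ (τ₀ P - P) = τ₀ P - P := by
  obtain ⟨e, hf, he, hA⟩ := exists_good_root hW hc4 hΔ
  have hf' : F2 W (σ e) = 0 := by rw [hfix.F2, hf, _root_.map_zero]
  have hA' : v (A4 W (σ e)) < 1 := by rw [hfix.A4, hval]; exact hA
  have hδ4 := v_sub_le_of_good hc4 hf hf' hA hA'
  have h20 : 0 < v (2 : K) := (Valuation.pos_iff v).mpr two_ne_zero
  have hδ : v (σ e - e) ≤ v (A4 W e) := by
    refine hδ4.trans ?_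
    rw [map_mul]
    exact mul_le_of_le_one_left zero_le (v_ofNat_le_one 4)
  have hε : v (σ (T2 W e) - T2 W e) ≤ v (A4 W e) := by
    have e1 : σ (T2 W e) - T2 W e = -W.a₁ * ((σ e - e) / 2) := by
      rw [← hfix.T2]; simp only [T2]; ring
    have e2 : v ((σ e - e) / 2) ≤ v (2 * A4 W e) := by
      rw [map_div₀, div_le_iff₀ h20, ← map_mul]
      have : 2 * A4 W e * 2 = 4 * A4 W e := by ring
      rw [this]; exact hδ4
    rw [e1, map_mul, Valuation.map_neg]
    calc v W.a₁ * v ((σ e - e) / 2) ≤ 1 * v (2 * A4 W e) := mul_le_mul' hW.a₁ e2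
      _ = v (2 : K) * v (A4 W e) := by rw [one_mul, map_mul]
      _ ≤ v (A4 W e) := mul_le_of_le_one_left zero_le (v_ofNat_le_one 2)
  have hS := shiftAct_conj (v := v) htriv hval hact e
  have hM := vc_isM1 W hf
  set φ := vcEquiv W (vc W e) with hφ
  have key := hS.unipotent hM (by rw [vc_a₁]; exact hW.a₁)
    (by rw [vc_a₂]; exact Valuation.map_add_le v hW.a₂ (v_mul_le_one (v_ofNat_le_one 3) he))
    (by rw [vc_a₄]; exact hA) (by rw [vc_a₄]; exact A4_ne_zero hΔ0 hf)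
    (by rw [vc_b₂]; exact v_B2_eq_one hc4 hA) (by rw [vc_a₄]; exact hδ) (by rw [vc_a₄]; exact hε)
    m hm (φ.symm P) (by rw [← map_nsmul, hmP, _root_.map_zero])
  have key2 := congrArg φ key
  rw [conj_apply, map_sub, conj_apply, AddEquiv.apply_symm_apply] at key2
  exact key2

end Abstract

local notation "Qb" => AlgebraicClosure ℚ

/-- **[UNI]** -/
theorem uni (W : WeierstrassCurve ℤ) (q : ℕ) (hq : q.Prime) (hΔ : (q : ℤ) ∣ W.Δ) (hΔ0 : W.Δ ≠ 0)
    (hc4 : ¬ (q : ℤ) ∣ W.c₄) (A : ValuationSubring Qb) (hA : A.LiesOverPrime q)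
    (σ : Qb ≃ₐ[ℚ] Qb) (hσ : σ ∈ A.inertiaSubgroupIn ℚ) (m : ℕ) (hm : ¬ q ∣ m)
    (P : ((W.map (Int.castRingHom ℚ))⁄Qb).Point) (hP : m • P = 0) :
    σ • (σ • P - P) = σ • P - P := by
  have ha : ∀ n : ℤ, algebraMap ℚ Qb ((Int.castRingHom ℚ) n) = (n : Qb) := by
    intro n; simp
  have hfixn : ∀ n : ℤ, (σ : Qb →+* Qb) (n : Qb) = (n : Qb) := by
    intro n; simp
  have hInt : IsInt A.valuation ((W.map (Int.castRingHom ℚ))⁄Qb) :=
    ⟨by simp, by simp, by simp, by simp, by simp⟩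
  have hc4K : ((W.map (Int.castRingHom ℚ))⁄Qb).c₄ = (W.c₄ : Qb) := by
    rw [WeierstrassCurve.Affine.baseChange, WeierstrassCurve.baseChange, map_c₄, map_c₄, ha]
  have hΔK : ((W.map (Int.castRingHom ℚ))⁄Qb).Δ = (W.Δ : Qb) := by
    rw [WeierstrassCurve.Affine.baseChange, WeierstrassCurve.baseChange, map_Δ, map_Δ, ha]
  refine uni_abstract (v := A.valuation) (σ := (σ : Qb →+* Qb))
    (τ₀ := Point.map (W' := W.map (Int.castRingHom ℚ)) σ.toAlgHom) hInt ?_ ?_ ?_ ?_
    (inertia_unpack hσ) (Two.val_eq_of_inertia hσ) ?_ m ?_ P hP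
  · rw [hc4K]; exact val_int_eq_one hA hq hc4
  · rw [hΔK]; exact val_int_lt hA hΔ
  · rw [hΔK]; exact_mod_cast hΔ0
  · exact ⟨by simp, by simp, by simp, by simp, by simp⟩
  · intro x y h
    exact ⟨_, Point.map_some (W' := W.map (Int.castRingHom ℚ)) σ.toAlgHom h⟩
  · have h : ¬ (q : ℤ) ∣ (m : ℤ) := by exact_mod_cast hm
    simpa using val_int_eq_one hA hq h

end Fermat.Agent.S58.Uni
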