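import Fermat.Agent.S58.Interface
import Fermat.Agent.S58.Uni

/-!
# S58 [UNI] in the shape of the interface (helper58)
-/

set_option autoImplicit false

namespace Fermat.Agent.S58

theorem stmt_Uni : Stmt_Uni := by
  intro W q hq hΔ0 hΔ hc4 A hA σ hσ m hm P hP
  exact Uni.uni W q hq hΔ hΔ0 hc4 A hA σ hσ m hm P hP

end Fermat.Agent.S58
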