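import Fermat.Agent.S58.Interface

/-!
# S58 / [UNIP] : a `p`-adic representation with the Frobenius polynomials of a semistable `W` is
unipotent on inertia at every `q ≠ p`.
-/

set_option autoImplicit false

open WeierstrassCurve WeierstrassCurve.Affine WeierstrassCurve.Affine.Point
open Polynomial

namespace Fermat.Agent.S58

theorem Unip_AttW_mono {O : Type} [CommRing O] [IsLocalRing O] {ρ : GaloisRepAdic O}
    {W : WeierstrassCurve ℤ} {S₀ S₁ : Finset ℕ} (h : AttW ρ W S₀) (hS : S₀ ⊆ S₁) : AttW ρ W S₁ :=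
  fun ℓ hℓ hℓS => h ℓ hℓ (fun h0 => hℓS (hS h0))

/-- `(f - 1)² = 0` on a free module of rank `2` over a domain gives `charpoly f = (X - 1)²`. -/
theorem Unip_charpoly_of_sq {O V : Type} [CommRing O] [IsDomain O] [AddCommGroup V] [Module O V]
    [Module.Free O V] [Module.Finite O V] (hrk : Module.finrank O V = 2) (f : Module.End O V)
    (h : (f - 1) * (f - 1) = 0) : LinearMap.charpoly f = (X - 1) ^ 2 := by
  have hnil : IsNilpotent (f - (1 : O) • (1 : Module.End O V)) := by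
    rw [one_smul]
    exact ⟨2, by rw [pow_two, h]⟩
  have h1 := hnil.charpoly_eq_X_pow_finrank
  rw [LinearMap.charpoly_sub_smul, hrk] at h1
  have h2 := congrArg (fun P : O[X] => P.comp (X - C 1)) h1
  simp only [comp_assoc, add_comp, X_comp, C_comp, sub_add_cancel, comp_X, pow_comp] at h2
  rw [h2, map_one]

/-- Krull: an element lying in `p ^ n V` for all `n` vanishes. -/
theorem Unip_eq_zero_of_forall_mem {O V : Type} [CommRing O] [IsDomain O]
    [IsDiscreteValuationRing O] [AddCommGroup V] [Module O V] [Module.Finite O V] (p : ℕ)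
    (hp : (p : O) ∈ IsLocalRing.maximalIdeal O) (w : V)
    (h : ∀ n : ℕ, w ∈ Ideal.span {((p ^ n : ℕ) : O)} • (⊤ : Submodule O V)) : w = 0 := by
  have h1 : (⨅ i : ℕ, IsLocalRing.maximalIdeal O ^ i • ⊤ : Submodule O V) = ⊥ :=
    Ideal.iInf_pow_smul_eq_bot_of_isLocalRing _ (Ideal.IsPrime.ne_top inferInstance)
  have h2 : w ∈ (⨅ i : ℕ, IsLocalRing.maximalIdeal O ^ i • ⊤ : Submodule O V) := by
    rw [Submodule.mem_iInf]
    intro n
    refine Submodule.smul_mono_left ?_ (h n)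
    rw [Ideal.span_singleton_le_iff_mem, Nat.cast_pow]
    exact Ideal.pow_mem_pow hp n
  rw [h1] at h2
  exact (Submodule.mem_bot O).mp h2

/-- the linear algebra part. -/
theorem Unip_charpoly {O V : Type} [CommRing O] [IsDomain O] [IsDiscreteValuationRing O]
    [AddCommGroup V] [Module O V] [Module.Free O V] [Module.Finite O V]
    (hrk : Module.finrank O V = 2) (p : ℕ) (hp : (p : O) ∈ IsLocalRing.maximalIdeal O)
    (f : Module.End O V)
    (h : ∀ (n : ℕ) (v : V),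
      f (f v) - (2 : ℤ) • f v + v ∈ Ideal.span {((p ^ n : ℕ) : O)} • (⊤ : Submodule O V)) :
    LinearMap.charpoly f = (X - 1) ^ 2 := by
  apply Unip_charpoly_of_sq hrk
  refine LinearMap.ext fun v => ?_
  have h1 : ((f - 1) * (f - 1)) v = f (f v) - (2 : ℤ) • f v + v := by
    simp only [Module.End.mul_apply, LinearMap.sub_apply, Module.End.one_apply, map_sub]
    rw [two_smul]
    abel
  rw [h1, LinearMap.zero_apply]
  exact Unip_eq_zero_of_forall_mem p hp _ fun n => h n v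

/-- the elliptic curve part: the integer `t` is `≡ 2 mod m`. -/
theorem Unip_dvd (hX : Stmt_Exact) (W : WeierstrassCurve ℤ) (hΔ : W.Δ ≠ 0) (m : ℕ) (hm : 0 < m)
    (σ : GQ) (t : ℤ) (ht : QuadRel (torsAct W m) σ t 1)
    (hfix : ∀ P : (EQ W).Point, m • P = 0 → σ • (σ • P - P) = σ • P - P) : (m : ℤ) ∣ t - 2 := by
  have key : ∀ P : (EQ W).Point, m • P = 0 → (t - 2) • (σ • P) = 0 := by
    intro P hP
    have hmem : P ∈ Tors W m := by
      rw [Submodule.mem_torsionBy_iff, Nat.cast_smul_eq_nsmul]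
      exact hP
    have h1 := congrArg Subtype.val (ht ⟨P, hmem⟩)
    have h2 : σ • σ • P - t • σ • P + ((1 : ℕ) : ℤ) • P = 0 := h1
    have h3 := hfix P hP
    rw [smul_sub] at h3
    rw [Nat.cast_one, one_smul] at h2
    rw [sub_smul, two_smul]
    have h4 : σ • σ • P = σ • P - P + σ • P := by rw [← h3]; abel
    rw [h4] at h2
    rw [← neg_eq_zero, ← h2]
    abel
  apply hX W hΔ m hm
  intro P hP
  have h1 : m • (σ⁻¹ • P) = 0 := by
    rw [← Nat.cast_smul_eq_nsmul ℤ, ← algEquiv_smul_zsmul, Nat.cast_smul_eq_nsmul, hP, smul_zero]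
  have h2 := key _ h1
  rwa [smul_inv_smul] at h2

/-- **[UNIP]** -/
theorem stmt_Unip (hTS : Stmt_TS) (hCyc : Stmt_Cyc) (hE : Stmt_EMod) (hR : Stmt_RMod)
    (hX : Stmt_Exact) (hG : Stmt_GoodI) (hU : Stmt_Uni) : Stmt_Unip := by
  intro W hΔ hss O _ _ _ _ p _ hp ρ S₀ hAtt q hq hqp A hA σ hσ
  have hpp : p.Prime := Fact.out
  apply Unip_charpoly ρ.finrank_eq p hp
  intro n v
  set m : ℕ := p ^ n with hm
  have hmpos : 0 < m := pow_pos hpp.pos n
  have hqm : ¬ q ∣ m := fun hd =>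
    hqp ((Nat.prime_dvd_prime_iff_eq hq hpp).mp (hq.dvd_of_dvd_pow hd))
  let S₁ : Finset ℕ := S₀ ∪ {p} ∪ W.Δ.natAbs.primeFactors
  have hS01 : S₀ ⊆ S₁ := fun x hx => Finset.mem_union_left _ (Finset.mem_union_left _ hx)
  have h1 : ∀ ℓ : ℕ, ℓ.Prime → ℓ ∣ m → ℓ ∈ S₁ := by
    intro ℓ hℓ hd
    have : ℓ = p := (Nat.prime_dvd_prime_iff_eq hℓ hpp).mp (hℓ.dvd_of_dvd_pow hd)
    exact Finset.mem_union_left _ (Finset.mem_union_right _ (by simp [this]))
  have h2 : ∀ ℓ : ℕ, ℓ.Prime → (ℓ : ℤ) ∣ W.Δ → ℓ ∈ S₁ := by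
    intro ℓ hℓ hd
    refine Finset.mem_union_right _ (Nat.mem_primeFactors.mpr ⟨hℓ, Int.natCast_dvd.mp hd, ?_⟩)
    exact Int.natAbs_ne_zero.mpr hΔ
  have hY1 := hE W hΔ m hmpos S₁ h1 h2
  have hY2 := hR O p hp ρ W S₁ (Unip_AttW_mono hAtt hS01) n
  have hcyc := hCyc.2 m q hq hqm A hA σ hσ
  obtain ⟨t, ht1, ht2⟩ := hTS m hmpos S₁ h1 (aW W) _ _ _ _ hY1 hY2 σ 1 hcyc
  have hfix : ∀ P : (EQ W).Point, m • P = 0 → σ • (σ • P - P) = σ • P - P := by
    intro P hP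
    by_cases hqΔ : (q : ℤ) ∣ W.Δ
    · exact hU W q hq hΔ hqΔ (hss q hq hqΔ) A hA σ hσ m hqm P hP
    · have := hG W q hq hqΔ A hA σ hσ m hqm P hP
      rw [this, sub_self, smul_zero]
  obtain ⟨c, hc⟩ := Unip_dvd hX W hΔ m hmpos σ t ht1 hfix
  have h3 := ht2 (Submodule.Quotient.mk v)
  have hkill : ∀ y : ρ.V ⧸ (Ideal.span {((p ^ n : ℕ) : O)} • (⊤ : Submodule O ρ.V)),
      (t - 2) • y = 0 := by
    intro y
    rw [hc, mul_comm, mul_smul, Nat.cast_smul_eq_nsmul, hY2.kill y, smul_zero]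
  have h4 : t = (t - 2) + 2 := by ring
  rw [h4, add_smul, hkill, zero_add, rhoAct_mk, rhoAct_mk, Nat.cast_one, one_smul] at h3
  have h5 : (Submodule.Quotient.mk (ρ.ρ σ (ρ.ρ σ v) - (2 : ℤ) • ρ.ρ σ v + v) :
      ρ.V ⧸ (Ideal.span {((p ^ n : ℕ) : O)} • (⊤ : Submodule O ρ.V))) = 0 := h3
  exact (Submodule.Quotient.mk_eq_zero _).mp h5

end Fermat.Agent.S58
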