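import Fermat.Agent.S58.Top
import Fermat.Agent.S58.TS
import Fermat.Agent.S58.Conj
import Fermat.Agent.S58.Bound
import Fermat.Agent.S58.RMod
import Fermat.Agent.S58.EMod
import Fermat.Agent.S58.Unip
import Fermat.Agent.S58.FrQ
import Fermat.Agent.S58.IrrAbs
import Fermat.Agent.S58.Hres
import Fermat.Agent.S58.Frob
import Fermat.Agent.S58.UniStmt
import Fermat.Agent.S58.CardMC
import Fermat.Agent.S58.Card
import Fermat.Agent.S58.NewRaise
import Fermat.Agent.S58.Chi
import Fermat.Agent.S58.Cmp
import Fermat.Agent.S58.Match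
import Fermat.Agent.S35

/-!
# S58: everything except S36 plugged in (helper63).
-/

set_option autoImplicit false

namespace Fermat.Agent.S58

theorem final_Card : Stmt_Card := stmt_Card stmt_CardMC

theorem final_Exact : Stmt_Exact := stmt_Exact final_Card

theorem final_EMod : Stmt_EMod := stmt_EMod stmt_Frob (stmt_Level final_Card)

theorem final_Unip : Stmt_Unip :=
  stmt_Unip stmt_TS stmt_Cyc final_EMod stmt_RMod final_Exact stmt_GoodI stmt_Uni

theorem final_FrQ : Stmt_FrQ :=
  stmt_FrQ stmt_TS stmt_Cyc final_EMod stmt_RMod final_Exact stmt_Frob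

theorem final_Hres : Stmt_Hres :=
  stmt_Hres stmt_TS final_EMod stmt_ResMod final_Card stmt_Conj stmt_IrrAbs

theorem final_Match : Stmt_Match :=
  stmt_Match (stmt_Cmp stmt_TS stmt_Cyc final_EMod stmt_ResMod final_Exact stmt_Frob)

theorem final_S35 : Stmt_S35 :=
  fun _ _ _ hg lam _ S O' _ _ _ _ _ _ h chig hchig iota h1 h2 =>
    Fermat.Agent.S35.result hg lam S O' h chig hchig iota h1 h2

/-- S58 from S36 alone. -/
theorem final_of_S36 (h36 : Stmt_S36) : Stmt_S58 :=
  s58_of final_S35 h36 stmt_New stmt_Raise stmt_Chi final_Match final_Unip final_FrQ final_Hres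
    stmt_Bound

end Fermat.Agent.S58
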