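import Mathlib
import Fermat.Prelude.Def_WeierstrassCurve_ConductorLevel
import Fermat.Prelude.Def_FLTPrelim_ModularRep
import Fermat.Prelude.Def_CuspForm_HeckeGaloisRepDatum
import Fermat.Prelude.Def_CuspForm_Newforms
import Fermat.Prelude.Def_GaloisRep_LocalConditions
import Fermat.Prelude.Def_GaloisRep_Residual
import Fermat.Prelude.Def_GaloisRep_Flat

/-!
# S58 (conductor-level matching): interface.  Architect: helper63.  Route: report #1628.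

Every package proves `theorem stmt_X : Stmt_X` (possibly from other `Stmt_*` as hypotheses)
in its own NEW file `Fermat/Agent/S58/X.lean`, namespace `Fermat.Agent.S58`.
-/

set_option autoImplicit false

open WeierstrassCurve WeierstrassCurve.Affine WeierstrassCurve.Affine.Point
open CuspForm ModularFormClass Polynomial
open scoped CongruenceSubgroup

namespace Fermat.Agent.S58

abbrev Qb : Type := AlgebraicClosure ℚ
abbrev GQ : Type := Qb ≃ₐ[ℚ] Qb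

/-- The curve over `Qb` attached to an integral model (same expression as in the prelude). -/
noncomputable abbrev EQ (W : WeierstrassCurve ℤ) : Affine Qb :=
  ((W.map (Int.castRingHom ℚ) : Affine ℚ)⁄Qb)

/-- `E[m]`, as in the prelude. -/
noncomputable abbrev Tors (W : WeierstrassCurve ℤ) (m : ℕ) :=
  Submodule.torsionBy ℤ (EQ W).Point m

/-! ## Galois modules with Eichler-Shimura relations -/

/-- `Y` is killed by `m`, the action `act` of `G_ℚ` has finite level and every Frobenius lift `σ`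
at a prime `ℓ ∉ S₀` satisfies `σ² - a_ℓ σ + ℓ = 0` on `Y`. -/
structure ESMod (m : ℕ) (S₀ : Finset ℕ) (a : ℕ → ℤ) (Y : Type) [AddCommGroup Y]
    (act : GQ →* AddMonoid.End Y) : Prop where
  kill : ∀ y : Y, m • y = 0
  level : ∃ L : IntermediateField ℚ Qb, FiniteDimensional ℚ L ∧
    ∀ σ : GQ, (∀ x ∈ L, σ x = x) → act σ = 1
  frob : ∀ ℓ : ℕ, ℓ.Prime → ℓ ∉ S₀ → ∀ A : ValuationSubring Qb, A.LiesOverPrime ℓ →
    ∀ σ : GQ, A.IsFrobeniusAt σ ℓ →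
      ∀ y : Y, act σ (act σ y) - a ℓ • act σ y + (ℓ : ℤ) • y = 0

/-- `g² - t g + e = 0` on `Y`. -/
def QuadRel {Y : Type} [AddCommGroup Y] (act : GQ →* AddMonoid.End Y) (g : GQ) (t : ℤ) (e : ℕ) :
    Prop :=
  ∀ y : Y, act g (act g y) - t • act g y + (e : ℤ) • y = 0

/-- `g` acts on the `m`-th roots of unity by `μ ↦ μ ^ e`. -/
def CycAt (m : ℕ) (g : GQ) (e : ℕ) : Prop := ∀ μ : Qb, μ ^ m = 1 → g μ = μ ^ e

/-- **[TS]** (Frobenius density + Lucas sequences).  One integer `t` works for both modules. -/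
def Stmt_TS : Prop :=
  ∀ (m : ℕ), 0 < m → ∀ (S₀ : Finset ℕ), (∀ ℓ : ℕ, ℓ.Prime → ℓ ∣ m → ℓ ∈ S₀) → ∀ (a : ℕ → ℤ)
    (Y₁ Y₂ : Type) [AddCommGroup Y₁] [AddCommGroup Y₂]
    (act₁ : GQ →* AddMonoid.End Y₁) (act₂ : GQ →* AddMonoid.End Y₂),
    ESMod m S₀ a Y₁ act₁ → ESMod m S₀ a Y₂ act₂ →
    ∀ (g : GQ) (e : ℕ), CycAt m g e → ∃ t : ℤ, QuadRel act₁ g t e ∧ QuadRel act₂ g t e

/-- Frobenius lifts at `ℓ ∤ m` act on `μ_m` by `ℓ`; inertia at `q ∤ m` acts trivially. -/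
def Stmt_Cyc : Prop :=
  (∀ (m ℓ : ℕ), ℓ.Prime → ¬ ℓ ∣ m → ∀ A : ValuationSubring Qb, A.LiesOverPrime ℓ →
    ∀ σ : GQ, A.IsFrobeniusAt σ ℓ → CycAt m σ ℓ) ∧
  (∀ (m q : ℕ), q.Prime → ¬ q ∣ m → ∀ A : ValuationSubring Qb, A.LiesOverPrime q →
    ∀ σ ∈ A.inertiaSubgroupIn ℚ, CycAt m σ 1)

/-- **[CONJ]** every involution of `G_ℚ` inverts the `p`-th roots of unity (`p` odd). -/
def Stmt_Conj : Prop :=
  ∀ c : GQ, c * c = 1 → c ≠ 1 → ∀ p : ℕ, p.Prime → p ≠ 2 → CycAt p c (p - 1)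

/-! ## the three kinds of modules -/

/-- the action on `E[m]`. -/
noncomputable def torsAct (W : WeierstrassCurve ℤ) (m : ℕ) : GQ →* AddMonoid.End (Tors W m) :=
  DistribMulAction.toAddMonoidEnd GQ (Tors W m)

@[simp] theorem torsAct_apply (W : WeierstrassCurve ℤ) (m : ℕ) (σ : GQ) (x : Tors W m) :
    torsAct W m σ x = σ • x := rfl

/-- the action on `V / I V`. -/
noncomputable def rhoAct {O : Type} [CommRing O] [IsLocalRing O] (ρ : GaloisRepAdic O)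
    (I : Ideal O) : GQ →* AddMonoid.End (ρ.V ⧸ (I • (⊤ : Submodule O ρ.V))) where
  toFun σ := (ρ.levelAction I σ).toAddMonoidHom
  map_one' := by
    ext x
    induction x using Submodule.Quotient.induction_on with
    | _ v =>
      show Submodule.Quotient.mk (ρ.ρ 1 v) = Submodule.Quotient.mk v
      rw [map_one]; rfl
  map_mul' σ τ := by
    ext x
    induction x using Submodule.Quotient.induction_on with
    | _ v =>
      show Submodule.Quotient.mk (ρ.ρ (σ * τ) v) = Submodule.Quotient.mk (ρ.ρ σ (ρ.ρ τ v))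
      rw [map_mul]; rfl

theorem rhoAct_mk {O : Type} [CommRing O] [IsLocalRing O] (ρ : GaloisRepAdic O)
    (I : Ideal O) (σ : GQ) (v : ρ.V) :
    rhoAct ρ I σ (Submodule.Quotient.mk v) = Submodule.Quotient.mk (ρ.ρ σ v) := rfl

/-- the action on a residual representation. -/
noncomputable def resAct {k : Type} [Field k] (ρ : ResidualGaloisRep k) :
    GQ →* AddMonoid.End ρ.V where
  toFun σ := (ρ.ρ σ).toAddMonoidHom
  map_one' := by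
    ext x
    show ρ.ρ 1 x = x
    rw [map_one]; rfl
  map_mul' σ τ := by
    ext x
    show ρ.ρ (σ * τ) x = ρ.ρ σ (ρ.ρ τ x)
    rw [map_mul]; rfl

@[simp] theorem resAct_apply {k : Type} [Field k] (ρ : ResidualGaloisRep k) (σ : GQ) (y : ρ.V) :
    resAct ρ σ y = ρ.ρ σ y := rfl

/-- the trace of Frobenius of the model, as a function of the prime. -/
noncomputable def aW (W : WeierstrassCurve ℤ) : ℕ → ℤ := fun ℓ => W.apOfModel ℓ

/-! ## Elliptic curve side -/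

/-- **[FROB]** the Frobenius relation on torsion prime to `ℓ` (from `S52.stmt_RT`, `S52.stmt_Frob`). -/
def Stmt_Frob : Prop :=
  ∀ (W : WeierstrassCurve ℤ) (ℓ : ℕ), ℓ.Prime → W.IsGoodPrimeFor ℓ →
    ∀ A : ValuationSubring Qb, A.LiesOverPrime ℓ → ∀ σ : GQ, A.IsFrobeniusAt σ ℓ →
    ∀ m : ℕ, ¬ ℓ ∣ m → ∀ P : (EQ W).Point, m • P = 0 →
      σ • σ • P - W.apOfModel ℓ • σ • P + (ℓ : ℤ) • P = 0

/-- **[GOODI]** good reduction at `q`: inertia at `q` fixes the torsion prime to `q`. -/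
def Stmt_GoodI : Prop :=
  ∀ (W : WeierstrassCurve ℤ) (q : ℕ), q.Prime → W.IsGoodPrimeFor q →
    ∀ A : ValuationSubring Qb, A.LiesOverPrime q → ∀ σ ∈ A.inertiaSubgroupIn ℚ,
    ∀ m : ℕ, ¬ q ∣ m → ∀ P : (EQ W).Point, m • P = 0 → σ • P = P

/-- **[UNI]** multiplicative reduction at `q`: `(σ - 1)² = 0` on the torsion prime to `q`. -/
def Stmt_Uni : Prop :=
  ∀ (W : WeierstrassCurve ℤ) (q : ℕ), q.Prime → W.Δ ≠ 0 → (q : ℤ) ∣ W.Δ → ¬ (q : ℤ) ∣ W.c₄ →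
    ∀ A : ValuationSubring Qb, A.LiesOverPrime q → ∀ σ ∈ A.inertiaSubgroupIn ℚ,
    ∀ m : ℕ, ¬ q ∣ m → ∀ P : (EQ W).Point, m • P = 0 → σ • (σ • P - P) = σ • P - P

/-- **[CARD]** `#E[n] = n²`. -/
def Stmt_Card : Prop :=
  ∀ W : WeierstrassCurve ℤ, W.Δ ≠ 0 → ∀ n : ℕ, 0 < n →
    Nat.card {P : (EQ W).Point // n • P = 0} = n ^ 2

/-- **[EXACT]** an integer killing `E[m]` is divisible by `m`. -/
def Stmt_Exact : Prop :=
  ∀ W : WeierstrassCurve ℤ, W.Δ ≠ 0 → ∀ m : ℕ, 0 < m → ∀ c : ℤ,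
    (∀ P : (EQ W).Point, m • P = 0 → c • P = 0) → (m : ℤ) ∣ c

/-- **[LEVEL]** `E[m]` is defined over a number field. -/
def Stmt_Level : Prop :=
  ∀ W : WeierstrassCurve ℤ, W.Δ ≠ 0 → ∀ m : ℕ, 0 < m →
    ∃ L : IntermediateField ℚ Qb, FiniteDimensional ℚ L ∧
      ∀ σ : GQ, (∀ x ∈ L, σ x = x) → ∀ P : (EQ W).Point, m • P = 0 → σ • P = P

/-- **[BOUND]** `1 ≤ #W(𝔽_q) ≤ 2 q + 1`. -/
def Stmt_Bound : Prop :=
  ∀ (W : WeierstrassCurve ℤ) (q : ℕ), q.Prime →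
    W.apOfModel q ≠ (q : ℤ) + 1 ∧ W.apOfModel q ≠ -((q : ℤ) + 1)

/-- **[EMOD]** `E[m]` is an `ESMod`. -/
def Stmt_EMod : Prop :=
  ∀ W : WeierstrassCurve ℤ, W.Δ ≠ 0 → ∀ m : ℕ, 0 < m → ∀ S₀ : Finset ℕ,
    (∀ ℓ : ℕ, ℓ.Prime → ℓ ∣ m → ℓ ∈ S₀) → (∀ ℓ : ℕ, ℓ.Prime → (ℓ : ℤ) ∣ W.Δ → ℓ ∈ S₀) →
    ESMod m S₀ (aW W) (Tors W m) (torsAct W m)

/-! ## Representation side -/

/-- `ρ` has the Frobenius characteristic polynomials of `W` away from `S₀`. -/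
def AttW {O : Type} [CommRing O] [IsLocalRing O] (ρ : GaloisRepAdic O) (W : WeierstrassCurve ℤ)
    (S₀ : Finset ℕ) : Prop :=
  ∀ ℓ : ℕ, ℓ.Prime → ℓ ∉ S₀ → ∀ A : ValuationSubring Qb, A.LiesOverPrime ℓ →
    ∀ σ : GQ, A.IsFrobeniusAt σ ℓ →
      LinearMap.charpoly (ρ.ρ σ) = X ^ 2 - C ((W.apOfModel ℓ : ℤ) : O) * X + C ((ℓ : O))

/-- **[RMOD]** `V / λⁿ V` is an `ESMod`. -/
def Stmt_RMod : Prop :=
  ∀ (O : Type) [CommRing O] [IsDomain O] [IsDiscreteValuationRing O] [CharZero O]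
    (lam : ℕ) [Fact lam.Prime], (lam : O) ∈ IsLocalRing.maximalIdeal O →
    ∀ (ρ : GaloisRepAdic O) (W : WeierstrassCurve ℤ) (S₀ : Finset ℕ), AttW ρ W S₀ →
    ∀ n : ℕ, ESMod (lam ^ n) S₀ (aW W) _ (rhoAct ρ (Ideal.span {((lam ^ n : ℕ) : O)}))

/-- **[RESMOD]** a residual representation is an `ESMod`. -/
def Stmt_ResMod : Prop :=
  ∀ (lam : ℕ) [Fact lam.Prime] (k : Type) [Field k] [CharP k lam] (ρ : ResidualGaloisRep k)
    (S₀ : Finset ℕ) (a : ℕ → ℤ),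
    (∀ ℓ : ℕ, ℓ.Prime → ℓ ∉ S₀ → ∀ A : ValuationSubring Qb, A.LiesOverPrime ℓ →
      ∀ σ : GQ, A.IsFrobeniusAt σ ℓ →
        LinearMap.charpoly (ρ.ρ σ) = X ^ 2 - C ((a ℓ : ℤ) : k) * X + C ((ℓ : k))) →
    ESMod lam S₀ a ρ.V (resAct ρ)

/-- **[UNIP]** (step 3a) a `p`-adic representation with the Frobenius polynomials of a semistable
`W` is unipotent on inertia at every `q ≠ p`. -/
def Stmt_Unip : Prop :=
  ∀ (W : WeierstrassCurve ℤ), W.Δ ≠ 0 → W.IsSemistableModel →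
    ∀ (O : Type) [CommRing O] [IsDomain O] [IsDiscreteValuationRing O] [CharZero O]
    (p : ℕ) [Fact p.Prime], (p : O) ∈ IsLocalRing.maximalIdeal O →
    ∀ (ρ : GaloisRepAdic O) (S₀ : Finset ℕ), AttW ρ W S₀ →
    ∀ q : ℕ, q.Prime → q ≠ p → ρ.IsUnipotentOnInertiaAt q

/-- **[FRQ]** (step 3b, one `λ`) comparison at a Frobenius lift at a good prime `q ≠ λ`. -/
def Stmt_FrQ : Prop :=
  ∀ (W : WeierstrassCurve ℤ), W.Δ ≠ 0 →
    ∀ (O : Type) [CommRing O] [IsDomain O] [IsDiscreteValuationRing O] [CharZero O]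
    (lam : ℕ) [Fact lam.Prime], (lam : O) ∈ IsLocalRing.maximalIdeal O →
    ∀ (ρ : GaloisRepAdic O) (S₀ : Finset ℕ), AttW ρ W S₀ →
    ∀ q : ℕ, q.Prime → q ≠ lam → W.IsGoodPrimeFor q →
    ∀ A : ValuationSubring Qb, A.LiesOverPrime q → ∀ σ : GQ, A.IsFrobeniusAt σ q → ∀ b : ℤ,
      LinearMap.charpoly (ρ.ρ σ) = X ^ 2 - C ((b : ℤ) : O) * X + C ((q : O)) →
      (lam : ℤ) ∣ W.apOfModel q - b

/-- **[IRRABS]** the abstract irreducibility transfer. -/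
def Stmt_IrrAbs : Prop :=
  ∀ (p : ℕ) [Fact p.Prime], p ≠ 2 → ∀ (G : Type) [Group G]
    (V : Type) [AddCommGroup V] [Module (ZMod p) V], Module.finrank (ZMod p) V = 2 →
    ∀ (r : G →* Module.End (ZMod p) V),
    (∀ N : Submodule (ZMod p) V, (∀ g, ∀ x ∈ N, r g x ∈ N) → N = ⊥ ∨ N = ⊤) →
    ∀ (k : Type) [Field k] [CharP k p] (U : Type) [AddCommGroup U] [Module k U],
    Module.finrank k U = 2 → ∀ (s : G →* Module.End k U) (ε : G →* (ZMod p)ˣ),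
    (∀ g : G, ∃ t : ℤ, ∃ e : ℤ, (e : ZMod p) = ε g ∧
      (∀ x : V, r g (r g x) - t • r g x + e • x = 0) ∧
      (∀ y : U, s g (s g y) - t • s g y + e • y = 0)) →
    ∀ c : G, c * c = 1 → ε c = -1 →
      LinearMap.det (s c) = -1 ∧
      ∀ (K : Type) [Field K] [Algebra k K] (N : Submodule K (TensorProduct k K U)),
        (∀ g, ∀ x ∈ N, (s g).baseChange K x ∈ N) → N = ⊥ ∨ N = ⊤

/-- **[HRES]** the hypothesis `hres` of S36. -/
def Stmt_Hres : Prop :=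
  ∀ (W : WeierstrassCurve ℤ), W.Δ ≠ 0 → ∀ (p : ℕ) [Fact p.Prime], p ≠ 2 →
    W.ModRepIsIrreducible p →
    ∀ (O : Type) [CommRing O] [IsDomain O] [IsDiscreteValuationRing O] [CharZero O],
    (p : O) ∈ IsLocalRing.maximalIdeal O →
    ∀ (ρ : GaloisRepAdic O) (S₀ : Finset ℕ), AttW ρ W S₀ →
      ρ.residual.IsAbsolutelyIrreducible ∧ ρ.residual.IsOdd

/-! ## Modular side -/

/-- **[NEW]** pass to a newform (prelude sense) of minimal level. -/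
def Stmt_New : Prop :=
  ∀ N : ℕ, 0 < N → ∀ f : CuspForm (CongruenceSubgroup.Gamma0 N) 2, f.IsNormalizedEigenform →
    ∃ (M₀ : ℕ) (g₀ : CuspForm (CongruenceSubgroup.Gamma0 M₀) 2), M₀ ∣ N ∧ g₀.IsNewform ∧
      ∀ ℓ : ℕ, ℓ.Prime → ¬ ℓ ∣ N → qCoeff g₀ ℓ = qCoeff f ℓ

/-- **[RAISE]** raise the level (SMO/Occurs). -/
def Stmt_Raise : Prop :=
  ∀ M₀ M : ℕ, 0 < M → M₀ ∣ M → ∀ g₀ : CuspForm (CongruenceSubgroup.Gamma0 M₀) 2,
    g₀.IsNormalizedEigenform →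
    ∃ g : CuspForm (CongruenceSubgroup.Gamma0 M) 2, g.IsNormalizedEigenform ∧
      ∀ ℓ : ℕ, ℓ.Prime → ¬ ℓ ∣ M → qCoeff g ℓ = qCoeff g₀ ℓ

/-- **[CHI]** the eigencharacter and `iota` into `ℤ_λ` when the eigenvalues away from `S` are
rational integers. -/
def Stmt_Chi : Prop :=
  ∀ (M : ℕ) [NeZero M] (g : CuspForm (CongruenceSubgroup.Gamma0 M) 2), g.IsNormalizedEigenform →
    ∀ (S : Finset ℕ), (∀ q : ℕ, q.Prime → q ∣ M → q ∈ S) → ∀ (a : ℕ → ℤ),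
    (∀ ℓ : ℕ, ℓ.Prime → ¬ ℓ ∣ M → ℓ ∉ S → qCoeff g ℓ = (a ℓ : ℂ)) →
    ∀ (lam : ℕ) [Fact lam.Prime],
    ∃ (chig : CuspForm.heckeAlgebra M 2 (↑S : Set ℕ) →+* ℂ) (iota : chig.range →+* ℤ_[lam]),
      (∀ (ℓ : ℕ) (hℓ : ℓ.Prime) (hℓM : ¬ ℓ ∣ M) (hℓS : ℓ ∉ (↑S : Set ℕ)),
        chig (CuspForm.heckeAlgebra.T hℓ hℓM hℓS) = qCoeff g ℓ) ∧
      (∀ (ℓ : ℕ) (hℓ : ℓ.Prime) (hℓM : ¬ ℓ ∣ M) (hℓS : ℓ ∉ (↑S : Set ℕ)),
        (iota.comp chig.rangeRestrict) (CuspForm.heckeAlgebra.T hℓ hℓM hℓS) = ((a ℓ : ℤ) : ℤ_[lam]))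

/-- **[MATCH]** (step 4, uses the landed S29) the eigenvalue at a good prime not dividing the
level is the trace of Frobenius. -/
def Stmt_Match : Prop :=
  ∀ (W : WeierstrassCurve ℤ), W.Δ ≠ 0 → ∀ (M₀ : ℕ) (g₀ : CuspForm (CongruenceSubgroup.Gamma0 M₀) 2),
    g₀.IsNormalizedEigenform → ∀ S₀ : Finset ℕ,
    (∀ ℓ : ℕ, ℓ.Prime → ℓ ∉ S₀ → qCoeff g₀ ℓ = (W.apOfModel ℓ : ℂ)) →
    ∀ ℓ : ℕ, ℓ.Prime → W.IsGoodPrimeFor ℓ → ¬ ℓ ∣ M₀ → qCoeff g₀ ℓ = (W.apOfModel ℓ : ℂ)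

/-! ## The two frozen inputs, as `Prop`s -/

/-- the statement of S35. -/
def Stmt_S35 : Prop :=
  ∀ (M : ℕ) [NeZero M] (g : CuspForm (CongruenceSubgroup.Gamma0 M) 2) (_ : g.IsNewform)
    (lam : ℕ) [Fact lam.Prime]
    (S : Finset ℕ)
    (O' : Type) [CommRing O'] [IsDomain O'] [IsDiscreteValuationRing O']
    [IsAdicComplete (IsLocalRing.maximalIdeal O') O'] [Finite (IsLocalRing.ResidueField O')]
    [CharZero O'] (_ : (lam : O') ∈ IsLocalRing.maximalIdeal O')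
    (chig : CuspForm.heckeAlgebra M 2 (↑S : Set ℕ) →+* ℂ)
    (_ : ∀ (ℓ : ℕ) (hℓ : ℓ.Prime) (hℓM : ¬ ℓ ∣ M) (hℓS : ℓ ∉ (↑S : Set ℕ)),
      chig (CuspForm.heckeAlgebra.T hℓ hℓM hℓS) = ModularFormClass.qCoeff g ℓ)
    (iota : chig.range →+* O')
    (_ : lam ∈ S) (_ : ∀ q : ℕ, q.Prime → q ∣ M → q ∈ S),
    ∃ (O'' : Type) (_ : CommRing O'') (_ : IsDomain O'') (_ : IsDiscreteValuationRing O'')
      (_ : IsAdicComplete (IsLocalRing.maximalIdeal O'') O'') (_ : Finite (IsLocalRing.ResidueField O''))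
      (_ : CharZero O'') (_ : Algebra O' O'') (_ : Module.Finite O' O'') (_ : IsLocalHom (algebraMap O' O'')),
      Function.Injective (algebraMap O' O'') ∧
      ∃ ρ : GaloisRepAdic O'',
        (∀ (ℓ : ℕ) (hℓ : ℓ.Prime) (hℓM : ¬ ℓ ∣ M) (hℓS : ℓ ∉ (↑S : Set ℕ)),
          ∀ A : ValuationSubring (AlgebraicClosure ℚ), A.LiesOverPrime ℓ →
            ∀ σ : AlgebraicClosure ℚ ≃ₐ[ℚ] AlgebraicClosure ℚ, A.IsFrobeniusAt σ ℓ →
              LinearMap.charpoly (ρ.ρ σ) =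
                X ^ 2 - C (algebraMap O' O'' ((iota.comp chig.rangeRestrict) (CuspForm.heckeAlgebra.T hℓ hℓM hℓS))) * X
                  + C ((ℓ : O''))) ∧
        (∀ q : ℕ, q.Prime → q ≠ lam → q ∣ M → ¬ q ^ 2 ∣ M →
          ∀ A : ValuationSubring (AlgebraicClosure ℚ), A.LiesOverPrime q →
            ∀ σ : AlgebraicClosure ℚ ≃ₐ[ℚ] AlgebraicClosure ℚ, A.IsFrobeniusAt σ q →
              LinearMap.charpoly (ρ.ρ σ) = X ^ 2 - C ((q : O'') + 1) * X + C ((q : O'')) ∨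
              LinearMap.charpoly (ρ.ρ σ) = X ^ 2 + C ((q : O'') + 1) * X + C ((q : O'')))

/-- the statement of S36. -/
def Stmt_S36 : Prop :=
  ∀ (M : ℕ) [NeZero M] (g : CuspForm (CongruenceSubgroup.Gamma0 M) 2) (_ : g.IsNewform)
    (lam : ℕ) [Fact lam.Prime]
    (S : Finset ℕ)
    (O' : Type) [CommRing O'] [IsDomain O'] [IsDiscreteValuationRing O']
    [IsAdicComplete (IsLocalRing.maximalIdeal O') O'] [Finite (IsLocalRing.ResidueField O')]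
    [CharZero O'] (_ : (lam : O') ∈ IsLocalRing.maximalIdeal O')
    (_ : lam ≠ 2)
    (chig : CuspForm.heckeAlgebra M 2 (↑S : Set ℕ) →+* ℂ)
    (_ : ∀ (ℓ : ℕ) (hℓ : ℓ.Prime) (hℓM : ¬ ℓ ∣ M) (hℓS : ℓ ∉ (↑S : Set ℕ)),
      chig (CuspForm.heckeAlgebra.T hℓ hℓM hℓS) = ModularFormClass.qCoeff g ℓ)
    (iota : chig.range →+* O')
    (_ : lam ∈ S) (_ : ∀ q : ℕ, q.Prime → q ∣ M → q ∈ S)
    (_ : ∀ (O'' : Type) [CommRing O''] [IsDomain O''] [IsDiscreteValuationRing O'']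
      [IsAdicComplete (IsLocalRing.maximalIdeal O'') O''] [Finite (IsLocalRing.ResidueField O'')] [CharZero O'']
      [Algebra O' O''] [Module.Finite O' O''] [IsLocalHom (algebraMap O' O'')],
      Function.Injective (algebraMap O' O'') → ∀ (ρ : GaloisRepAdic O''),
      (∀ (ℓ : ℕ) (hℓ : ℓ.Prime) (_ : ℓ ≠ lam) (hℓM : ¬ ℓ ∣ M) (hℓS : ℓ ∉ (↑S : Set ℕ)),
        ∀ A : ValuationSubring (AlgebraicClosure ℚ), A.LiesOverPrime ℓ →
          ∀ σ : AlgebraicClosure ℚ ≃ₐ[ℚ] AlgebraicClosure ℚ, A.IsFrobeniusAt σ ℓ →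
            LinearMap.charpoly (ρ.ρ σ) =
              X ^ 2 - C (algebraMap O' O'' ((iota.comp chig.rangeRestrict) (CuspForm.heckeAlgebra.T hℓ hℓM hℓS))) * X
                + C ((ℓ : O'')))
      → ρ.residual.IsAbsolutelyIrreducible ∧ ρ.residual.IsOdd),
    ∃ (O'' : Type) (_ : CommRing O'') (_ : IsDomain O'') (_ : IsDiscreteValuationRing O'')
      (_ : IsAdicComplete (IsLocalRing.maximalIdeal O'') O'') (_ : Finite (IsLocalRing.ResidueField O''))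
      (_ : CharZero O'') (_ : Algebra O' O'') (_ : Module.Finite O' O'') (_ : IsLocalHom (algebraMap O' O'')),
      Function.Injective (algebraMap O' O'') ∧
      ∃ ρ : GaloisRepAdic O'',
        (∀ (ℓ : ℕ) (hℓ : ℓ.Prime) (hℓM : ¬ ℓ ∣ M) (hℓS : ℓ ∉ (↑S : Set ℕ)),
          ∀ A : ValuationSubring (AlgebraicClosure ℚ), A.LiesOverPrime ℓ →
            ∀ σ : AlgebraicClosure ℚ ≃ₐ[ℚ] AlgebraicClosure ℚ, A.IsFrobeniusAt σ ℓ →
              LinearMap.charpoly (ρ.ρ σ) =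
                X ^ 2 - C (algebraMap O' O'' ((iota.comp chig.rangeRestrict) (CuspForm.heckeAlgebra.T hℓ hℓM hℓS))) * X
                  + C ((ℓ : O''))) ∧
        (∀ q : ℕ, q.Prime → q ≠ lam → M.factorization q = 2 → ¬ ρ.IsUnipotentOnInertiaAt q)

/-- the statement of S58. -/
def Stmt_S58 : Prop :=
  ∀ (W : WeierstrassCurve ℤ) (_ : W.IsSemistableModel) (N : ℕ)
    (p : ℕ) [Fact p.Prime] (_ : p ≠ 2) (_ : W.ModRepIsIrreducible p)
    (_ : ¬ p ^ 2 ∣ N)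
    (_ : W.IsModularModelOfLevel N) (_ : ∀ ℓ : ℕ, ℓ.Prime → (ℓ : ℤ) ∣ W.Δ → ℓ ∣ N)
    (_ : ∀ q : ℕ, q.Prime → ¬ q ^ 3 ∣ N),
    W.IsModularModelOfLevel W.conductorLevel

end Fermat.Agent.S58
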