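import Fermat.Agent.S58.Interface
import Fermat.Agent.S05.Alg

/-!
# S58: interface, part 2 (intermediate statements).  Architect: helper63.
-/

set_option autoImplicit false

open WeierstrassCurve WeierstrassCurve.Affine WeierstrassCurve.Affine.Point
open CuspForm ModularFormClass Polynomial

namespace Fermat.Agent.S58

/-- **[CARD-1]** `#E[n] = n²` for `y² = x³ + a₂ x² + a₄ x` with `a₂, a₄` algebraic integers. -/
def Stmt_CardMC : Prop :=
  ∀ E : Affine Qb, S05.IsMC E → IsIntegral ℤ E.a₂ → IsIntegral ℤ E.a₄ → E.a₄ ≠ 0 →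
    E.a₂ ^ 2 - 4 * E.a₄ ≠ 0 → ∀ n : ℕ, 0 < n → Nat.card {P : E.Point // n • P = 0} = n ^ 2

/-- **[CMP]** comparison at a Frobenius lift at a good prime `q ≠ λ`, residual version. -/
def Stmt_Cmp : Prop :=
  ∀ (W : WeierstrassCurve ℤ), W.Δ ≠ 0 →
    ∀ (lam : ℕ) [Fact lam.Prime] (k : Type) [Field k] [CharP k lam] (ρ : ResidualGaloisRep k)
    (S₀ : Finset ℕ),
    (∀ ℓ : ℕ, ℓ.Prime → ℓ ∉ S₀ → ∀ A : ValuationSubring Qb, A.LiesOverPrime ℓ →
      ∀ σ : GQ, A.IsFrobeniusAt σ ℓ →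
        LinearMap.charpoly (ρ.ρ σ) = X ^ 2 - C ((W.apOfModel ℓ : ℤ) : k) * X + C ((ℓ : k))) →
    ∀ q : ℕ, q.Prime → q ≠ lam → W.IsGoodPrimeFor q →
    ∀ A : ValuationSubring Qb, A.LiesOverPrime q → ∀ σ : GQ, A.IsFrobeniusAt σ q → ∀ β : k,
      LinearMap.charpoly (ρ.ρ σ) = X ^ 2 - C β * X + C ((q : k)) →
      β = ((W.apOfModel q : ℤ) : k)

end Fermat.Agent.S58
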