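import Fermat.Agent.S58.Interface2
import Fermat.Agent.S29
import Fermat.Agent.ES.EigenChar
import Fermat.Agent.S54.Frob95

/-!
# S58 : [MATCH] `a_ℓ(g₀) = a_ℓ(W)` at all good `ℓ` not dividing the level (uses the landed S29).
-/

set_option autoImplicit false
set_option linter.style.haveILetI false

open WeierstrassCurve CuspForm ModularFormClass Polynomial

namespace Fermat.Agent.S58

local notation "Zb" => integralClosure ℤ ℂ

/-- an algebraic integer lying in all maximal ideals over all primes `p ≠ l0` is zero. -/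
theorem Match_eq_zero (b : Zb) (l0 : ℕ)
    (h : ∀ p : ℕ, p.Prime → p ≠ l0 → ∀ m : Ideal Zb, m.IsMaximal → (p : Zb) ∈ m → b ∈ m) :
    b = 0 := by
  by_contra hb
  have halg : IsAlgebraic ℤ b := (Algebra.IsIntegral.isIntegral (R := ℤ) b).isAlgebraic
  obtain ⟨c0, hc0, hdvd⟩ := halg.exists_nonzero_dvd (mem_nonZeroDivisors_of_ne_zero hb)
  obtain ⟨p, hple, hp⟩ := Nat.exists_infinite_primes (max c0.natAbs l0 + 1)
  have hpl : p ≠ l0 := by
    have := le_max_right c0.natAbs l0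
    omega
  have hpc : ¬ (p : ℤ) ∣ c0 := by
    intro hd
    have h1 : p ∣ c0.natAbs := Int.natCast_dvd.mp hd
    have h2 : 0 < c0.natAbs := Int.natAbs_pos.mpr hc0
    have h3 := Nat.le_of_dvd h2 h1
    have := le_max_left c0.natAbs l0
    omega
  obtain ⟨m, hm, hpm⟩ := FLTPrelim.exists_maximalIdeal_natCast_prime_mem hp
  have hbm : b ∈ m := h p hp hpl m hm hpm
  have hcm : algebraMap ℤ Zb c0 ∈ m := Ideal.mem_of_dvd m hdvd hbm
  have hcop : IsCoprime (p : ℤ) c0 :=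
    ((Nat.prime_iff_prime_int.mp hp).irreducible.coprime_iff_not_dvd).mpr hpc
  obtain ⟨u, v, huv⟩ := hcop
  have h1 : (1 : Zb) ∈ m := by
    have h2 := congrArg (algebraMap ℤ Zb) huv
    rw [map_add, map_mul, map_mul, map_one, map_natCast] at h2
    rw [← h2]
    exact m.add_mem (m.mul_mem_left _ hpm) (m.mul_mem_left _ hcm)
  exact hm.ne_top ((Ideal.eq_top_iff_one m).mpr h1)

theorem stmt_Match (hCmp : Stmt_Cmp) : Stmt_Match := by
  intro W hΔ M₀ g₀ hg₀ S₀ hS₀ l0 hl0 hgood hl0M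
  have hM0 : M₀ ≠ 0 := fun h => hl0M (h ▸ dvd_zero l0)
  have : NeZero M₀ := ⟨hM0⟩
  obtain ⟨lam, -, hlam⟩ := ES.EigenChar.exists_eigenChar (∅ : Set ℕ) hg₀
  obtain ⟨α, hαc⟩ : ∃ α : Zb, (α : ℂ) = qCoeff g₀ l0 :=
    ⟨_, hlam l0 hl0 hl0M (Set.notMem_empty l0)⟩
  suffices hb : α - ((W.apOfModel l0 : ℤ) : Zb) = 0 by
    have h1 : α = ((W.apOfModel l0 : ℤ) : Zb) := sub_eq_zero.mp hb
    rw [← hαc, h1]
    simp
  apply Match_eq_zero _ l0
  intro p hp hpl m hm hpm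
  letI : Field (Zb ⧸ m) := Ideal.Quotient.field m
  have : Fact p.Prime := ⟨hp⟩
  have hchar : CharP (Zb ⧸ m) p := (CharP.charP_iff_prime_eq_zero hp).mpr (by
    have : Ideal.Quotient.mk m (p : Zb) = 0 := Ideal.Quotient.eq_zero_iff_mem.mpr hpm
    rwa [map_natCast] at this)
  obtain ⟨ρ, hatt, -⟩ := Fermat.Agent.S29.result hg₀ hp (Ideal.Quotient.mk m)
  have hne : ∀ l : ℕ, l.Prime → l ≠ p → (l : Zb ⧸ m) ≠ 0 := by
    intro l hl hlp h0
    rw [CharP.cast_eq_zero_iff (Zb ⧸ m) p] at h0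
    exact hlp ((Nat.prime_dvd_prime_iff_eq hp hl).mp h0).symm
  obtain ⟨A, σ, hA, hσ⟩ := S54.Frob95.exists_frobenius l0 hl0
  obtain ⟨a0, ha0, hcp⟩ := hatt l0 hl0 hl0M (hne l0 hl0 hpl.symm) A hA σ hσ
  have ha0α : a0 = α := Subtype.ext (ha0.trans hαc.symm)
  have key := hCmp W hΔ p (Zb ⧸ m) ρ (S₀ ∪ {p} ∪ M₀.primeFactors) (by
    intro l hl hlS A' hA' σ' hσ'
    rw [Finset.mem_union, Finset.mem_union, Finset.mem_singleton, not_or, not_or] at hlS
    obtain ⟨⟨hl1, hl2⟩, hl3⟩ := hlS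
    have hlM : ¬ l ∣ M₀ := fun hd => hl3 (Nat.mem_primeFactors.mpr ⟨hl, hd, hM0⟩)
    obtain ⟨a, ha, hcp'⟩ := hatt l hl hlM (hne l hl hl2) A' hA' σ' hσ'
    have haW : a = ((W.apOfModel l : ℤ) : Zb) := Subtype.ext (by
      rw [ha, hS₀ l hl hl1]
      simp)
    rw [hcp', haW, map_intCast]) l0 hl0 hpl.symm hgood A hA σ hσ _ hcp
  rw [← Ideal.Quotient.eq_zero_iff_mem, map_sub, map_intCast, ← ha0α, key, sub_self]

end Fermat.Agent.S58
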