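import Fermat.Agent.S58.Interface
import Fermat.Agent.S54.Frob95

/-!
# S58: the assembly `s58_of` (helper63).
-/

set_option autoImplicit false

open WeierstrassCurve WeierstrassCurve.Affine WeierstrassCurve.Affine.Point
open CuspForm ModularFormClass Polynomial
open scoped CongruenceSubgroup

namespace Fermat.Agent.S58

theorem top_finite_residue (p : ℕ) [Fact p.Prime] : Finite (IsLocalRing.ResidueField ℤ_[p]) :=
  Finite.of_equiv (ZMod p) PadicInt.residueField.symm.toEquiv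

theorem top_p_mem (p : ℕ) [Fact p.Prime] : (p : ℤ_[p]) ∈ IsLocalRing.maximalIdeal ℤ_[p] := by
  rw [PadicInt.maximalIdeal_eq_span_p]
  exact Ideal.mem_span_singleton_self _

theorem top_p_mem' (p : ℕ) [Fact p.Prime] (O'' : Type) [CommRing O''] [IsLocalRing O'']
    [Algebra ℤ_[p] O''] [IsLocalHom (algebraMap ℤ_[p] O'')] :
    (p : O'') ∈ IsLocalRing.maximalIdeal O'' := by
  have := map_nonunit (algebraMap ℤ_[p] O'') (p : ℤ_[p]) (top_p_mem p)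
  rwa [map_natCast] at this

theorem top_attW {M : ℕ} [NeZero M] {lam : ℕ} [Fact lam.Prime] (W : WeierstrassCurve ℤ)
    (S : Finset ℕ) (hS : ∀ q : ℕ, q.Prime → q ∣ M → q ∈ S)
    (chig : CuspForm.heckeAlgebra M 2 (↑S : Set ℕ) →+* ℂ) (iota : chig.range →+* ℤ_[lam])
    (hiota : ∀ (ℓ : ℕ) (hℓ : ℓ.Prime) (hℓM : ¬ ℓ ∣ M) (hℓS : ℓ ∉ (↑S : Set ℕ)),
      (iota.comp chig.rangeRestrict) (CuspForm.heckeAlgebra.T hℓ hℓM hℓS)
        = ((aW W ℓ : ℤ) : ℤ_[lam]))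
    (O'' : Type) [CommRing O''] [IsLocalRing O''] [Algebra ℤ_[lam] O''] (ρ : GaloisRepAdic O'')
    (h : ∀ (ℓ : ℕ) (hℓ : ℓ.Prime) (hℓM : ¬ ℓ ∣ M) (hℓS : ℓ ∉ (↑S : Set ℕ)),
      ∀ A : ValuationSubring (AlgebraicClosure ℚ), A.LiesOverPrime ℓ →
        ∀ σ : AlgebraicClosure ℚ ≃ₐ[ℚ] AlgebraicClosure ℚ, A.IsFrobeniusAt σ ℓ →
          LinearMap.charpoly (ρ.ρ σ) =
            X ^ 2 - C (algebraMap ℤ_[lam] O'' ((iota.comp chig.rangeRestrict)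
              (CuspForm.heckeAlgebra.T hℓ hℓM hℓS))) * X + C ((ℓ : O''))) :
    AttW ρ W S := by
  intro ℓ hℓ hℓS A hA σ hσ
  have hℓM : ¬ ℓ ∣ M := fun hd => hℓS (hS ℓ hℓ hd)
  have hℓS' : ℓ ∉ (↑S : Set ℕ) := by simpa using hℓS
  rw [h ℓ hℓ hℓM hℓS' A hA σ hσ, hiota, map_intCast]
  rfl

theorem s58_of (h35 : Stmt_S35) (h36 : Stmt_S36) (hNew : Stmt_New) (hRaise : Stmt_Raise)
    (hChi : Stmt_Chi) (hMatch : Stmt_Match) (hUnip : Stmt_Unip) (hFrQ : Stmt_FrQ)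
    (hHres : Stmt_Hres) (hBound : Stmt_Bound) : Stmt_S58 := by
  intro W hss N p _ hp2 hirr hp2N hN hbad hN3
  have hN0 : N ≠ 0 := by
    rintro rfl
    exact hN3 2 Nat.prime_two (dvd_zero _)
  have hΔ : W.Δ ≠ 0 := by
    intro h0
    obtain ⟨ℓ, hℓN, hℓ⟩ := Nat.exists_infinite_primes (N + 1)
    have h1 : ℓ ∣ N := hbad ℓ hℓ (by rw [h0]; exact dvd_zero _)
    have h2 := Nat.le_of_dvd (Nat.pos_of_ne_zero hN0) h1
    omega
  obtain ⟨f, hf, hfW⟩ := hN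
  obtain ⟨M₀, g₀, hM₀N, hg₀, hg₀f⟩ := hNew N (Nat.pos_of_ne_zero hN0) f hf
  have hM₀0 : M₀ ≠ 0 := by
    rintro rfl
    exact hN0 (Nat.eq_zero_of_zero_dvd hM₀N)
  haveI : NeZero M₀ := ⟨hM₀0⟩
  have hg₀W : ∀ ℓ : ℕ, ℓ.Prime → ¬ ℓ ∣ N → qCoeff g₀ ℓ = (W.apOfModel ℓ : ℂ) := by
    intro ℓ hℓ hℓN
    rw [hg₀f ℓ hℓ hℓN]
    exact hfW ℓ hℓ (fun hd => hℓN (hbad ℓ hℓ hd)) hℓN
  -- the common set-up for a prime `lam`
  have setup : ∀ (lam : ℕ) [Fact lam.Prime],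
      (∀ q : ℕ, q.Prime → q ∣ M₀ → q ∈ N.primeFactors ∪ {lam}) ∧ lam ∈ N.primeFactors ∪ {lam} ∧
      ∀ ℓ : ℕ, ℓ.Prime → ¬ ℓ ∣ M₀ → ℓ ∉ N.primeFactors ∪ {lam} → qCoeff g₀ ℓ = (aW W ℓ : ℂ) := by
    intro lam _
    refine ⟨fun q hq hqM => Finset.mem_union_left _
      (Nat.mem_primeFactors.mpr ⟨hq, hqM.trans hM₀N, hN0⟩),
      Finset.mem_union_right _ (Finset.mem_singleton_self _), fun ℓ hℓ _ hℓS => ?_⟩
    exact hg₀W ℓ hℓ (fun hd => hℓS (Finset.mem_union_left _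
      (Nat.mem_primeFactors.mpr ⟨hℓ, hd, hN0⟩)))
  -- step 3a
  have h3a : ∀ q : ℕ, q.Prime → ¬ q ^ 2 ∣ M₀ := by
    intro q hq hq2
    have hqp : q ≠ p := by
      rintro rfl
      exact hp2N (hq2.trans hM₀N)
    have hfac : M₀.factorization q = 2 := by
      have h3 : ¬ q ^ 3 ∣ M₀ := fun h => hN3 q hq (h.trans hM₀N)
      have h1 := (hq.pow_dvd_iff_le_factorization hM₀0).mp hq2
      have h2 : ¬ 3 ≤ M₀.factorization q := fun h =>
        h3 ((hq.pow_dvd_iff_le_factorization hM₀0).mpr h)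
      omega
    obtain ⟨hSM, hpS, hS⟩ := setup p
    obtain ⟨chig, iota, hchig, hiota⟩ := hChi M₀ g₀ hg₀.1 (N.primeFactors ∪ {p}) hSM (aW W) hS p
    haveI := top_finite_residue p
    obtain ⟨O'', i1, i2, i3, i4, i5, i6, i7, i8, i9, -, ρ, hρ, hnu⟩ :=
      h36 M₀ g₀ hg₀ p (N.primeFactors ∪ {p}) ℤ_[p] (top_p_mem p) hp2 chig hchig iota hpS hSM
        (by
          intro O'' _ _ _ _ _ _ _ _ _ _ ρ hρ
          refine hHres W hΔ p hp2 hirr O'' (top_p_mem' p O'') ρ (N.primeFactors ∪ {p}) ?_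
          refine top_attW W _ hSM chig iota hiota O'' ρ ?_
          intro ℓ hℓ hℓM hℓS
          refine hρ ℓ hℓ ?_ hℓM hℓS
          rintro rfl
          exact hℓS (by simpa using hpS))
    exact hnu q hq hqp hfac (hUnip W hΔ hss O'' p (top_p_mem' p O'') ρ (N.primeFactors ∪ {p})
      (top_attW W _ hSM chig iota hiota O'' ρ hρ) q hq hqp)
  -- step 3b
  have h3b : ∀ q : ℕ, q.Prime → q ∣ M₀ → (q : ℤ) ∣ W.Δ := by
    intro q hq hqM
    by_contra hgood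
    have hq2 := h3a q hq
    obtain ⟨A, σ, hA, hσ⟩ := Fermat.Agent.S54.Frob95.exists_frobenius q hq
    have key : ∀ lam : ℕ, lam.Prime → lam ≠ q →
        (lam : ℤ) ∣ (W.apOfModel q - ((q : ℤ) + 1)) * (W.apOfModel q + ((q : ℤ) + 1)) := by
      intro lam hlam hlq
      haveI : Fact lam.Prime := ⟨hlam⟩
      obtain ⟨hSM, hpS, hS⟩ := setup lam
      obtain ⟨chig, iota, hchig, hiota⟩ :=
        hChi M₀ g₀ hg₀.1 (N.primeFactors ∪ {lam}) hSM (aW W) hS lam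
      haveI := top_finite_residue lam
      obtain ⟨O'', i1, i2, i3, i4, i5, i6, i7, i8, i9, -, ρ, hρ, hq'⟩ :=
        h35 M₀ g₀ hg₀ lam (N.primeFactors ∪ {lam}) ℤ_[lam] (top_p_mem lam) chig hchig iota hpS hSM
      have hatt := top_attW W _ hSM chig iota hiota O'' ρ hρ
      rcases hq' q hq hlq.symm hqM hq2 A hA σ hσ with h | h
      · have h1 := hFrQ W hΔ O'' lam (top_p_mem' lam O'') ρ _ hatt q hq hlq.symm hgood A hA σ hσ
          ((q : ℤ) + 1) (by rw [h]; push_cast; rfl)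
        exact Dvd.dvd.mul_right h1 _
      · have h1 := hFrQ W hΔ O'' lam (top_p_mem' lam O'') ρ _ hatt q hq hlq.symm hgood A hA σ hσ
          (-((q : ℤ) + 1)) (by rw [h]; push_cast; simp only [map_neg, neg_mul, sub_neg_eq_add])
        rw [sub_neg_eq_add] at h1
        exact Dvd.dvd.mul_left h1 _
    obtain ⟨hb1, hb2⟩ := hBound W q hq
    have hD : (W.apOfModel q - ((q : ℤ) + 1)) * (W.apOfModel q + ((q : ℤ) + 1)) ≠ 0 :=
      mul_ne_zero (sub_ne_zero.mpr hb1) (fun h => hb2 (by linarith))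
    obtain ⟨lam, hlam1, hlam⟩ := Nat.exists_infinite_primes
      (((W.apOfModel q - ((q : ℤ) + 1)) * (W.apOfModel q + ((q : ℤ) + 1))).natAbs + q + 1)
    have h1 := key lam hlam (by omega)
    have h2 := Int.natAbs_dvd_natAbs.mpr h1
    rw [Int.natAbs_natCast] at h2
    have h3 := Nat.le_of_dvd (Int.natAbs_pos.mpr hD) h2
    omega
  -- `M₀ ∣ rad Δ`
  have hsq : Squarefree M₀ := by
    rw [Nat.squarefree_iff_prime_squarefree]
    intro q hq hqq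
    exact h3a q hq (by rwa [pow_two])
  have hM₀c : M₀ ∣ W.conductorLevel := by
    rw [← Nat.prod_primeFactors_of_squarefree hsq]
    refine Finset.prod_primes_dvd _ (fun q hq => (Nat.prime_of_mem_primeFactors hq).prime) ?_
    intro q hq
    have hq' := Nat.prime_of_mem_primeFactors hq
    exact (W.prime_dvd_conductorLevel_iff hΔ hq').mpr (h3b q hq' (Nat.dvd_of_mem_primeFactors hq))
  obtain ⟨g, hg, hgg₀⟩ := hRaise M₀ W.conductorLevel W.conductorLevel_pos hM₀c g₀ hg₀.1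
  refine ⟨g, hg, fun ℓ hℓ hgood hℓc => ?_⟩
  rw [hgg₀ ℓ hℓ hℓc]
  refine hMatch W hΔ M₀ g₀ hg₀.1 N.primeFactors ?_ ℓ hℓ hgood (fun hd => hℓc (hd.trans hM₀c))
  intro ℓ' hℓ' hℓ'N
  exact hg₀W ℓ' hℓ' (fun hd => hℓ'N (Nat.mem_primeFactors.mpr ⟨hℓ', hd, hN0⟩))

end Fermat.Agent.S58
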