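import Fermat.Agent.S58.UniShift

/-!
# S58 [UNI], layer 2: a `2`-torsion point reducing to the node (helper58)

`K` algebraically closed of characteristic zero with a valuation `v`, `W` a Weierstrass curve with
integral coefficients, `v Δ < 1`, `v c₄ = 1`.  There is an integral root `e` of the `2`-division
polynomial such that the model translated to `(e, -(a₁ e + a₃) / 2)` has `v a₄' < 1`; two such roots
differ by at most `v (4 a₄')`.
-/

set_option autoImplicit false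
set_option linter.unusedSectionVars false

namespace Fermat.Agent.S58.Uni

open WeierstrassCurve
open Fermat.Agent.S05

variable {K : Type*} [Field K] [CharZero K]
variable {Γ₀ : Type*} [LinearOrderedCommGroupWithZero Γ₀] {v : Valuation K Γ₀}

/-- the `2`-division polynomial. -/
def F2 (W : WeierstrassCurve K) (e : K) : K := 4 * e ^ 3 + W.b₂ * e ^ 2 + 2 * W.b₄ * e + W.b₆

/-- the `y`-coordinate of the `2`-torsion point with `x`-coordinate `e`. -/
def T2 (W : WeierstrassCurve K) (e : K) : K := -(W.a₁ * e + W.a₃) / 2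

/-- the coefficient `a₄` of the translated model. -/
def A4 (W : WeierstrassCurve K) (e : K) : K := W.a₄ + 2 * W.a₂ * e - W.a₁ * T2 W e + 3 * e ^ 2

/-- the coefficient `b₂` of the translated model. -/
def B2 (W : WeierstrassCurve K) (e : K) : K := W.b₂ + 12 * e

variable (W : WeierstrassCurve K)

lemma two_A4 (e : K) : 2 * A4 W e = 6 * e ^ 2 + W.b₂ * e + W.b₄ := by
  simp only [A4, T2, b₂, b₄]
  ring

lemma T2_sq {e : K} (hf : F2 W e = 0) :
    T2 W e ^ 2 = -(e ^ 3 + W.a₂ * e ^ 2 + W.a₄ * e + W.a₆) := by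
  simp only [F2, b₂, b₄, b₆] at hf
  simp only [T2]
  linear_combination (1 / 4 : K) * hf

lemma c4_eq (e : K) : B2 W e ^ 2 - 48 * A4 W e = W.c₄ := by
  have := two_A4 W e
  simp only [B2, c₄]
  linear_combination (-24 : K) * this

lemma F2_add (e δ : K) :
    F2 W (e + δ) = F2 W e + δ * (4 * δ ^ 2 + B2 W e * δ + 4 * A4 W e) := by
  have := two_A4 W e
  simp only [F2, B2]
  linear_combination (-2 * δ) * this

lemma A4_add (e δ : K) : 4 * A4 W (e + δ) = 4 * A4 W e + 2 * δ * (B2 W e + 6 * δ) := by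
  have h1 := two_A4 W e
  have h2 := two_A4 W (e + δ)
  simp only [B2]
  linear_combination 2 * h2 - 2 * h1

lemma A4_add_of_root {e δ : K} (h : 4 * δ ^ 2 + B2 W e * δ + 4 * A4 W e = 0) :
    4 * A4 W (e + δ) = δ * (8 * δ + B2 W e) := by
  rw [A4_add]
  linear_combination h

lemma delta_eq {e : K} (hf : F2 W e = 0) :
    W.Δ = A4 W e ^ 2 * (B2 W e ^ 2 - 64 * A4 W e) := by
  have h1 := two_A4 W e
  have h8 := W.b_relation
  have h6 : W.b₆ = -(4 * e ^ 3 + W.b₂ * e ^ 2 + 2 * W.b₄ * e) := by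
    simp only [F2] at hf
    linear_combination hf
  have hA : A4 W e = (6 * e ^ 2 + W.b₂ * e + W.b₄) / 2 := by
    linear_combination (1 / 2 : K) * h1
  have hb8 : W.b₈ = (W.b₂ * W.b₆ - W.b₄ ^ 2) / 4 := by
    linear_combination (1 / 4 : K) * h8
  rw [Δ, hb8, hA, h6]
  simp only [B2]
  ring

/-! ### valuations -/

lemma v_ofNat_le_one (n : ℕ) [n.AtLeastTwo] : v (OfNat.ofNat n : K) ≤ 1 := by
  have := v_natCast_le_one v (OfNat.ofNat n)
  rwa [Nat.cast_ofNat] at this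

lemma v_sq_le_one {a : K} (h : v (a ^ 2) ≤ 1) : v a ≤ 1 := by
  by_contra hc
  rw [map_pow] at h
  exact absurd (one_lt_pow₀ (not_le.1 hc) two_ne_zero) (not_lt.2 h)

lemma v_sq_lt_one {a : K} (h : v (a ^ 2) < 1) : v a < 1 := by
  by_contra hc
  rw [map_pow] at h
  exact absurd (one_le_pow₀ (not_lt.1 hc)) (not_le.2 h)

variable {W}

/-- integrality data of `W`. -/
structure IsInt (v : Valuation K Γ₀) (W : WeierstrassCurve K) : Prop where
  a₁ : v W.a₁ ≤ 1
  a₂ : v W.a₂ ≤ 1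
  a₃ : v W.a₃ ≤ 1
  a₄ : v W.a₄ ≤ 1
  a₆ : v W.a₆ ≤ 1

lemma v_mul_le_one {a b : K} (ha : v a ≤ 1) (hb : v b ≤ 1) : v (a * b) ≤ 1 := by
  rw [map_mul]; exact mul_le_one' ha hb

lemma v_pow_le_one {a : K} (ha : v a ≤ 1) (n : ℕ) : v (a ^ n) ≤ 1 := by
  rw [map_pow]; exact pow_le_one₀ zero_le ha

lemma IsInt.b₂ (hW : IsInt v W) : v W.b₂ ≤ 1 :=
  Valuation.map_add_le v (v_pow_le_one hW.a₁ 2) (v_mul_le_one (v_ofNat_le_one 4) hW.a₂)

lemma IsInt.b₄ (hW : IsInt v W) : v W.b₄ ≤ 1 :=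
  Valuation.map_add_le v (v_mul_le_one (v_ofNat_le_one 2) hW.a₄) (v_mul_le_one hW.a₁ hW.a₃)

lemma IsInt.b₆ (hW : IsInt v W) : v W.b₆ ≤ 1 :=
  Valuation.map_add_le v (v_pow_le_one hW.a₃ 2) (v_mul_le_one (v_ofNat_le_one 4) hW.a₆)

lemma IsInt.T2 (hW : IsInt v W) {e : K} (he : v e ≤ 1) (hf : F2 W e = 0) : v (T2 W e) ≤ 1 := by
  apply v_sq_le_one
  rw [T2_sq W hf, Valuation.map_neg]
  exact Valuation.map_add_le v (Valuation.map_add_le v (Valuation.map_add_le v (v_pow_le_one he 3)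
    (v_mul_le_one hW.a₂ (v_pow_le_one he 2))) (v_mul_le_one hW.a₄ he)) hW.a₆

lemma IsInt.A4 (hW : IsInt v W) {e : K} (he : v e ≤ 1) (hf : F2 W e = 0) : v (A4 W e) ≤ 1 :=
  Valuation.map_add_le v (Valuation.map_sub_le v (Valuation.map_add_le v hW.a₄
    (v_mul_le_one (v_mul_le_one (v_ofNat_le_one 2) hW.a₂) he)) (v_mul_le_one hW.a₁ (hW.T2 he hf)))
    (v_mul_le_one (v_ofNat_le_one 3) (v_pow_le_one he 2))

lemma IsInt.B2 (hW : IsInt v W) {e : K} (he : v e ≤ 1) : v (B2 W e) ≤ 1 :=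
  Valuation.map_add_le v hW.b₂ (v_mul_le_one (v_ofNat_le_one 12) he)

/-- if `v a₄' < 1` then `b₂'` is a unit. -/
lemma v_B2_eq_one (hc4 : v W.c₄ = 1) {e : K} (hA : v (A4 W e) < 1) : v (B2 W e) = 1 := by
  have h1 : B2 W e ^ 2 = W.c₄ + 48 * A4 W e := by linear_combination c4_eq W e
  have h2 : v (B2 W e ^ 2) = 1 := by
    rw [h1, ← hc4]
    apply Valuation.map_add_eq_of_lt_left
    rw [hc4, map_mul]
    exact Right.mul_lt_one_of_le_of_lt (v_ofNat_le_one 48) hA
  rw [map_pow] at h2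
  exact (pow_eq_one_iff_left two_ne_zero).mp h2

lemma A4_ne_zero (hΔ : W.Δ ≠ 0) {e : K} (hf : F2 W e = 0) : A4 W e ≠ 0 := by
  intro h
  apply hΔ
  rw [delta_eq W hf, h]
  ring

section AlgClosed

variable [IsAlgClosed K]

variable (W) in
lemma exists_three_roots : ∃ e₁ e₂ e₃ : K, W.b₂ = 4 * -(e₁ + e₂ + e₃) ∧
    2 * W.b₄ = 4 * (e₁ * e₂ + e₁ * e₃ + e₂ * e₃) ∧ W.b₆ = 4 * -(e₁ * e₂ * e₃) := by
  let P : Cubic K := ⟨4, W.b₂, 2 * W.b₄, W.b₆⟩
  have ha : P.a ≠ 0 := by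
    show (4 : K) ≠ 0
    norm_num
  obtain ⟨x, y, z, h⟩ :=
    (Cubic.splits_iff_roots_eq_three (φ := RingHom.id K) ha).1 (IsAlgClosed.splits _)
  exact ⟨x, y, z, Cubic.b_eq_three_roots ha h, Cubic.c_eq_three_roots ha h,
    Cubic.d_eq_three_roots ha h⟩

/-- an integral root of the `2`-division polynomial. -/
lemma exists_int_root (hW : IsInt v W) (hc4 : v W.c₄ = 1) : ∃ e : K, F2 W e = 0 ∧ v e ≤ 1 := by
  obtain ⟨e₁, e₂, e₃, h2, h4, h6⟩ := exists_three_roots W
  have hf₁ : F2 W e₁ = 0 := by simp only [F2]; rw [h2, h4, h6]; ring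
  have hf₂ : F2 W e₂ = 0 := by simp only [F2]; rw [h2, h4, h6]; ring
  have hf₃ : F2 W e₃ = 0 := by simp only [F2]; rw [h2, h4, h6]; ring
  by_contra hcon
  push Not at hcon
  have g₁ := hcon e₁ hf₁
  have g₂ := hcon e₂ hf₂
  have g₃ := hcon e₃ hf₃
  have h40 : 0 < v (4 : K) := (Valuation.pos_iff v).mpr (by norm_num)
  have hprod : v W.b₆ = v (4 : K) * (v e₁ * v e₂ * v e₃) := by
    rw [h6, map_mul, Valuation.map_neg, map_mul, map_mul]
  have p₁ : v e₁ < v e₁ * v e₂ * v e₃ := by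
    calc v e₁ < v e₁ * v e₂ := (lt_mul_iff_one_lt_right (zero_lt_one.trans g₁)).mpr g₂
      _ < v e₁ * v e₂ * v e₃ :=
        (lt_mul_iff_one_lt_right (mul_pos (zero_lt_one.trans g₁) (zero_lt_one.trans g₂))).mpr g₃
  have p₂ : v e₂ < v e₁ * v e₂ * v e₃ := by
    calc v e₂ < v e₁ * v e₂ := (lt_mul_iff_one_lt_left (zero_lt_one.trans g₂)).mpr g₁
      _ < v e₁ * v e₂ * v e₃ :=
        (lt_mul_iff_one_lt_right (mul_pos (zero_lt_one.trans g₁) (zero_lt_one.trans g₂))).mpr g₃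
  have p₃ : v e₃ < v e₁ * v e₂ * v e₃ :=
    (lt_mul_iff_one_lt_left (zero_lt_one.trans g₃)).mpr (one_lt_mul_of_lt_of_le g₁ g₂.le)
  have hsum : v (e₁ + e₂ + e₃) < v e₁ * v e₂ * v e₃ :=
    Valuation.map_add_lt v (Valuation.map_add_lt v p₁ p₂) p₃
  have hb2 : v W.b₂ < 1 := by
    calc v W.b₂ = v (4 : K) * v (e₁ + e₂ + e₃) := by rw [h2, map_mul, Valuation.map_neg]
      _ < v (4 : K) * (v e₁ * v e₂ * v e₃) := mul_lt_mul_of_pos_left hsum h40
      _ = v W.b₆ := hprod.symm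
      _ ≤ 1 := hW.b₆
  -- hence `24 b₄` is a unit, so `2` is a unit
  have h24 : v (24 * W.b₄) = 1 := by
    have e1 : 24 * W.b₄ = W.b₂ ^ 2 - W.c₄ := by simp only [c₄]; ring
    rw [e1, ← hc4]
    apply Valuation.map_sub_eq_of_lt_right
    rw [hc4, map_pow]
    exact pow_lt_one₀ zero_le hb2 two_ne_zero
  have h4u : v (4 : K) = 1 := by
    apply le_antisymm (v_ofNat_le_one 4)
    have e2 : (24 : K) * W.b₄ = 4 * (6 * W.b₄) := by ring
    rw [e2, map_mul] at h24
    rw [← h24]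
    exact mul_le_of_le_one_right zero_le (v_mul_le_one (v_ofNat_le_one 6) hW.b₄)
  have : 1 < v W.b₆ := by
    rw [hprod, h4u, one_mul]
    exact g₁.trans p₁
  exact absurd hW.b₆ (not_le.2 this)

/-- **Layer 2, existence.** -/
theorem exists_good_root (hW : IsInt v W) (hc4 : v W.c₄ = 1) (hΔ : v W.Δ < 1) :
    ∃ e : K, F2 W e = 0 ∧ v e ≤ 1 ∧ v (A4 W e) < 1 := by
  obtain ⟨e, hf, he⟩ := exists_int_root hW hc4
  have hA := hW.A4 he hf
  rcases lt_or_eq_of_le hA with hA | hA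
  · exact ⟨e, hf, he, hA⟩
  -- `a₄'` is a unit: the discriminant of the quadratic is small
  have hd : v (B2 W e ^ 2 - 64 * A4 W e) < 1 := by
    rw [delta_eq W hf, map_mul, map_pow, hA, one_pow, one_mul] at hΔ
    exact hΔ
  -- `2` is a unit
  have h16 : v (16 : K) = 1 := by
    apply le_antisymm (v_ofNat_le_one 16)
    by_contra hcon
    have h1 : v (16 * A4 W e) < 1 := by
      rw [map_mul, hA, mul_one]; exact not_le.1 hcon
    have h2 : W.c₄ = (B2 W e ^ 2 - 64 * A4 W e) + 16 * A4 W e := by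
      linear_combination -c4_eq W e
    have h3 : v W.c₄ < 1 := by
      rw [h2]; exact Valuation.map_add_lt v hd h1
    rw [hc4] at h3
    exact lt_irrefl _ h3
  have h8 : v (8 : K) = 1 := by
    apply le_antisymm (v_ofNat_le_one 8)
    have e2 : (16 : K) = 8 * 2 := by norm_num
    rw [e2, map_mul] at h16
    rw [← h16]
    exact mul_le_of_le_one_right zero_le (v_ofNat_le_one 2)
  have h4 : v (4 : K) = 1 := by
    apply le_antisymm (v_ofNat_le_one 4)
    have e2 : (16 : K) = 4 * 4 := by norm_num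
    rw [e2, map_mul] at h16
    rw [← h16]
    exact mul_le_of_le_one_right zero_le (v_ofNat_le_one 4)
  obtain ⟨s, hs⟩ := IsAlgClosed.exists_pow_nat_eq (B2 W e ^ 2 - 64 * A4 W e) (n := 2) (by norm_num)
  have hsv : v s < 1 := v_sq_lt_one (hs ▸ hd)
  have hB := hW.B2 he
  set δ : K := (s - B2 W e) / 8 with hδ
  have hδv : v δ ≤ 1 := by
    rw [hδ, map_div₀, h8, div_one]
    exact Valuation.map_sub_le v hsv.le hB
  have hq : 4 * δ ^ 2 + B2 W e * δ + 4 * A4 W e = 0 := by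
    rw [hδ]
    linear_combination (1 / 16 : K) * hs
  refine ⟨e + δ, ?_, Valuation.map_add_le v he hδv, ?_⟩
  · rw [F2_add, hf, hq]; ring
  · have h5 := A4_add_of_root W hq
    have h6 : 8 * δ + B2 W e = s := by rw [hδ]; ring
    rw [h6] at h5
    have h7 : v (4 * A4 W (e + δ)) < 1 := by
      rw [h5, map_mul]
      exact Right.mul_lt_one_of_le_of_lt hδv hsv
    rwa [map_mul, h4, one_mul] at h7

end AlgClosed

/-- **Layer 2, uniqueness up to a small shift.** -/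
theorem v_sub_le_of_good (hc4 : v W.c₄ = 1) {e e' : K} (hf : F2 W e = 0) (hf' : F2 W e' = 0)
    (hA : v (A4 W e) < 1) (hA' : v (A4 W e') < 1) : v (e' - e) ≤ v (4 * A4 W e) := by
  set δ : K := e' - e with hδ
  have he' : e' = e + δ := by rw [hδ]; ring
  rw [he'] at hf' hA'
  by_cases hδ0 : δ = 0
  · rw [hδ0, map_zero]; exact zero_le
  have hq : 4 * δ ^ 2 + B2 W e * δ + 4 * A4 W e = 0 := by
    rw [F2_add, hf, zero_add] at hf'
    exact (mul_eq_zero.1 hf').resolve_left hδ0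
  have hB := v_B2_eq_one hc4 hA
  by_contra hcon
  have hcon : v (4 * A4 W e) < v δ := not_le.1 hcon
  have hδpos : 0 < v δ := (Valuation.pos_iff v).mpr hδ0
  have h1 : v (4 * δ + B2 W e) < 1 := by
    have e1 : δ * (4 * δ + B2 W e) = -(4 * A4 W e) := by linear_combination hq
    have e2 : v δ * v (4 * δ + B2 W e) = v (4 * A4 W e) := by
      rw [← map_mul, e1, Valuation.map_neg]
    by_contra h
    have h : 1 ≤ v (4 * δ + B2 W e) := not_lt.1 h
    have : v δ ≤ v (4 * A4 W e) := by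
      rw [← e2]; exact le_mul_of_one_le_right zero_le h
    exact absurd hcon (not_lt.2 this)
  have h2 : v (8 * δ + B2 W e) = 1 := by
    have e1 : 8 * δ + B2 W e = -B2 W e + 2 * (4 * δ + B2 W e) := by ring
    rw [e1, ← hB, ← Valuation.map_neg v (B2 W e)]
    apply Valuation.map_add_eq_of_lt_left
    rw [Valuation.map_neg, hB, map_mul]
    exact Right.mul_lt_one_of_le_of_lt (v_ofNat_le_one 2) h1
  have h3 : v (4 * δ) = 1 := by
    have e1 : 4 * δ = -B2 W e + (4 * δ + B2 W e) := by ring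
    rw [e1, ← hB, ← Valuation.map_neg v (B2 W e)]
    apply Valuation.map_add_eq_of_lt_left
    rw [Valuation.map_neg, hB]
    exact h1
  have h4 : v (16 * A4 W (e + δ)) = 1 := by
    have e1 : 16 * A4 W (e + δ) = (4 * δ) * (8 * δ + B2 W e) := by
      linear_combination 4 * A4_add_of_root W hq
    rw [e1, map_mul, h2, h3, one_mul]
  have h5 : v (16 * A4 W (e + δ)) < 1 := by
    rw [map_mul]
    exact Right.mul_lt_one_of_le_of_lt (v_ofNat_le_one 16) hA'
  rw [h4] at h5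
  exact lt_irrefl _ h5

end Fermat.Agent.S58.Uni
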