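import Fermat.Agent.S13.M1Mid

/-!
# S58 [UNI], layer 1: "Galois + small shift" acts unipotently on the prime-to-residue-characteristic
torsion of `y² + a₁ x y = x³ + a₂ x² + a₄ x` with multiplicative reduction (helper58)

The `2`-torsion point `T = (0,0)` reducing to the node need not be fixed by inertia: in the
coordinates centred at `T` an element `σ` of the inertia group acts by
`(x, y) ↦ (σ x + δ, σ y + ε)` with `v δ, v ε ≤ v a₄`.
-/

set_option autoImplicit false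

namespace Fermat.Agent.S58.Uni

open WeierstrassCurve WeierstrassCurve.Affine
open Fermat.Agent.S05 Fermat.Agent.S13

variable {K : Type*} [Field K] [DecidableEq K]
variable {Γ₀ : Type*} [LinearOrderedCommGroupWithZero Γ₀] {v : Valuation K Γ₀}

/-- An inertia-like endomorphism `σ` of `K`, acting on the points of `E` by
`(x, y) ↦ (σ x + δ, σ y + ε)`. -/
structure ShiftAct (v : Valuation K Γ₀) (E : WeierstrassCurve.Affine K) (σ : K →+* K)
    (τ : E.Point →+ E.Point) (δ ε : K) : Prop where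
  triv : ∀ a, v a ≤ 1 → v (σ a - a) < 1
  val : ∀ a, v (σ a) = v a
  act : ∀ (x y : K) (h : E.Nonsingular x y),
    ∃ h' : E.Nonsingular (σ x + δ) (σ y + ε),
      τ (Point.some x y h) = Point.some (σ x + δ) (σ y + ε) h'

variable {E : WeierstrassCurve.Affine K} {σ : K →+* K} {τ : E.Point →+ E.Point} {δ ε : K}

/-- the action in the coordinates `(x, s)`, `y = x * s`, when `v δ, v ε < v x`. -/
theorem ShiftAct.act_s (hτ : ShiftAct v E σ τ δ ε) {x s : K} (h : E.Nonsingular x (x * s))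
    (hs : v s ≤ 1) (hδ : v δ < v x) (hε : v ε < v x) :
    ∃ (x' s' : K) (h' : E.Nonsingular x' (x' * s')),
      τ (Point.some x (x * s) h) = Point.some x' (x' * s') h' ∧ x' = σ x + δ ∧ v x' = v x ∧
        v (s' - s) < 1 := by
  obtain ⟨h', e⟩ := hτ.act x (x * s) h
  have hvx' : v (σ x + δ) = v x := by
    rw [← hτ.val x]
    exact Valuation.map_add_eq_of_lt_left v (by rw [hτ.val]; exact hδ)
  have hx0 : 0 < v x := lt_of_le_of_lt zero_le hδ
  have hx'0 : σ x + δ ≠ 0 := by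
    intro h0
    rw [h0, map_zero] at hvx'
    exact hx0.ne hvx'
  obtain ⟨h'', e''⟩ := exists_some_eq h' (rfl : σ x + δ = σ x + δ)
    (show σ (x * s) + ε = (σ x + δ) * ((σ (x * s) + ε) / (σ x + δ)) by field_simp)
  refine ⟨σ x + δ, (σ (x * s) + ε) / (σ x + δ), h'', e.trans e'', rfl, hvx', ?_⟩
  have e1 : (σ (x * s) + ε) / (σ x + δ) - s = (ε - δ * σ s) / (σ x + δ) + (σ s - s) := by
    rw [map_mul]
    field_simp
    ring
  rw [e1]
  refine Valuation.map_add_lt v ?_ (hτ.triv s hs)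
  rw [map_div₀, hvx', div_lt_one₀ hx0]
  refine Valuation.map_sub_lt v hε ?_
  rw [map_mul, hτ.val]
  exact lt_of_le_of_lt (mul_le_of_le_one_right zero_le hs) hδ

/-- points of nonsingular reduction are moved inside the kernel of reduction. -/
theorem ShiftAct.sub_mem_E1_of_E0 (hE : IsM1 E) (hc : v E.a₁ ≤ 1) (hU : v E.a₂ ≤ 1)
    (hW : v E.a₄ ≤ 1) (hdisc : v ((E.a₁ ^ 2 + 4 * E.a₂) ^ 2 - 64 * E.a₄) = 1)
    (hτ : ShiftAct v E σ τ δ ε) (hδ : v δ < 1) (hε : v ε < 1)
    (R : E.Point) (hR : InE0 v R) : InE1 v (τ R - R) := by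
  rcases R with _ | ⟨x, y, h⟩
  · rw [← Point.zero_def, map_zero, sub_zero]; trivial
  · have hx : 1 ≤ v x := hR
    rcases lt_or_eq_of_le hx with hx | hx
    · have h1 : InE1 v (Point.some x y h) := hx
      have h2 : InE1 v (τ (Point.some x y h)) := by
        obtain ⟨h', e⟩ := hτ.act x y h
        rw [e]
        show 1 < v (σ x + δ)
        have : v (σ x + δ) = v (σ x) :=
          Valuation.map_add_eq_of_lt_left v (by rw [hτ.val]; exact hδ.trans hx)
        rw [this, hτ.val]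
        exact hx
      rw [sub_eq_add_neg]
      exact (hE.E1_add hc hU hW _ _ h2 (InE1_neg _ h1)).1
    · have hx0 : x ≠ 0 := by
        rintro rfl; simp at hx
      obtain ⟨s, h', e'⟩ := exists_s h hx0
      rw [e']
      have hs : v s ≤ 1 := hE.s_integral_of_unit hc hU hW h' hx.symm
      obtain ⟨x', s', h'', e'', hx', -, hs'⟩ := hτ.act_s h' hs (hx ▸ hδ) (hx ▸ hε)
      rw [e'']
      refine hE.sub_mem_E1_of_congr hc hU hW hdisc h' h'' hx.symm ?_ hs'
      have : x' - x = (σ x - x) + δ := by rw [hx']; ring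
      rw [this]
      exact Valuation.map_add_lt v (hτ.triv x hx.symm.le) hδ

/-- every point is moved inside the points of nonsingular reduction. -/
theorem ShiftAct.sub_mem_E0 (hE : IsM1 E) (hc : v E.a₁ ≤ 1) (hU : v E.a₂ ≤ 1)
    (hW : v E.a₄ < 1) (hW0 : E.a₄ ≠ 0) (hb2 : v (E.a₁ ^ 2 + 4 * E.a₂) = 1)
    (hτ : ShiftAct v E σ τ δ ε) (hδ : v δ ≤ v E.a₄) (hε : v ε ≤ v E.a₄)
    (P : E.Point) : InE0 v (τ P - P) := by
  have hdisc := m1_disc_of_b2 hb2 hW
  have hδ1 : v δ < 1 := lt_of_le_of_lt hδ hW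
  have hε1 : v ε < 1 := lt_of_le_of_lt hε hW
  have hT := hE.nonsingular_T hW0
  by_cases hP0 : InE0 v P
  · exact InE0_of_InE1 _ (hτ.sub_mem_E1_of_E0 hE hc hU hW.le hdisc hδ1 hε1 P hP0)
  by_cases hP1 : InE0 v (P + Point.some 0 0 hT)
  · have h1 := InE0_of_InE1 _ (hτ.sub_mem_E1_of_E0 hE hc hU hW.le hdisc hδ1 hε1 _ hP1)
    have h2 : InE0 v (τ (Point.some 0 0 hT) + Point.some 0 0 hT) := by
      obtain ⟨h', e⟩ := hτ.act 0 0 hT
      rw [e]
      apply hE.E0_add_T_of_le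
      rw [map_zero, zero_add]
      exact hδ
    have h3 := hE.E0_sub hc hU hW _ _ h1 h2
    have h4 : τ (P + Point.some 0 0 hT) - (P + Point.some 0 0 hT)
        - (τ (Point.some 0 0 hT) + Point.some 0 0 hT)
        = τ P - P - (Point.some 0 0 hT + Point.some 0 0 hT) := by
      rw [map_add]; abel
    rw [h4, hE.T_add_T, sub_zero] at h3
    exact h3
  rcases P with _ | ⟨x, y, h⟩
  · exact absurd trivial hP0
  have hx1 : v x < 1 := not_le.1 hP0
  have hxW : v E.a₄ < v x := by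
    by_contra hcon
    exact hP1 (hE.E0_add_T_of_le hT h (not_lt.1 hcon))
  have hx0 : x ≠ 0 := by
    rintro rfl
    rw [map_zero] at hxW; simp at hxW
  obtain ⟨s, h', e'⟩ := exists_s h hx0
  rw [e']
  have e := hE.equation_s hx0 h'.1
  obtain ⟨hs, hs'⟩ := m1_mid_s hc hU hb2 hx1 hxW e
  obtain ⟨x', s', h'', e'', -, hx', hss⟩ :=
    hτ.act_s h' hs (lt_of_le_of_lt hδ hxW) (lt_of_le_of_lt hε hxW)
  rw [e'']
  exact hE.sub_mem_E0_of_mid h' h'' hx0 hx' hs' hss

/-- **Layer 1.** Unipotence on torsion of order prime to the residue characteristic. -/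
theorem ShiftAct.unipotent (hE : IsM1 E) (hc : v E.a₁ ≤ 1) (hU : v E.a₂ ≤ 1)
    (hW : v E.a₄ < 1) (hW0 : E.a₄ ≠ 0) (hb2 : v (E.a₁ ^ 2 + 4 * E.a₂) = 1)
    (hτ : ShiftAct v E σ τ δ ε) (hδ : v δ ≤ v E.a₄) (hε : v ε ≤ v E.a₄)
    (m : ℕ) (hm : v (m : K) = 1) (P : E.Point) (hmP : m • P = 0) :
    τ (τ P - P) = τ P - P := by
  have hdisc := m1_disc_of_b2 hb2 hW
  have h0 := hτ.sub_mem_E0 hE hc hU hW hW0 hb2 hδ hε P
  apply hE.fixed_of_sub_mem_E1 hc hU hW.le _ m hm
  · rw [smul_sub, ← map_nsmul, hmP, map_zero, sub_zero]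
  · exact hτ.sub_mem_E1_of_E0 hE hc hU hW.le hdisc (lt_of_le_of_lt hδ hW) (lt_of_le_of_lt hε hW)
      _ h0

end Fermat.Agent.S58.Uni
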